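import Mathlib
import Fermat.Agent.BR.S0.SmoothDescent
import Fermat.Prelude.Def_AlgebraicCurve_DivisorPushPull

/-!
# Program C, node A6-K: definitions (`RegChart`, `CoverSheet`, `coverTube`)

The `K`-level lift of a smooth chart along a cover which is standard étale at the point of a sheet
(finding #851 of helper24, with the amendments of his message 11205: the field `ψ_root` of
`CoverSheet` is replaced by `ψc_unit`, and `valueGroup` is not a field of `RegChart` but a separate
hypothesis).

* `RegChart A O res Q T` : a `SmoothChart` together with the `K`-level regularity properties which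
  `SmoothChart` forgets: every element of the local ring `R` is regular with the right residue at
  every place of the tube (`centred`) and `R` has fraction field `F'` (`frac`).
* `CoverSheet A π O' res' Q' O'' res'' Q'' R' θ Ψ ψ ψc u` : `F'' = F'[θ]`, `Ψ` the minimal
  polynomial of `θ` (coefficients in `R'`), `O''` over `O'` with compatible residue maps, `Q''` over
  `Q'` unramified, `θ̄(Q'') = ū` a simple root, and a factorisation `Ψ ≡ ψ · ψc` modulo the maximal
  ideal of `O'` with `ψc(θ)` a unit at `Q''` and `1, θ̄, …, θ̄^{deg ψ - 1}` independent over `Ft'`.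
* `coverTube A T' θ u` : the places of `F''` over the tube `T'` at which `θ ≡ u`.
-/

set_option autoImplicit false

namespace Fermat.Agent.BR3.CoverK

open AlgebraicCurve Polynomial Fermat.Agent.Red Fermat.Agent.BR.Centre Fermat.Agent.BR.S0

variable {K k : Type*} [Field K] [Field k]

section Base

variable {F' : Type*} [Field F'] [Algebra K F'] {Ft' : Type*} [Field Ft'] [Algebra k Ft']

/-- A smooth chart together with the `K`-level regularity properties forgotten by
`SmoothChart`. -/
structure RegChart (A : ValuationSubring K) (O : ValuationSubring F') (res : O →+* Ft')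
    (Q : Place k Ft') (T : Set (Place K F')) where
  /-- the underlying smooth chart -/
  chart : SmoothChart A O res Q T
  /-- the elements of the local ring are regular, with the right residue, on the tube -/
  centred : ∀ P ∈ T, CentredAt A chart.R P
  /-- the local ring has fraction field `F'` -/
  frac : ∀ y : F', ∃ a b : chart.R, b ≠ 0 ∧ y * (b : F') = (a : F')

end Base

variable {F' : Type*} [Field F'] [Algebra K F'] {Ft' : Type*} [Field Ft'] [Algebra k Ft']
  {F'' : Type*} [Field F''] [Algebra K F''] [Algebra F' F''] [IsScalarTower K F' F'']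
  {Ft'' : Type*} [Field Ft''] [Algebra k Ft''] [Algebra Ft' Ft''] [IsScalarTower k Ft' Ft'']

/-- The cover is standard étale at the point `Q''` on the sheet `θ ≡ u`. -/
structure CoverSheet (A : ValuationSubring K) (π : A →+* k) (O' : ValuationSubring F')
    (res' : O' →+* Ft') (Q' : Place k Ft') (O'' : ValuationSubring F'') (res'' : O'' →+* Ft'')
    (Q'' : Place k Ft'') (R' : Subring F') (θ : F'') (Ψ ψ ψc : F'[X]) (u : A) : Prop where
  comap_eq : O''.comap (algebraMap F' F'') = O'
  res_map : ∀ (y : F') (hy : y ∈ O') (hy' : algebraMap F' F'' y ∈ O''),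
    res'' ⟨algebraMap F' F'' y, hy'⟩ = algebraMap Ft' Ft'' (res' ⟨y, hy⟩)
  res_eq_zero_iff : ∀ x : O'', res'' x = 0 ↔ (x : F'') ∈ O''.nonunits
  ord_map : ∀ f : Ft', Q''.ord (algebraMap Ft' Ft'' f) = Q'.ord f
  θ_mem : θ ∈ O''
  monic : Ψ.Monic
  irreducible : Irreducible Ψ
  coeff_mem : ∀ n, Ψ.coeff n ∈ R'
  root : aeval θ Ψ = 0
  gen : ∀ y : F'', ∃ p : F'[X], aeval θ p = y
  value : IsValueAt Q'' (res'' ⟨θ, θ_mem⟩) (π u)
  simple : ∀ h : aeval θ (derivative Ψ) ∈ O'',
    ¬ Q''.adicValuation (res'' ⟨aeval θ (derivative Ψ), h⟩) < 1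
  ψ_monic : ψ.Monic
  ψc_monic : ψc.Monic
  ψ_coeff_mem : ∀ n, ψ.coeff n ∈ R'
  ψc_coeff_mem : ∀ n, ψc.coeff n ∈ R'
  factor : ∀ n, (Ψ - ψ * ψc).coeff n ∈ O'.nonunits
  ψc_unit : ∀ h : aeval θ ψc ∈ O'', ¬ Q''.adicValuation (res'' ⟨aeval θ ψc, h⟩) < 1
  indep : ∀ c : Fin ψ.natDegree → Ft',
    ∑ l, algebraMap Ft' Ft'' (c l) * res'' ⟨θ, θ_mem⟩ ^ (l : ℕ) = 0 → c = 0

/-- The sheet `θ ≡ u` over the tube `T'`. -/
def coverTube [Algebra.IsIntegral F' F''] (A : ValuationSubring K) (T' : Set (Place K F'))
    (θ : F'') (u : A) : Set (Place K F'') :=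
  {P'' | P''.restrict F' ∈ T' ∧ ∃ c : K, IsValueAt P'' θ c ∧ A.valuation (c - u) < 1}

theorem mem_coverTube [Algebra.IsIntegral F' F''] {A : ValuationSubring K}
    {T' : Set (Place K F')} {θ : F''} {u : A} {P'' : Place K F''} :
    P'' ∈ coverTube A T' θ u ↔
      P''.restrict F' ∈ T' ∧ ∃ c : K, IsValueAt P'' θ c ∧ A.valuation (c - u) < 1 :=
  Iff.rfl

end Fermat.Agent.BR3.CoverK
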