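import Mathlib
import Fermat.Agent.BR3.CoverK.Defs
import Fermat.Agent.BR3.CoverDiv

/-!
# Program C, node A6-K (EFACT): factorisation of a function of the local ring downstairs

`C : RegChart A O' res' Q' T'` a regular smooth chart with local ring `R' = C.chart.R` and
parameter `t = C.chart.t`.  Every nonzero `e ∈ R'` factors as

  `e = c₀ · ∏_{c ∈ s} (t - c) · v`,   `c₀ ∈ Kˣ`, `c` the coordinates of places of the tube,
  `v ∈ R'ˣ`.

No divisor (finiteness of the set of zeros) is needed: `e = c₀ e₁` with `e₁` a unit of the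
component (value group hypothesis `hvg`), `e₁ ∈ R'` by normality; a zero of `e₁` on the tube is
divided out by `CoverDiv.exists_eq_mul_of_smoothChart`, which lowers the order at the point `Q'`
of the reduction by `ord_res_t = 1`; when no zero is left `e₁⁻¹ ∈ R'` by normality.

* `exists_factor_unit` : the induction, for a unit of the component;
* `exists_factor` : the statement of helper21's finding #1086.
-/

set_option autoImplicit false

namespace Fermat.Agent.BR3.CoverK

open AlgebraicCurve Fermat.Agent.Red Fermat.Agent.BR.Centre Fermat.Agent.BR.S0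
  Fermat.Agent.X0 Fermat.Agent.BR3.CoverDiv

variable {K k : Type*} [Field K] [Field k] {F' : Type*} [Field F'] [Algebra K F']
  {Ft' : Type*} [Field Ft'] [Algebra k Ft'] {A : ValuationSubring K} {π : A →+* k}
  {O' : ValuationSubring F'} {res' : O' →+* Ft'} {Q' : Place k Ft'} {T' : Set (Place K F')}

/-- The factor `t - c`, `|c| < 1`, is a unit of the component with the reduction of `t`. -/
theorem sub_const_unit (C : RegChart A O' res' Q' T')
    (hres : ∀ (a : K) (ha : a ∈ A) (h : algebraMap K F' a ∈ O'),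
      res' ⟨algebraMap K F' a, h⟩ = algebraMap k Ft' (π ⟨a, ha⟩))
    (hres0 : ∀ x : O', res' x = 0 ↔ (x : F') ∈ O'.nonunits)
    (hπ0 : ∀ a : A, A.valuation (a : K) < 1 → π a = 0) {c : K} (hc : A.valuation c < 1) :
    ∃ h : C.chart.t - algebraMap K F' c ∈ O',
      (C.chart.t - algebraMap K F' c)⁻¹ ∈ O' ∧
      res' ⟨C.chart.t - algebraMap K F' c, h⟩ = res' ⟨C.chart.t, C.chart.le _ C.chart.t_mem⟩ := by
  have hcA : c ∈ A := (A.valuation_le_one_iff _).mp hc.le
  have htO : C.chart.t ∈ O' := C.chart.le _ C.chart.t_mem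
  have hcO : algebraMap K F' c ∈ O' := C.chart.le _ (C.chart.algebraMap_mem _ hcA)
  have hmem : C.chart.t - algebraMap K F' c ∈ O' := O'.sub_mem htO hcO
  have hr : res' ⟨C.chart.t - algebraMap K F' c, hmem⟩ = res' ⟨C.chart.t, htO⟩ := by
    have e : (⟨C.chart.t - algebraMap K F' c, hmem⟩ : O') =
        ⟨C.chart.t, htO⟩ - ⟨algebraMap K F' c, hcO⟩ := rfl
    rw [e, map_sub, hres _ hcA, hπ0 ⟨_, hcA⟩ hc, map_zero, sub_zero]
  have hrest : res' ⟨C.chart.t, htO⟩ ≠ 0 := by
    intro h0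
    have := C.chart.ord_res_t
    rw [h0, Place.ord_zero] at this
    exact zero_ne_one this
  refine ⟨hmem, ?_, hr⟩
  have hnn : (C.chart.t - algebraMap K F' c) ∉ O'.nonunits := by
    intro hn
    exact hrest (hr ▸ (hres0 ⟨_, hmem⟩).mpr hn)
  rw [ValuationSubring.mem_nonunits_iff, not_lt] at hnn
  have hle : O'.valuation (C.chart.t - algebraMap K F' c) ≤ 1 :=
    (O'.valuation_le_one_iff _).mpr hmem
  have hval : O'.valuation (C.chart.t - algebraMap K F' c) = 1 := le_antisymm hle hnn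
  rw [← O'.valuation_le_one_iff, map_inv₀, hval, inv_one]

/-- **(EFACT), the induction**: a function of the local ring which is a unit of the component
is a product of factors `t - c` at places of the tube and of a unit of the local ring. -/
theorem exists_factor_unit (C : RegChart A O' res' Q' T')
    (hres : ∀ (a : K) (ha : a ∈ A) (h : algebraMap K F' a ∈ O'),
      res' ⟨algebraMap K F' a, h⟩ = algebraMap k Ft' (π ⟨a, ha⟩))
    (hres0 : ∀ x : O', res' x = 0 ↔ (x : F') ∈ O'.nonunits)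
    (hπ0 : ∀ a : A, A.valuation (a : K) < 1 → π a = 0) :
    ∀ (n : ℕ) (e : F') (he : e ∈ C.chart.R), e ≠ 0 → e⁻¹ ∈ O' →
      Q'.ord (res' ⟨e, C.chart.le e he⟩) = (n : ℤ) →
      ∃ (s : List K) (v : F'), (∀ c ∈ s, ∃ P ∈ T', IsValueAt P C.chart.t c) ∧
        v ∈ C.chart.R ∧ v⁻¹ ∈ C.chart.R ∧
        e = (s.map fun c => C.chart.t - algebraMap K F' c).prod * v := by
  have hint : ∀ P ∈ T', IntegralAt A C.chart.R P := fun P hP => (C.centred P hP).choose
  -- one step: a zero on the tube is divided out and the order at the point drops by one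
  have hstep : ∀ (e : F') (he : e ∈ C.chart.R), e ≠ 0 → e⁻¹ ∈ O' →
      (∃ P ∈ T', IsValueAt P e 0) →
      ∃ (c : K) (e₂ : F') (he₂ : e₂ ∈ C.chart.R), (∃ P ∈ T', IsValueAt P C.chart.t c) ∧
        e₂ ≠ 0 ∧ e₂⁻¹ ∈ O' ∧ e = (C.chart.t - algebraMap K F' c) * e₂ ∧
        Q'.ord (res' ⟨e, C.chart.le e he⟩) = 1 + Q'.ord (res' ⟨e₂, C.chart.le e₂ he₂⟩) ∧
        0 ≤ Q'.ord (res' ⟨e₂, C.chart.le e₂ he₂⟩) := by
    rintro e he he0 heinv ⟨P, hP, h0⟩
    obtain ⟨c, hc1, hc⟩ := C.chart.value P hP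
    obtain ⟨e₂, he₂, hee₂⟩ :=
      exists_eq_mul_of_smoothChart C.chart hres hres0 hπ0 hint hP hc he h0
    obtain ⟨hmem, hinv, hr⟩ := sub_const_unit C hres hres0 hπ0 hc1
    have he₂0 : e₂ ≠ 0 := by
      rintro rfl
      rw [mul_zero] at hee₂
      exact he0 hee₂
    have htc0 : C.chart.t - algebraMap K F' c ≠ 0 := by
      intro h
      rw [h, zero_mul] at hee₂
      exact he0 hee₂
    have he₂inv : e₂⁻¹ = (C.chart.t - algebraMap K F' c) * e⁻¹ := by
      rw [hee₂, mul_inv, mul_comm (C.chart.t - algebraMap K F' c)⁻¹, ← mul_assoc,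
        mul_comm (C.chart.t - algebraMap K F' c), mul_assoc, mul_inv_cancel₀ htc0, mul_one]
    have he₂invO : e₂⁻¹ ∈ O' := by
      rw [he₂inv]
      exact O'.mul_mem _ _ hmem heinv
    have he₂O : e₂ ∈ O' := C.chart.le e₂ he₂
    have hres₂ : res' ⟨e₂, he₂O⟩ ≠ 0 := by
      intro h
      have h1 := (hres0 ⟨e₂, he₂O⟩).mp h
      rw [ValuationSubring.mem_nonunits_iff] at h1
      have h2 : O'.valuation e₂⁻¹ ≤ 1 := (O'.valuation_le_one_iff _).mpr he₂invO
      rw [map_inv₀] at h2
      have h3 : O'.valuation e₂ ≠ 0 := (Valuation.ne_zero_iff _).mpr he₂0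
      have h4 : (1 : O'.ValueGroup) ≤ O'.valuation e₂ := by
        rwa [inv_le_one₀ (zero_lt_iff.mpr h3)] at h2
      exact absurd h1 (not_lt.mpr h4)
    have hrest : res' ⟨C.chart.t, C.chart.le _ C.chart.t_mem⟩ ≠ 0 := by
      intro h
      have := C.chart.ord_res_t
      rw [h, Place.ord_zero] at this
      exact zero_ne_one this
    have hmul : res' ⟨e, C.chart.le e he⟩ =
        res' ⟨C.chart.t, C.chart.le _ C.chart.t_mem⟩ * res' ⟨e₂, he₂O⟩ := by
      rw [← hr, ← map_mul]
      congr 1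
      exact Subtype.ext hee₂
    refine ⟨c, e₂, he₂, ⟨P, hP, hc⟩, he₂0, he₂invO, hee₂, ?_, ?_⟩
    · rw [hmul, Q'.ord_mul hrest hres₂, C.chart.ord_res_t]
    · obtain ⟨a, ha⟩ := C.chart.exists_isValueAt hres he₂
      exact ord_nonneg_of_isValueAt' ha
  -- no zero on the tube: the function is a unit of the local ring
  have hbase : ∀ (e : F') (he : e ∈ C.chart.R), e ≠ 0 → e⁻¹ ∈ O' →
      (¬ ∃ P ∈ T', IsValueAt P e 0) →
      ∃ (s : List K) (v : F'), (∀ c ∈ s, ∃ P ∈ T', IsValueAt P C.chart.t c) ∧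
        v ∈ C.chart.R ∧ v⁻¹ ∈ C.chart.R ∧
        e = (s.map fun c => C.chart.t - algebraMap K F' c).prod * v := by
    intro e he he0 heinv hno
    refine ⟨[], e, ?_, he, ?_, ?_⟩
    · intro c hc
      simp at hc
    · refine C.chart.normal _ heinv fun P hP => ?_
      have hv := (hint P hP).isValueAt_evalAt he
      have hne : evalAt P e ≠ 0 := by
        intro h
        rw [h] at hv
        exact hno ⟨P, hP, hv⟩
      rw [Place.ord_inv, hv.ord_eq_zero hne, neg_zero]
    · rw [List.map_nil, List.prod_nil, one_mul]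
  intro n
  induction n with
  | zero =>
    intro e he he0 heinv hord
    by_cases hz : ∃ P ∈ T', IsValueAt P e 0
    · obtain ⟨c, e₂, he₂, -, -, -, -, h1, h2⟩ := hstep e he he0 heinv hz
      rw [hord] at h1
      exfalso
      push_cast at h1
      omega
    · exact hbase e he he0 heinv hz
  | succ n ih =>
    intro e he he0 heinv hord
    by_cases hz : ∃ P ∈ T', IsValueAt P e 0
    · obtain ⟨c, e₂, he₂, hcP, he₂0, he₂inv, hee₂, h1, h2⟩ := hstep e he he0 heinv hz
      rw [hord] at h1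
      have h3 : Q'.ord (res' ⟨e₂, C.chart.le e₂ he₂⟩) = (n : ℤ) := by
        push_cast at h1
        omega
      obtain ⟨s, v, hs, hv, hvinv, hev⟩ := ih e₂ he₂ he₂0 he₂inv h3
      refine ⟨c :: s, v, ?_, hv, hvinv, ?_⟩
      · intro c' hc'
        rcases List.mem_cons.mp hc' with rfl | hc'
        · exact hcP
        · exact hs c' hc'
      · rw [List.map_cons, List.prod_cons, mul_assoc, ← hev]
        exact hee₂
    · exact hbase e he he0 heinv hz

/-- **(EFACT)**: every nonzero function of the local ring downstairs is the product of a nonzero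
constant, of factors `t - c` at places of the tube, and of a unit of the local ring. -/
theorem exists_factor (C : RegChart A O' res' Q' T')
    (hres : ∀ (a : K) (ha : a ∈ A) (h : algebraMap K F' a ∈ O'),
      res' ⟨algebraMap K F' a, h⟩ = algebraMap k Ft' (π ⟨a, ha⟩))
    (hres0 : ∀ x : O', res' x = 0 ↔ (x : F') ∈ O'.nonunits)
    (hπ0 : ∀ a : A, A.valuation (a : K) < 1 → π a = 0)
    (hvg : ∀ y : F', y ≠ 0 → ∃ c : K, c ≠ 0 ∧ algebraMap K F' c * y ∈ O' ∧
      (algebraMap K F' c * y)⁻¹ ∈ O')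
    {e : F'} (he : e ∈ C.chart.R) (he0 : e ≠ 0) :
    ∃ (c₀ : K) (s : List K) (v : F'), c₀ ≠ 0 ∧
      (∀ c ∈ s, ∃ P ∈ T', IsValueAt P C.chart.t c) ∧ v ∈ C.chart.R ∧ v⁻¹ ∈ C.chart.R ∧
      e = algebraMap K F' c₀ * (s.map fun c => C.chart.t - algebraMap K F' c).prod * v := by
  have hint : ∀ P ∈ T', IntegralAt A C.chart.R P := fun P hP => (C.centred P hP).choose
  obtain ⟨c, hc0, hcO, hcinv⟩ := hvg e he0
  have hcF : algebraMap K F' c ≠ 0 := (_root_.map_ne_zero _).mpr hc0
  have he₁0 : algebraMap K F' c * e ≠ 0 := mul_ne_zero hcF he0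
  have he₁ : algebraMap K F' c * e ∈ C.chart.R := by
    refine C.chart.normal _ hcO fun P hP => ?_
    rw [P.ord_mul hcF he0, Place.ord_algebraMap, zero_add]
    exact (hint P hP).ord_nonneg he
  obtain ⟨a, ha⟩ := C.chart.exists_isValueAt hres he₁
  have hnn : 0 ≤ Q'.ord (res' ⟨algebraMap K F' c * e, C.chart.le _ he₁⟩) :=
    ord_nonneg_of_isValueAt' ha
  obtain ⟨n, hn⟩ := Int.eq_ofNat_of_zero_le hnn
  obtain ⟨s, v, hs, hv, hvinv, hev⟩ :=
    exists_factor_unit C hres hres0 hπ0 n _ he₁ he₁0 hcinv hn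
  refine ⟨c⁻¹, s, v, inv_ne_zero hc0, hs, hv, hvinv, ?_⟩
  rw [mul_assoc, ← hev, map_inv₀, inv_mul_cancel_left₀ hcF]

end Fermat.Agent.BR3.CoverK
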