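import Mathlib
import Fermat.Agent.BR3.CoverK.Defs
import Fermat.Agent.BR3.CoverDiv

/-!
# Program C, node A6-K: the fields of the lifted regular chart, except `normal`

`C : RegChart A O' res' Q' T'` a regular smooth chart downstairs,
`H : CoverSheet A π O' res' Q' O'' res'' Q'' C.chart.R θ Ψ ψ ψc u` a standard étale sheet of the
cover `F'' / F'` at the point `Q''` (`BR3/CoverK/Defs`).  The local ring upstairs is
`ring C H := CoverDiv.coverRing C.chart.R θ O'' res'' Q''` (`C'.R[θ]` localised at the functions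
not vanishing at `Q''`), the tube is `coverTube A T' θ u`, the parameter is the parameter of `C`.

This file proves every field of `RegChart A O'' res'' Q'' (coverTube A T' θ u)` except `normal`:
`le`, `algebraMap_mem`, `residue`, `branch`, `t_mem`, `ord_res_t`, `value`, `simple`, `inj`,
`centred`, `frac`, from (VAL) (`compat`) and (DIV) (`div_mem`) of `BR3/CoverDiv`, and packages
them: `coverRegChartOfNormal C H … hnormal`.
-/

set_option autoImplicit false
set_option linter.unusedVariables false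
set_option linter.unusedSectionVars false

namespace Fermat.Agent.BR3.CoverK.Fields

open AlgebraicCurve Polynomial Fermat.Agent.Red Fermat.Agent.X0 Fermat.Agent.BR.Centre
  Fermat.Agent.BR.S0 Fermat.Agent.BR3.CoverPlaces Fermat.Agent.BR3.CoverDiv Fermat.Agent.BR3.CoverK

variable {K k : Type*} [Field K] [Field k]
  {F' : Type*} [Field F'] [Algebra K F'] {Ft' : Type*} [Field Ft'] [Algebra k Ft']
  {F'' : Type*} [Field F''] [Algebra K F''] [Algebra F' F''] [IsScalarTower K F' F'']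
  {Ft'' : Type*} [Field Ft''] [Algebra k Ft''] [Algebra Ft' Ft''] [IsScalarTower k Ft' Ft'']
  [Algebra.IsIntegral F' F'']
  {A : ValuationSubring K} {π : A →+* k}
  {O' : ValuationSubring F'} {res' : O' →+* Ft'} {Q' : Place k Ft'} {T' : Set (Place K F')}
  {O'' : ValuationSubring F''} {res'' : O'' →+* Ft''} {Q'' : Place k Ft''}
  {θ : F''} {Ψ ψ ψc : F'[X]} {u : A}

/-- the local ring upstairs: `C'.R[θ]` localised at the functions not vanishing at `Q''` -/
def ring (C : RegChart A O' res' Q' T')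
    (H : CoverSheet A π O' res' Q' O'' res'' Q'' C.chart.R θ Ψ ψ ψc u) : Subring F'' :=
  coverRing C.chart.R θ O'' res'' Q''

variable (C : RegChart A O' res' Q' T')
  (H : CoverSheet A π O' res' Q' O'' res'' Q'' C.chart.R θ Ψ ψ ψc u)

include C H

/-- the component upstairs contains the component downstairs -/
theorem mem_of_mem {y : F'} (hy : y ∈ O') : algebraMap F' F'' y ∈ O'' := by
  have h := H.comap_eq
  rw [← h] at hy
  exact hy

/-- the value of `θ` at the point -/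
theorem ptValue_theta : PtValue O'' res'' Q'' θ (π u) := ⟨H.θ_mem, H.value⟩

/-- the residue map upstairs kills the non-units -/
theorem res_eq_zero_of_mem_nonunits (x : O'') (hx : (x : F'') ∈ O''.nonunits) : res'' x = 0 :=
  (H.res_eq_zero_iff x).mpr hx

omit C H in
/-- the residue of the inverse of a unit of `A` -/
theorem map_inv_of_mem {σ : A} (h : (σ : K)⁻¹ ∈ A) (hσ : π σ ≠ 0) :
    π ⟨(σ : K)⁻¹, h⟩ = (π σ)⁻¹ := by
  have hσ0 : (σ : K) ≠ 0 := by
    intro h0
    apply hσ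
    have : σ = 0 := Subtype.ext h0
    rw [this, map_zero]
  apply eq_inv_of_mul_eq_one_left
  rw [← map_mul]
  have : (⟨(σ : K)⁻¹, h⟩ : A) * σ = 1 := Subtype.ext (inv_mul_cancel₀ hσ0)
  rw [this, map_one]

omit C H in
/-- an element of `A` with zero residue is not a unit -/
theorem valuation_lt_one_of_map_eq_zero {c : A} (hc : π c = 0) : A.valuation (c : K) < 1 := by
  by_contra hlt
  have h1 : A.valuation (c : K) = 1 :=
    le_antisymm ((A.valuation_le_one_iff _).mpr c.2) (not_lt.mp hlt)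
  have hc0 : (c : K) ≠ 0 := by
    intro h
    rw [h, map_zero] at h1
    exact zero_ne_one h1
  have hinv : (c : K)⁻¹ ∈ A := by
    rw [← A.valuation_le_one_iff, map_inv₀, h1, inv_one]
  have h2 : c * ⟨(c : K)⁻¹, hinv⟩ = 1 := Subtype.ext (mul_inv_cancel₀ hc0)
  have h3 := congrArg π h2
  rw [map_mul, hc, zero_mul, map_one] at h3
  exact zero_ne_one h3

/-- the value at the point of a constant -/
theorem ptValue_const
    (hres : ∀ (a : K) (ha : a ∈ A) (h : algebraMap K F' a ∈ O'),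
      res' ⟨algebraMap K F' a, h⟩ = algebraMap k Ft' (π ⟨a, ha⟩))
    (a : A) : PtValue O'' res'' Q'' (algebraMap K F'' (a : K)) (π a) := by
  have h1 : PtValue O' res' Q' (algebraMap K F' (a : K)) (π a) := by
    refine ⟨C.chart.le _ (C.chart.algebraMap_mem a a.2), ?_⟩
    rw [hres a a.2]
    exact isValueAt_algebraMap Q' (π a)
  have h2 := h1.map (fun y hy => mem_of_mem C H hy) H.res_map H.ord_map
  rwa [← IsScalarTower.algebraMap_apply] at h2

/-- the values at the point of the functions of the chart ring downstairs -/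
theorem ptValue_base
    (hres : ∀ (a : K) (ha : a ∈ A) (h : algebraMap K F' a ∈ O'),
      res' ⟨algebraMap K F' a, h⟩ = algebraMap k Ft' (π ⟨a, ha⟩))
    {y : F'} (hy : y ∈ C.chart.R) :
    ∃ a : A, PtValue O'' res'' Q'' (algebraMap F' F'' y) (π a) := by
  obtain ⟨a, ha⟩ := C.chart.exists_isValueAt hres hy
  exact ⟨a, PtValue.map (fun y hy => mem_of_mem C H hy) H.res_map H.ord_map
    ⟨C.chart.le y hy, ha⟩⟩

/-- every function of the local ring upstairs has a value at the point, the residue of a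
constant -/
theorem exists_ptValue
    (hres : ∀ (a : K) (ha : a ∈ A) (h : algebraMap K F' a ∈ O'),
      res' ⟨algebraMap K F' a, h⟩ = algebraMap k Ft' (π ⟨a, ha⟩))
    (hπ : ∀ a : A, π a ≠ 0 → (a : K)⁻¹ ∈ A)
    {z : F''} (hz : z ∈ ring C H) :
    ∃ a : A, PtValue O'' res'' Q'' z (π a) := by
  have hpoly : ∀ z ∈ polyRing C.chart.R θ, ∃ a : A, PtValue O'' res'' Q'' z (π a) := by
    intro z hz
    refine polyRing_induction (p := fun z => ∃ a : A, PtValue O'' res'' Q'' z (π a))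
      (fun y hy => ptValue_base C H hres hy) ⟨u, ptValue_theta C H⟩ ?_ ?_ hz
    · rintro x y ⟨a, ha⟩ ⟨b, hb⟩
      exact ⟨a + b, by rw [map_add]; exact ha.add hb⟩
    · rintro x y ⟨a, ha⟩ ⟨b, hb⟩
      exact ⟨a * b, by rw [map_mul]; exact ha.mul hb⟩
  obtain ⟨a₀, s, ha₀, hs, ⟨d, hd, hsd⟩, hzs⟩ := hz
  obtain ⟨α, hα⟩ := hpoly a₀ ha₀
  obtain ⟨σ, hσ⟩ := hpoly s hs
  have hσd : π σ = d := hσ.unique hsd
  have hσ0 : π σ ≠ 0 := by rw [hσd]; exact hd
  have hinv := hπ σ hσ0
  have hs0 : s ≠ 0 := by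
    rintro rfl
    exact hd (hsd.unique ptValue_zero)
  have hz' : z = a₀ * s⁻¹ := by
    rw [← hzs, mul_assoc, mul_inv_cancel₀ hs0, mul_one]
  refine ⟨α * ⟨(σ : K)⁻¹, hinv⟩, ?_⟩
  rw [hz', map_mul, map_inv_of_mem hinv hσ0]
  exact hα.mul (PtValue.inv (res_eq_zero_of_mem_nonunits C H) hσ hσ0)

theorem le
    (hres : ∀ (a : K) (ha : a ∈ A) (h : algebraMap K F' a ∈ O'),
      res' ⟨algebraMap K F' a, h⟩ = algebraMap k Ft' (π ⟨a, ha⟩))
    (hπ : ∀ a : A, π a ≠ 0 → (a : K)⁻¹ ∈ A)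
    {z : F''} (hz : z ∈ ring C H) : z ∈ O'' := by
  obtain ⟨a, ha⟩ := exists_ptValue C H hres hπ hz
  exact ha.mem

theorem algebraMap_mem (a : K) (ha : a ∈ A) : algebraMap K F'' a ∈ ring C H := by
  rw [IsScalarTower.algebraMap_apply K F' F'']
  exact polyRing_le_coverRing _ _ (algebraMap_mem_polyRing θ (C.chart.algebraMap_mem a ha))

/-- a function of the local ring upstairs with nonzero value at the point is a unit -/
theorem isUnit_of_ptValue_ne_zero (y : ring C H) {d : k} (hd : d ≠ 0)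
    (hyd : PtValue O'' res'' Q'' (y : F'') d) : IsUnit y := by
  obtain ⟨a₀, s, ha₀, hs, ⟨e, he, hse⟩, hys⟩ := y.2
  have ha₀v : PtValue O'' res'' Q'' a₀ (d * e) := by
    rw [← hys]
    exact hyd.mul hse
  have ha₀inv : a₀⁻¹ ∈ ring C H := inv_mem_coverRing ha₀ (mul_ne_zero hd he) ha₀v
  have ha₀0 : a₀ ≠ 0 := by
    rintro rfl
    exact mul_ne_zero hd he (ha₀v.unique ptValue_zero)
  have hsR : s ∈ ring C H := polyRing_le_coverRing _ _ hs
  rw [isUnit_iff_exists_inv]
  refine ⟨⟨s * a₀⁻¹, Subring.mul_mem _ hsR ha₀inv⟩, Subtype.ext ?_⟩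
  show (y : F'') * (s * a₀⁻¹) = 1
  rw [← mul_assoc, hys, mul_inv_cancel₀ ha₀0]

/-- a non-unit of the local ring upstairs vanishes at the point -/
theorem ptValue_zero_of_not_isUnit
    (hres : ∀ (a : K) (ha : a ∈ A) (h : algebraMap K F' a ∈ O'),
      res' ⟨algebraMap K F' a, h⟩ = algebraMap k Ft' (π ⟨a, ha⟩))
    (hπ : ∀ a : A, π a ≠ 0 → (a : K)⁻¹ ∈ A)
    (y : ring C H) (hy : ¬ IsUnit y) : PtValue O'' res'' Q'' (y : F'') 0 := by
  obtain ⟨a, ha⟩ := exists_ptValue C H hres hπ y.2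
  by_cases h0 : π a = 0
  · rwa [h0] at ha
  · exact absurd (isUnit_of_ptValue_ne_zero C H y h0 ha) hy

/-- a function of the local ring upstairs vanishing at the point is not a unit -/
theorem not_isUnit_of_ptValue_zero
    (hres : ∀ (a : K) (ha : a ∈ A) (h : algebraMap K F' a ∈ O'),
      res' ⟨algebraMap K F' a, h⟩ = algebraMap k Ft' (π ⟨a, ha⟩))
    (hπ : ∀ a : A, π a ≠ 0 → (a : K)⁻¹ ∈ A)
    (y : ring C H) (hy : PtValue O'' res'' Q'' (y : F'') 0) : ¬ IsUnit y := by
  intro hu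
  obtain ⟨v, hv⟩ := isUnit_iff_exists_inv.mp hu
  obtain ⟨b, hb⟩ := exists_ptValue C H hres hπ v.2
  have h1 := hy.mul hb
  have h2 : (y : F'') * (v : F'') = 1 := by
    have := congrArg (fun w : ring C H => (w : F'')) hv
    exact this
  rw [h2, zero_mul] at h1
  exact zero_ne_one (h1.unique ptValue_one)

theorem residue
    (hres : ∀ (a : K) (ha : a ∈ A) (h : algebraMap K F' a ∈ O'),
      res' ⟨algebraMap K F' a, h⟩ = algebraMap k Ft' (π ⟨a, ha⟩))
    (hπ : ∀ a : A, π a ≠ 0 → (a : K)⁻¹ ∈ A)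
    (y : ring C H) :
    ∃ a : A, ¬ IsUnit (y - ⟨algebraMap K F'' a, algebraMap_mem C H a a.2⟩) := by
  obtain ⟨a, ha⟩ := exists_ptValue C H hres hπ y.2
  refine ⟨a, not_isUnit_of_ptValue_zero C H hres hπ _ ?_⟩
  have h1 := ha.sub (ptValue_const C H hres a)
  rwa [sub_self] at h1

theorem branch
    (hres : ∀ (a : K) (ha : a ∈ A) (h : algebraMap K F' a ∈ O'),
      res' ⟨algebraMap K F' a, h⟩ = algebraMap k Ft' (π ⟨a, ha⟩))
    (hπ : ∀ a : A, π a ≠ 0 → (a : K)⁻¹ ∈ A)
    (y : ring C H) (hy : ¬ IsUnit y) :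
    Q''.adicValuation (res'' ⟨y, le C H hres hπ y.2⟩) < 1 := by
  obtain ⟨h1, h2⟩ := ptValue_zero_of_not_isUnit C H hres hπ y hy
  unfold IsValueAt at h2
  rwa [map_zero, sub_zero] at h2

theorem t_mem : algebraMap F' F'' C.chart.t ∈ ring C H :=
  polyRing_le_coverRing _ _ (algebraMap_mem_polyRing θ C.chart.t_mem)

theorem ord_res_t
    (hres : ∀ (a : K) (ha : a ∈ A) (h : algebraMap K F' a ∈ O'),
      res' ⟨algebraMap K F' a, h⟩ = algebraMap k Ft' (π ⟨a, ha⟩))
    (hπ : ∀ a : A, π a ≠ 0 → (a : K)⁻¹ ∈ A) :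
    Q''.ord (res'' ⟨algebraMap F' F'' C.chart.t, le C H hres hπ (t_mem C H)⟩) = 1 := by
  rw [H.res_map _ (C.chart.le _ C.chart.t_mem), H.ord_map]
  exact C.chart.ord_res_t

theorem value (P'' : Place K F'') (hP : P'' ∈ coverTube A T' θ u) :
    ∃ c : K, A.valuation c < 1 ∧ IsValueAt P'' (algebraMap F' F'' C.chart.t) c := by
  obtain ⟨c, hc, hv⟩ := C.chart.value _ hP.1
  exact ⟨c, hc, (isValueAt_restrict_iff P'' _ c).mp hv⟩

/-- the hypothesis `hbase` of `BR3/CoverDiv` -/
theorem base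
    (hres : ∀ (a : K) (ha : a ∈ A) (h : algebraMap K F' a ∈ O'),
      res' ⟨algebraMap K F' a, h⟩ = algebraMap k Ft' (π ⟨a, ha⟩))
    (hπ0 : ∀ a : A, A.valuation (a : K) < 1 → π a = 0)
    {P'' : Place K F''} (hP : P'' ∈ coverTube A T' θ u) :
    ∀ y ∈ C.chart.R, Compat π O'' res'' Q'' P'' (algebraMap F' F'' y) :=
  compat_base C.chart hres hπ0 (fun y hy => mem_of_mem C H hy) H.res_map H.ord_map
    (C.centred _ hP.1)

/-- **(VAL)** on the tube upstairs -/
theorem compat
    (hres : ∀ (a : K) (ha : a ∈ A) (h : algebraMap K F' a ∈ O'),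
      res' ⟨algebraMap K F' a, h⟩ = algebraMap k Ft' (π ⟨a, ha⟩))
    (hπ : ∀ a : A, π a ≠ 0 → (a : K)⁻¹ ∈ A)
    (hπ0 : ∀ a : A, A.valuation (a : K) < 1 → π a = 0)
    {P'' : Place K F''} (hP : P'' ∈ coverTube A T' θ u) {z : F''}
    (hz : z ∈ ring C H) : Compat π O'' res'' Q'' P'' z := by
  obtain ⟨ϑ, hθP, hϑ⟩ := hP.2
  exact compat_coverRing hπ0 hπ (res_eq_zero_of_mem_nonunits C H) (base C H hres hπ0 hP) hθP hϑ
    (ptValue_theta C H) hz

theorem centred
    (hres : ∀ (a : K) (ha : a ∈ A) (h : algebraMap K F' a ∈ O'),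
      res' ⟨algebraMap K F' a, h⟩ = algebraMap k Ft' (π ⟨a, ha⟩))
    (hπ : ∀ a : A, π a ≠ 0 → (a : K)⁻¹ ∈ A)
    (hπ0 : ∀ a : A, A.valuation (a : K) < 1 → π a = 0)
    (P'' : Place K F'') (hP : P'' ∈ coverTube A T' θ u) :
    CentredAt A (ring C H) P'' := by
  have hI : IntegralAt A (ring C H) P'' := fun y hy =>
    (compat C H hres hπ hπ0 hP hy).exists_isValueAt
  refine ⟨hI, fun y hy => ?_⟩
  rw [mem_centre_iff]
  obtain ⟨c, hc1, hc2⟩ := compat C H hres hπ hπ0 hP y.2
  have h0 := ptValue_zero_of_not_isUnit C H hres hπ y hy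
  have hπc : π c = 0 := hc2.unique h0
  rw [evalAt_eq_of_isValueAt hc1]
  exact valuation_lt_one_of_map_eq_zero hπc

omit H in
/-- a common denominator in the chart ring downstairs for the coefficients of a polynomial -/
theorem exists_denominator (p : F'[X]) :
    ∃ b ∈ C.chart.R, b ≠ 0 ∧ ∀ n, b * p.coeff n ∈ C.chart.R := by
  classical
  choose a b hb hab using fun n : ℕ => C.frac (p.coeff n)
  refine ⟨∏ n ∈ p.support, (b n : F'), Subring.prod_mem _ fun n _ => (b n).2, ?_, fun n => ?_⟩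
  · rw [Finset.prod_ne_zero_iff]
    intro n _ h0
    exact hb n (Subtype.ext h0)
  · by_cases hn : n ∈ p.support
    · rw [← Finset.mul_prod_erase _ _ hn, mul_comm ((b n : F')) _, mul_assoc,
        mul_comm ((b n : F')) _, hab n]
      exact Subring.mul_mem _ (Subring.prod_mem _ fun m _ => (b m).2) (a n).2
    · rw [notMem_support_iff.mp hn, mul_zero]
      exact Subring.zero_mem _

theorem frac (y : F'') : ∃ a b : ring C H, b ≠ 0 ∧ y * (b : F'') = (a : F'') := by
  obtain ⟨p, hp⟩ := H.gen y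
  obtain ⟨b, hbR, hb0, hbp⟩ := exists_denominator C p
  have hbmem : algebraMap F' F'' b ∈ ring C H :=
    polyRing_le_coverRing _ _ (algebraMap_mem_polyRing θ hbR)
  have hamem : aeval θ (Polynomial.C b * p) ∈ ring C H := by
    refine polyRing_le_coverRing _ _ (aeval_mem_polyRing fun n => ?_)
    rw [coeff_C_mul]
    exact hbp n
  refine ⟨⟨_, hamem⟩, ⟨_, hbmem⟩, ?_, ?_⟩
  · intro h0
    have h1 : algebraMap F' F'' b = 0 := congrArg (fun w : ring C H => (w : F'')) h0
    exact hb0 ((map_eq_zero_iff _ (algebraMap F' F'').injective).mp h1)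
  · show y * algebraMap F' F'' b = aeval θ (Polynomial.C b * p)
    rw [map_mul, aeval_C, hp, mul_comm]

/-- **(DIV)** upstairs -/
theorem div_mem
    (hres : ∀ (a : K) (ha : a ∈ A) (h : algebraMap K F' a ∈ O'),
      res' ⟨algebraMap K F' a, h⟩ = algebraMap k Ft' (π ⟨a, ha⟩))
    (hres0 : ∀ x : O', res' x = 0 ↔ (x : F') ∈ O'.nonunits)
    (hπ : ∀ a : A, π a ≠ 0 → (a : K)⁻¹ ∈ A)
    (hπ0 : ∀ a : A, A.valuation (a : K) < 1 → π a = 0)
    {P'' : Place K F''} (hP : P'' ∈ coverTube A T' θ u) {c : K}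
    (hc : IsValueAt P'' (algebraMap F' F'' C.chart.t) c) {z : F''} (hz : z ∈ ring C H)
    (hz0 : IsValueAt P'' z 0) :
    z / (algebraMap F' F'' C.chart.t - algebraMap K F'' c) ∈ ring C H := by
  obtain ⟨ϑ, hθP, hϑ⟩ := hP.2
  have hc' : IsValueAt (P''.restrict F') C.chart.t c := (isValueAt_restrict_iff P'' _ c).mpr hc
  have hint : ∀ P ∈ T', IntegralAt A C.chart.R P := fun P hPT => (C.centred P hPT).choose
  have hdiv' : ∀ y ∈ C.chart.R, IsValueAt (P''.restrict F') y 0 →
      ∃ y' ∈ C.chart.R, y = (C.chart.t - algebraMap K F' c) * y' := fun y hy hy0 =>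
    exists_eq_mul_of_smoothChart C.chart hres hres0 hπ0 hint hP.1 hc' hy hy0
  have hsimple : ∀ d : k, PtValue O'' res'' Q'' (aeval θ (derivative Ψ)) d → d ≠ 0 := by
    rintro d ⟨h1, h2⟩ rfl
    apply H.simple h1
    unfold IsValueAt at h2
    rwa [map_zero, sub_zero] at h2
  exact div_mem_coverRing hπ0 hπ (res_eq_zero_of_mem_nonunits C H) C.chart.algebraMap_mem
    (base C H hres hπ0 hP) hdiv' H.coeff_mem H.root hθP hϑ (ptValue_theta C H) hsimple hz hz0

/-- the functions of the local ring upstairs are regular on the tube -/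
theorem ord_nonneg_of_mem
    (hres : ∀ (a : K) (ha : a ∈ A) (h : algebraMap K F' a ∈ O'),
      res' ⟨algebraMap K F' a, h⟩ = algebraMap k Ft' (π ⟨a, ha⟩))
    (hπ : ∀ a : A, π a ≠ 0 → (a : K)⁻¹ ∈ A)
    (hπ0 : ∀ a : A, A.valuation (a : K) < 1 → π a = 0)
    {P'' : Place K F''} (hP : P'' ∈ coverTube A T' θ u) {z : F''} (hz : z ∈ ring C H) :
    0 ≤ P''.ord z := by
  obtain ⟨c, hc, -⟩ := compat C H hres hπ hπ0 hP hz
  rcases (P''.adicValuation_le_one_iff).mp hc.adicValuation_le_one with rfl | h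
  · rw [Place.ord_zero]
  · exact h

/-- the parameter minus its value at a place of the tube is not zero -/
theorem t_sub_ne_zero {P'' : Place K F''} (hP : P'' ∈ coverTube A T' θ u) {c : K}
    (hc : IsValueAt P'' (algebraMap F' F'' C.chart.t) c) :
    algebraMap F' F'' C.chart.t - algebraMap K F'' c ≠ 0 := by
  have hc' : IsValueAt (P''.restrict F') C.chart.t c := (isValueAt_restrict_iff P'' _ c).mpr hc
  have h1 := C.chart.simple _ hP.1 c hc'
  intro h0
  have h2 : algebraMap F' F'' (C.chart.t - algebraMap K F' c) = 0 := by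
    rw [map_sub, ← IsScalarTower.algebraMap_apply]
    exact h0
  rw [(map_eq_zero_iff _ (algebraMap F' F'').injective).mp h2, Place.ord_zero] at h1
  exact zero_ne_one h1

/-- the order at a place of the tube of a function of the local ring upstairs is a multiple of
the order of `t - c` -/
theorem dvd_ord
    (hres : ∀ (a : K) (ha : a ∈ A) (h : algebraMap K F' a ∈ O'),
      res' ⟨algebraMap K F' a, h⟩ = algebraMap k Ft' (π ⟨a, ha⟩))
    (hres0 : ∀ x : O', res' x = 0 ↔ (x : F') ∈ O'.nonunits)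
    (hπ : ∀ a : A, π a ≠ 0 → (a : K)⁻¹ ∈ A)
    (hπ0 : ∀ a : A, A.valuation (a : K) < 1 → π a = 0)
    {P'' : Place K F''} (hP : P'' ∈ coverTube A T' θ u) {c : K}
    (hc : IsValueAt P'' (algebraMap F' F'' C.chart.t) c) :
    ∀ (n : ℕ) (z : F''), z ∈ ring C H → z ≠ 0 → P''.ord z = n →
      P''.ord (algebraMap F' F'' C.chart.t - algebraMap K F'' c) ∣ P''.ord z := by
  have htc0 := t_sub_ne_zero C H hP hc
  have he : 0 < P''.ord (algebraMap F' F'' C.chart.t - algebraMap K F'' c) := by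
    have h1 : IsValueAt P'' (algebraMap F' F'' C.chart.t - algebraMap K F'' c) 0 := by
      have := hc.sub (isValueAt_algebraMap P'' c)
      rwa [sub_self] at this
    unfold IsValueAt at h1
    rw [map_zero, sub_zero] at h1
    exact ((adicValuation_lt_one_iff P'').mp h1).resolve_left htc0
  intro n
  induction n using Nat.strong_induction_on with
  | _ n ih =>
    intro z hz hz0 hn
    obtain ⟨cz, hcz, -⟩ := compat C H hres hπ hπ0 hP hz
    by_cases hcz0 : (cz : K) = 0
    · rw [hcz0] at hcz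
      have hz₁ := div_mem C H hres hres0 hπ hπ0 hP hc hz hcz
      have hz₁0 : z / (algebraMap F' F'' C.chart.t - algebraMap K F'' c) ≠ 0 :=
        div_ne_zero hz0 htc0
      have hord : P''.ord (z / (algebraMap F' F'' C.chart.t - algebraMap K F'' c)) =
          P''.ord z - P''.ord (algebraMap F' F'' C.chart.t - algebraMap K F'' c) := by
        rw [div_eq_mul_inv, P''.ord_mul hz0 (inv_ne_zero htc0), Place.ord_inv]
        ring
      obtain ⟨c₁, hc₁, -⟩ := compat C H hres hπ hπ0 hP hz₁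
      have hnonneg : 0 ≤ P''.ord (z / (algebraMap F' F'' C.chart.t - algebraMap K F'' c)) := by
        rcases (P''.adicValuation_le_one_iff).mp hc₁.adicValuation_le_one with h | h
        · exact absurd h hz₁0
        · exact h
      have hlt : (P''.ord (z / (algebraMap F' F'' C.chart.t - algebraMap K F'' c))).toNat < n := by
        have : ((P''.ord (z / (algebraMap F' F'' C.chart.t - algebraMap K F'' c))).toNat : ℤ) =
            P''.ord (z / (algebraMap F' F'' C.chart.t - algebraMap K F'' c)) :=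
          Int.toNat_of_nonneg hnonneg
        omega
      have := ih _ hlt _ hz₁ hz₁0 (Int.toNat_of_nonneg hnonneg).symm
      rw [hord] at this
      have h2 := dvd_add this (dvd_refl (P''.ord (algebraMap F' F'' C.chart.t - algebraMap K F'' c)))
      rwa [sub_add_cancel] at h2
    · rw [hcz.ord_eq_zero hcz0]
      exact dvd_zero _

theorem simple
    (hres : ∀ (a : K) (ha : a ∈ A) (h : algebraMap K F' a ∈ O'),
      res' ⟨algebraMap K F' a, h⟩ = algebraMap k Ft' (π ⟨a, ha⟩))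
    (hres0 : ∀ x : O', res' x = 0 ↔ (x : F') ∈ O'.nonunits)
    (hπ : ∀ a : A, π a ≠ 0 → (a : K)⁻¹ ∈ A)
    (hπ0 : ∀ a : A, A.valuation (a : K) < 1 → π a = 0)
    (P'' : Place K F'') (hP : P'' ∈ coverTube A T' θ u) (c : K)
    (hc : IsValueAt P'' (algebraMap F' F'' C.chart.t) c) :
    P''.ord (algebraMap F' F'' C.chart.t - algebraMap K F'' c) = 1 := by
  have htc0 := t_sub_ne_zero C H hP hc
  have he : 0 < P''.ord (algebraMap F' F'' C.chart.t - algebraMap K F'' c) := by
    have h1 : IsValueAt P'' (algebraMap F' F'' C.chart.t - algebraMap K F'' c) 0 := by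
      have := hc.sub (isValueAt_algebraMap P'' c)
      rwa [sub_self] at this
    unfold IsValueAt at h1
    rw [map_zero, sub_zero] at h1
    exact ((adicValuation_lt_one_iff P'').mp h1).resolve_left htc0
  obtain ⟨τ, hτ⟩ : ∃ τ : F'', P''.ord τ = 1 := by
    obtain ⟨ϖP, hirr⟩ := IsDiscreteValuationRing.exists_irreducible P''.toValuationSubring
    exact ⟨ϖP, P''.ord_coe_irreducible hirr⟩
  have hτ0 : τ ≠ 0 := by
    rintro rfl
    rw [Place.ord_zero] at hτ
    exact zero_ne_one hτ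
  obtain ⟨a, b, hb, hab⟩ := frac C H τ
  have hbF : (b : F'') ≠ 0 := fun h0 => hb (Subtype.ext h0)
  have haF : (a : F'') ≠ 0 := by
    rw [← hab]
    exact mul_ne_zero hτ0 hbF
  have h1 := dvd_ord C H hres hres0 hπ hπ0 hP hc _ (a : F'') a.2 haF
    (Int.toNat_of_nonneg (ord_nonneg_of_mem C H hres hπ hπ0 hP a.2)).symm
  have h2 := dvd_ord C H hres hres0 hπ hπ0 hP hc _ (b : F'') b.2 hbF
    (Int.toNat_of_nonneg (ord_nonneg_of_mem C H hres hπ hπ0 hP b.2)).symm
  have h3 : P''.ord (a : F'') = 1 + P''.ord (b : F'') := by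
    rw [← hab, P''.ord_mul hτ0 hbF, hτ]
  rw [h3] at h1
  have h4 : P''.ord (algebraMap F' F'' C.chart.t - algebraMap K F'' c) ∣ 1 :=
    (Int.dvd_add_left h2).mp h1
  exact Int.eq_one_of_dvd_one he.le h4

/-- two places of the tube upstairs with the same value of the parameter give the same orders on
the local ring -/
theorem ord_eq_ord_of_mem
    (hres : ∀ (a : K) (ha : a ∈ A) (h : algebraMap K F' a ∈ O'),
      res' ⟨algebraMap K F' a, h⟩ = algebraMap k Ft' (π ⟨a, ha⟩))
    (hres0 : ∀ x : O', res' x = 0 ↔ (x : F') ∈ O'.nonunits)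
    (hπ : ∀ a : A, π a ≠ 0 → (a : K)⁻¹ ∈ A)
    (hπ0 : ∀ a : A, A.valuation (a : K) < 1 → π a = 0)
    {P₁ : Place K F''} (hP₁ : P₁ ∈ coverTube A T' θ u) {P₂ : Place K F''}
    (hP₂ : P₂ ∈ coverTube A T' θ u) {c : K}
    (hc₁ : IsValueAt P₁ (algebraMap F' F'' C.chart.t) c)
    (hc₂ : IsValueAt P₂ (algebraMap F' F'' C.chart.t) c) :
    ∀ (n : ℕ) (z : F''), z ∈ ring C H → z ≠ 0 → P₁.ord z = n → P₂.ord z = P₁.ord z := by
  have htc0 := t_sub_ne_zero C H hP₁ hc₁
  have hs₁ := simple C H hres hres0 hπ hπ0 P₁ hP₁ c hc₁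
  have hs₂ := simple C H hres hres0 hπ hπ0 P₂ hP₂ c hc₂
  intro n
  induction n using Nat.strong_induction_on with
  | _ n ih =>
    intro z hz hz0 hn
    obtain ⟨cz₁, hcz₁, -⟩ := compat C H hres hπ hπ0 hP₁ hz
    obtain ⟨cz₂, hcz₂, -⟩ := compat C H hres hπ hπ0 hP₂ hz
    by_cases h10 : (cz₁ : K) = 0
    · rw [h10] at hcz₁
      have hz₁ := div_mem C H hres hres0 hπ hπ0 hP₁ hc₁ hz hcz₁
      have hz₁0 : z / (algebraMap F' F'' C.chart.t - algebraMap K F'' c) ≠ 0 :=
        div_ne_zero hz0 htc0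
      have hord₁ : P₁.ord (z / (algebraMap F' F'' C.chart.t - algebraMap K F'' c)) =
          P₁.ord z - 1 := by
        rw [div_eq_mul_inv, P₁.ord_mul hz0 (inv_ne_zero htc0), Place.ord_inv, hs₁]
        ring
      have hord₂ : P₂.ord (z / (algebraMap F' F'' C.chart.t - algebraMap K F'' c)) =
          P₂.ord z - 1 := by
        rw [div_eq_mul_inv, P₂.ord_mul hz0 (inv_ne_zero htc0), Place.ord_inv, hs₂]
        ring
      obtain ⟨c₁, hc₁', -⟩ := compat C H hres hπ hπ0 hP₁ hz₁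
      have hnonneg : 0 ≤ P₁.ord (z / (algebraMap F' F'' C.chart.t - algebraMap K F'' c)) := by
        rcases (P₁.adicValuation_le_one_iff).mp hc₁'.adicValuation_le_one with h | h
        · exact absurd h hz₁0
        · exact h
      have hlt : (P₁.ord (z / (algebraMap F' F'' C.chart.t - algebraMap K F'' c))).toNat < n := by
        have : ((P₁.ord (z / (algebraMap F' F'' C.chart.t - algebraMap K F'' c))).toNat : ℤ) =
            P₁.ord (z / (algebraMap F' F'' C.chart.t - algebraMap K F'' c)) :=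
          Int.toNat_of_nonneg hnonneg
        omega
      have := ih _ hlt _ hz₁ hz₁0 (Int.toNat_of_nonneg hnonneg).symm
      rw [hord₁, hord₂] at this
      omega
    · rw [hcz₁.ord_eq_zero h10]
      by_cases h20 : (cz₂ : K) = 0
      · exfalso
        rw [h20] at hcz₂
        have hz₂ := div_mem C H hres hres0 hπ hπ0 hP₂ hc₂ hz hcz₂
        obtain ⟨w, hw, -⟩ := compat C H hres hπ hπ0 hP₁ hz₂
        have h1 : IsValueAt P₁ (algebraMap F' F'' C.chart.t - algebraMap K F'' c) 0 := by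
          have := hc₁.sub (isValueAt_algebraMap P₁ c)
          rwa [sub_self] at this
        have h2 := h1.mul hw
        rw [mul_div_cancel₀ _ htc0, zero_mul] at h2
        exact h10 (hcz₁.unique h2)
      · exact hcz₂.ord_eq_zero h20

theorem inj
    (hres : ∀ (a : K) (ha : a ∈ A) (h : algebraMap K F' a ∈ O'),
      res' ⟨algebraMap K F' a, h⟩ = algebraMap k Ft' (π ⟨a, ha⟩))
    (hres0 : ∀ x : O', res' x = 0 ↔ (x : F') ∈ O'.nonunits)
    (hπ : ∀ a : A, π a ≠ 0 → (a : K)⁻¹ ∈ A)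
    (hπ0 : ∀ a : A, A.valuation (a : K) < 1 → π a = 0)
    (P₁ : Place K F'') (hP₁ : P₁ ∈ coverTube A T' θ u) (P₂ : Place K F'')
    (hP₂ : P₂ ∈ coverTube A T' θ u) (c : K)
    (hc₁ : IsValueAt P₁ (algebraMap F' F'' C.chart.t) c)
    (hc₂ : IsValueAt P₂ (algebraMap F' F'' C.chart.t) c) : P₁ = P₂ := by
  have key : ∀ y : F'', P₁.ord y = P₂.ord y := by
    intro y
    rcases eq_or_ne y 0 with rfl | hy0
    · rw [Place.ord_zero, Place.ord_zero]
    obtain ⟨a, b, hb, hab⟩ := frac C H y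
    have hbF : (b : F'') ≠ 0 := fun h0 => hb (Subtype.ext h0)
    have haF : (a : F'') ≠ 0 := by
      rw [← hab]
      exact mul_ne_zero hy0 hbF
    have ha1 := ord_eq_ord_of_mem C H hres hres0 hπ hπ0 hP₁ hP₂ hc₁ hc₂ _ (a : F'') a.2 haF
      (Int.toNat_of_nonneg (ord_nonneg_of_mem C H hres hπ hπ0 hP₁ a.2)).symm
    have hb1 := ord_eq_ord_of_mem C H hres hres0 hπ hπ0 hP₁ hP₂ hc₁ hc₂ _ (b : F'') b.2 hbF
      (Int.toNat_of_nonneg (ord_nonneg_of_mem C H hres hπ hπ0 hP₁ b.2)).symm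
    have h3 : P₁.ord y + P₁.ord (b : F'') = P₁.ord (a : F'') := by
      rw [← hab, P₁.ord_mul hy0 hbF]
    have h3' : P₂.ord y + P₂.ord (b : F'') = P₂.ord (a : F'') := by
      rw [← hab, P₂.ord_mul hy0 hbF]
    omega
  apply Place.ext
  ext y
  rw [Place.mem_iff_ord_nonneg, Place.mem_iff_ord_nonneg, key y]

/-- **the lift of a regular chart along a standard étale sheet, given (NORMAL)** -/
noncomputable def coverRegChartOfNormal
    (hres : ∀ (a : K) (ha : a ∈ A) (h : algebraMap K F' a ∈ O'),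
      res' ⟨algebraMap K F' a, h⟩ = algebraMap k Ft' (π ⟨a, ha⟩))
    (hres0 : ∀ x : O', res' x = 0 ↔ (x : F') ∈ O'.nonunits)
    (hπ : ∀ a : A, π a ≠ 0 → (a : K)⁻¹ ∈ A)
    (hπ0 : ∀ a : A, A.valuation (a : K) < 1 → π a = 0)
    (hnormal : ∀ y : F'', y ∈ O'' → (∀ P ∈ coverTube A T' θ u, 0 ≤ P.ord y) → y ∈ ring C H) :
    RegChart A O'' res'' Q'' (coverTube A T' θ u) where
  chart :=
    { R := ring C H
      le := fun y hy => le C H hres hπ hy
      algebraMap_mem := algebraMap_mem C H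
      residue := residue C H hres hπ
      branch := branch C H hres hπ
      normal := hnormal
      t := algebraMap F' F'' C.chart.t
      t_mem := t_mem C H
      ord_res_t := ord_res_t C H hres hπ
      value := value C H
      simple := simple C H hres hres0 hπ hπ0
      inj := inj C H hres hres0 hπ hπ0 }
  centred := centred C H hres hπ hπ0
  frac := frac C H

theorem coverRegChartOfNormal_t
    (hres : ∀ (a : K) (ha : a ∈ A) (h : algebraMap K F' a ∈ O'),
      res' ⟨algebraMap K F' a, h⟩ = algebraMap k Ft' (π ⟨a, ha⟩))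
    (hres0 : ∀ x : O', res' x = 0 ↔ (x : F') ∈ O'.nonunits)
    (hπ : ∀ a : A, π a ≠ 0 → (a : K)⁻¹ ∈ A)
    (hπ0 : ∀ a : A, A.valuation (a : K) < 1 → π a = 0)
    (hnormal : ∀ y : F'', y ∈ O'' → (∀ P ∈ coverTube A T' θ u, 0 ≤ P.ord y) → y ∈ ring C H) :
    (coverRegChartOfNormal C H hres hres0 hπ hπ0 hnormal).chart.t =
      algebraMap F' F'' C.chart.t := rfl

theorem coverRegChartOfNormal_R
    (hres : ∀ (a : K) (ha : a ∈ A) (h : algebraMap K F' a ∈ O'),
      res' ⟨algebraMap K F' a, h⟩ = algebraMap k Ft' (π ⟨a, ha⟩))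
    (hres0 : ∀ x : O', res' x = 0 ↔ (x : F') ∈ O'.nonunits)
    (hπ : ∀ a : A, π a ≠ 0 → (a : K)⁻¹ ∈ A)
    (hπ0 : ∀ a : A, A.valuation (a : K) < 1 → π a = 0)
    (hnormal : ∀ y : F'', y ∈ O'' → (∀ P ∈ coverTube A T' θ u, 0 ≤ P.ord y) → y ∈ ring C H) :
    (coverRegChartOfNormal C H hres hres0 hπ hπ0 hnormal).chart.R = ring C H := rfl

end Fermat.Agent.BR3.CoverK.Fields
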