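import Mathlib
import Fermat.Agent.BR3.CoverK.Defs
import Fermat.Agent.BR3.CoverDiv

/-!
# Program C, node A6-K: normality of the local ring of the cover (`NORMAL`)

`R' = C.chart.R` the local ring of a regular chart downstairs, `H : CoverSheet …` a standard étale
sheet, `R'' = CoverDiv.coverRing R' θ O'' res'' Q''` (`R'[θ]` localised at the functions whose
reduction does not vanish at `Q''`), `T'' = coverTube A T' θ u`.

`normal_of_pieces` : every `y ∈ O''` without poles on `T''` lies in `R''`, from the three inputs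
* `hvert` (VERT): `z ∈ R'[θ] ∩ c₀ · O''` ⇒ `ψc(θ) ^ N · z ∈ c₀ · R'[θ]`;
* `honto` (ONTO): every place of `T'` lies under a place of `T''`;
* `hfact` (EFACT): every nonzero `e ∈ R'` is `c₀ · ∏ (t - c_j) · v` with `c₀` a constant, the `c_j`
  values of `t` on `T'` and `v` a unit of `R'`.

Steps: `y = z(θ) / e` (`CoverSheet.gen` + `RegChart.frac`, `exists_smul_coeff_mem`); the horizontal
factors `t - c_j` of `e` are stripped by (DIV) (`strip`); the constant `c₀` by (VERT).
-/

set_option autoImplicit false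

namespace Fermat.Agent.BR3.CoverK

open AlgebraicCurve Polynomial Fermat.Agent.Red Fermat.Agent.BR.Centre Fermat.Agent.BR.S0
  Fermat.Agent.BR3.CoverDiv Fermat.Agent.BR3.CoverPlaces

variable {K k : Type*} [Field K] [Field k]
  {F' : Type*} [Field F'] [Algebra K F'] {Ft' : Type*} [Field Ft'] [Algebra k Ft']
  {F'' : Type*} [Field F''] [Algebra K F''] [Algebra F' F''] [IsScalarTower K F' F'']
  {Ft'' : Type*} [Field Ft''] [Algebra k Ft''] [Algebra Ft' Ft''] [IsScalarTower k Ft' Ft'']
  [Algebra.IsIntegral F' F''] {A : ValuationSubring K} {π : A →+* k}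
  {O' : ValuationSubring F'} {res' : O' →+* Ft'} {Q' : Place k Ft'} {T' : Set (Place K F')}
  {O'' : ValuationSubring F''} {res'' : O'' →+* Ft''} {Q'' : Place k Ft''}
  {θ : F''} {Ψ ψ ψc : F'[X]} {u : A}

/-! ### consequences of the fields of a sheet -/

namespace CoverSheet

variable {R' : Subring F'} (H : CoverSheet A π O' res' Q' O'' res'' Q'' R' θ Ψ ψ ψc u)

include H

theorem map_mem {y : F'} (hy : y ∈ O') : algebraMap F' F'' y ∈ O'' := by
  rw [← H.comap_eq] at hy
  exact hy

theorem mem_of_map_mem {y : F'} (hy : algebraMap F' F'' y ∈ O'') : y ∈ O' := by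
  rw [← H.comap_eq]
  exact hy

theorem ptValue_θ : PtValue O'' res'' Q'' θ (π u) := ⟨H.θ_mem, H.value⟩

theorem res_eq_zero (x : O'') (hx : (x : F'') ∈ O''.nonunits) : res'' x = 0 :=
  (H.res_eq_zero_iff x).mpr hx

theorem simple_ne (d : k) (hd : PtValue O'' res'' Q'' (aeval θ (derivative Ψ)) d) : d ≠ 0 := by
  rintro rfl
  obtain ⟨h, hv⟩ := hd
  exact H.simple h (isValueAt_zero_iff.mp hv)

theorem ψc_ne (d : k) (hd : PtValue O'' res'' Q'' (aeval θ ψc) d) : d ≠ 0 := by
  rintro rfl
  obtain ⟨h, hv⟩ := hd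
  exact H.ψc_unit h (isValueAt_zero_iff.mp hv)

end CoverSheet

/-! ### values at the point -/

section PtValues

variable (C : SmoothChart A O' res' Q' T')
  (H : CoverSheet A π O' res' Q' O'' res'' Q'' C.R θ Ψ ψ ψc u)
  (hres : ∀ (a : K) (ha : a ∈ A) (h : algebraMap K F' a ∈ O'),
    res' ⟨algebraMap K F' a, h⟩ = algebraMap k Ft' (π ⟨a, ha⟩))

include H hres

/-- the functions of `R'` have a value at the point `Q''` -/
theorem exists_ptValue_base {y : F'} (hy : y ∈ C.R) :
    ∃ a : A, PtValue O'' res'' Q'' (algebraMap F' F'' y) (π a) := by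
  obtain ⟨a, ha⟩ := C.exists_isValueAt hres hy
  exact ⟨a, PtValue.map (fun _ h => H.map_mem h) H.res_map H.ord_map ⟨C.le y hy, ha⟩⟩

/-- the functions of `R'[θ]` have a value at the point `Q''` -/
theorem exists_ptValue_polyRing {z : F''} (hz : z ∈ polyRing C.R θ) :
    ∃ a : A, PtValue O'' res'' Q'' z (π a) := by
  refine polyRing_induction (p := fun z => ∃ a : A, PtValue O'' res'' Q'' z (π a))
    (fun y hy => exists_ptValue_base C H hres hy) ⟨u, H.ptValue_θ⟩ ?_ ?_ hz
  · rintro x y ⟨a, ha⟩ ⟨b, hb⟩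
    exact ⟨a + b, by rw [map_add]; exact ha.add hb⟩
  · rintro x y ⟨a, ha⟩ ⟨b, hb⟩
    exact ⟨a * b, by rw [map_mul]; exact ha.mul hb⟩

end PtValues

/-! ### clearing denominators -/

/-- A polynomial over the fraction field of `R'` becomes a polynomial over `R'` after
multiplication by a nonzero element of `R'`. -/
theorem exists_smul_coeff_mem {R' : Subring F'}
    (hfrac : ∀ y : F', ∃ a b : R', b ≠ 0 ∧ y * (b : F') = (a : F')) (p : F'[X]) :
    ∃ e ∈ R', e ≠ 0 ∧ ∀ n, (e • p).coeff n ∈ R' := by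
  induction p using Polynomial.induction_on' with
  | add p q hp hq =>
    obtain ⟨e₁, he₁, he₁0, h₁⟩ := hp
    obtain ⟨e₂, he₂, he₂0, h₂⟩ := hq
    refine ⟨e₁ * e₂, R'.mul_mem he₁ he₂, mul_ne_zero he₁0 he₂0, fun n => ?_⟩
    have e : ((e₁ * e₂) • (p + q)).coeff n = e₂ * (e₁ • p).coeff n + e₁ * (e₂ • q).coeff n := by
      simp only [coeff_smul, coeff_add, smul_eq_mul]
      ring
    rw [e]
    exact R'.add_mem (R'.mul_mem he₂ (h₁ n)) (R'.mul_mem he₁ (h₂ n))
  | monomial n a =>
    obtain ⟨a', b', hb', hab⟩ := hfrac a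
    refine ⟨b', b'.2, fun h => hb' (Subtype.ext h), fun m => ?_⟩
    rw [coeff_smul, coeff_monomial, smul_eq_mul]
    split_ifs
    · rw [mul_comm, hab]
      exact a'.2
    · rw [mul_zero]
      exact R'.zero_mem

/-! ### the places of the sheet -/

section Tube

variable (C : RegChart A O' res' Q' T')
  (H : CoverSheet A π O' res' Q' O'' res'' Q'' C.chart.R θ Ψ ψ ψc u)
  (hres : ∀ (a : K) (ha : a ∈ A) (h : algebraMap K F' a ∈ O'),
    res' ⟨algebraMap K F' a, h⟩ = algebraMap k Ft' (π ⟨a, ha⟩))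
  (hres0 : ∀ x : O', res' x = 0 ↔ (x : F') ∈ O'.nonunits)
  (hπ : ∀ a : A, π a ≠ 0 → (a : K)⁻¹ ∈ A)
  (hπ0 : ∀ a : A, A.valuation (a : K) < 1 → π a = 0)

include H hres hπ0 in
/-- (VAL), base case: the functions of `R'` at a place of the sheet -/
theorem compat_base_of_mem {P'' : Place K F''} (hP'' : P'' ∈ coverTube A T' θ u) :
    ∀ y ∈ C.chart.R, Compat π O'' res'' Q'' P'' (algebraMap F' F'' y) :=
  compat_base C.chart hres hπ0 (fun _ h => H.map_mem h) H.res_map H.ord_map
    (C.centred _ hP''.1)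

include H hres hπ hπ0 in
/-- (VAL): the functions of `R''` at a place of the sheet -/
theorem compat_of_mem {P'' : Place K F''} (hP'' : P'' ∈ coverTube A T' θ u) {z : F''}
    (hz : z ∈ coverRing C.chart.R θ O'' res'' Q'') : Compat π O'' res'' Q'' P'' z := by
  obtain ⟨ϑ, hθP, hϑ⟩ := hP''.2
  exact compat_coverRing hπ0 hπ H.res_eq_zero (compat_base_of_mem C H hres hπ0 hP'') hθP hϑ
    H.ptValue_θ hz

include H hres hπ hπ0 in
/-- the functions of `R''` are regular on the sheet -/
theorem adicValuation_le_one_of_mem {P'' : Place K F''} (hP'' : P'' ∈ coverTube A T' θ u)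
    {z : F''} (hz : z ∈ coverRing C.chart.R θ O'' res'' Q'') : P''.adicValuation z ≤ 1 := by
  obtain ⟨c, hc, -⟩ := compat_of_mem C H hres hπ hπ0 hP'' hz
  exact hc.adicValuation_le_one

include H hres hres0 hπ hπ0 in
/-- (DIV) at a place of the sheet -/
theorem div_mem {P'' : Place K F''} (hP'' : P'' ∈ coverTube A T' θ u) {c : K}
    (hc : IsValueAt (P''.restrict F') C.chart.t c) {z : F''}
    (hz : z ∈ coverRing C.chart.R θ O'' res'' Q'') (hz0 : IsValueAt P'' z 0) :
    z / (algebraMap F' F'' C.chart.t - algebraMap K F'' c) ∈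
      coverRing C.chart.R θ O'' res'' Q'' := by
  obtain ⟨ϑ, hθP, hϑ⟩ := hP''.2
  refine div_mem_coverRing hπ0 hπ H.res_eq_zero C.chart.algebraMap_mem
    (compat_base_of_mem C H hres hπ0 hP'') ?_ H.coeff_mem H.root hθP hϑ H.ptValue_θ H.simple_ne
    hz hz0
  intro y hy hy0
  exact exists_eq_mul_of_smoothChart C.chart hres hres0 hπ0 (fun P hP => (C.centred P hP).1)
    hP''.1 hc hy hy0

include H hres hres0 hπ hπ0 in
/-- **(STRIP)**: the horizontal factors `t - c_j` (`c_j` a value of `t` on the tube) of a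
denominator are removed by (DIV). -/
theorem strip (honto : ∀ P' ∈ T', ∃ P'' ∈ coverTube A T' θ u, P''.restrict F' = P')
    (s : List K) (hs : ∀ c ∈ s, ∃ P ∈ T', IsValueAt P C.chart.t c) (x : F'')
    (hx : ∀ P'' ∈ coverTube A T' θ u, P''.adicValuation x ≤ 1)
    (hxs : x * algebraMap F' F'' (s.map fun c => C.chart.t - algebraMap K F' c).prod ∈
      coverRing C.chart.R θ O'' res'' Q'') :
    x ∈ coverRing C.chart.R θ O'' res'' Q'' := by
  induction s generalizing x with
  | nil =>
    rw [List.map_nil, List.prod_nil, map_one, mul_one] at hxs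
    exact hxs
  | cons c s ih =>
    have hs' : ∀ c' ∈ s, ∃ P ∈ T', IsValueAt P C.chart.t c' :=
      fun c' hc' => hs c' (List.mem_cons_of_mem _ hc')
    obtain ⟨P', hP', hc⟩ := hs c List.mem_cons_self
    obtain ⟨P'', hP'', hP''P'⟩ := honto P' hP'
    set tc : F'' := algebraMap F' F'' C.chart.t - algebraMap K F'' c with htc
    have htc' : algebraMap F' F'' (C.chart.t - algebraMap K F' c) = tc := by
      rw [map_sub, ← IsScalarTower.algebraMap_apply]
    -- `t - c` is regular on the sheet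
    have hcA : c ∈ A := by
      obtain ⟨c', hc'lt, hc'⟩ := C.chart.value P' hP'
      rw [hc.unique hc']
      exact (A.valuation_le_one_iff c').mp hc'lt.le
    have htcR : C.chart.t - algebraMap K F' c ∈ C.chart.R :=
      C.chart.R.sub_mem C.chart.t_mem (C.chart.algebraMap_mem c hcA)
    have htcR'' : tc ∈ coverRing C.chart.R θ O'' res'' Q'' := by
      rw [← htc']
      exact polyRing_le_coverRing _ _ (algebraMap_mem_polyRing θ htcR)
    -- the induction hypothesis for `x * (t - c)`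
    have h1 : x * tc ∈ coverRing C.chart.R θ O'' res'' Q'' := by
      apply ih hs' (x * tc)
      · intro P₂ hP₂
        rw [map_mul]
        exact mul_le_one' (hx P₂ hP₂) (adicValuation_le_one_of_mem C H hres hπ hπ0 hP₂ htcR'')
      · rw [List.map_cons, List.prod_cons, map_mul, htc'] at hxs
        rw [mul_assoc]
        exact hxs
    -- `x * (t - c)` vanishes at `P''`
    have hc'' : IsValueAt (P''.restrict F') C.chart.t c := by rw [hP''P']; exact hc
    have htc0 : IsValueAt P'' tc 0 := by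
      have h2 := (isValueAt_restrict_iff P'' C.chart.t c).mp hc''
      have h3 := h2.sub (isValueAt_algebraMap P'' c)
      rwa [sub_self] at h3
    have h0 : IsValueAt P'' (x * tc) 0 := by
      rw [isValueAt_zero_iff] at htc0 ⊢
      rw [map_mul]
      exact mul_lt_one_of_nonneg_of_lt_one_right (hx P'' hP'') zero_le' htc0
    have h2 := div_mem C H hres hres0 hπ hπ0 hP'' hc'' h1 h0
    -- `t - c ≠ 0`
    have htcne : tc ≠ 0 := by
      intro h
      have h3 : C.chart.t - algebraMap K F' c = 0 := by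
        apply (algebraMap F' F'').injective
        rw [htc', h, map_zero]
      have h4 := C.chart.simple P' hP' c hc
      rw [h3, Place.ord_zero] at h4
      exact zero_ne_one h4
    rwa [mul_div_assoc, div_self htcne, mul_one] at h2

end Tube

/-! ### normality -/

section Normal

variable (C : RegChart A O' res' Q' T')
  (H : CoverSheet A π O' res' Q' O'' res'' Q'' C.chart.R θ Ψ ψ ψc u)
  (hres : ∀ (a : K) (ha : a ∈ A) (h : algebraMap K F' a ∈ O'),
    res' ⟨algebraMap K F' a, h⟩ = algebraMap k Ft' (π ⟨a, ha⟩))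
  (hres0 : ∀ x : O', res' x = 0 ↔ (x : F') ∈ O'.nonunits)
  (hπ : ∀ a : A, π a ≠ 0 → (a : K)⁻¹ ∈ A)
  (hπ0 : ∀ a : A, A.valuation (a : K) < 1 → π a = 0)

include H hres hres0 hπ hπ0 in
/-- **(NORMAL)** from (VERT), (ONTO), (EFACT): a function of `O''` without poles on the sheet lies
in `R''`. -/
theorem normal_of_pieces
    (hvert : ∀ z : F'[X], (∀ n, z.coeff n ∈ C.chart.R) → ∀ c₀ : K, c₀ ≠ 0 →
      (algebraMap K F'' c₀)⁻¹ * aeval θ z ∈ O'' →
      ∃ (N : ℕ) (z' : F'[X]), (∀ n, z'.coeff n ∈ C.chart.R) ∧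
        aeval θ ψc ^ N * aeval θ z = algebraMap K F'' c₀ * aeval θ z')
    (honto : ∀ P' ∈ T', ∃ P'' ∈ coverTube A T' θ u, P''.restrict F' = P')
    (hfact : ∀ e ∈ C.chart.R, e ≠ 0 → ∃ (c₀ : K) (s : List K) (v : F'), c₀ ≠ 0 ∧
      (∀ c ∈ s, ∃ P ∈ T', IsValueAt P C.chart.t c) ∧ v ∈ C.chart.R ∧ v⁻¹ ∈ C.chart.R ∧
      e = algebraMap K F' c₀ * (s.map fun c => C.chart.t - algebraMap K F' c).prod * v)
    (y : F'') (hy : y ∈ O'') (hreg : ∀ P ∈ coverTube A T' θ u, 0 ≤ P.ord y) :
    y ∈ coverRing C.chart.R θ O'' res'' Q'' := by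
  -- step 1: `y = z(θ) / e`
  obtain ⟨p, hp⟩ := H.gen y
  obtain ⟨e, he, he0, hep⟩ := exists_smul_coeff_mem C.frac p
  have h1 : algebraMap F' F'' e * y ∈ coverRing C.chart.R θ O'' res'' Q'' := by
    have h : aeval θ (e • p) = algebraMap F' F'' e * y := by
      rw [map_smul, hp, Algebra.smul_def]
    rw [← h]
    exact polyRing_le_coverRing _ _ (aeval_mem_polyRing hep)
  -- step 2: the horizontal factors of `e`
  obtain ⟨c₀, s, v, hc₀, hs, hv, hvinv, hefac⟩ := hfact e he he0
  have hv0 : v ≠ 0 := by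
    rintro rfl
    apply he0
    rw [hefac, mul_zero]
  have hv0' : algebraMap F' F'' v ≠ 0 := (_root_.map_ne_zero _).mpr hv0
  have hc₀' : algebraMap K F'' c₀ ≠ 0 := (_root_.map_ne_zero _).mpr hc₀
  have hx : ∀ P'' ∈ coverTube A T' θ u,
      P''.adicValuation (y * algebraMap K F'' c₀ * algebraMap F' F'' v) ≤ 1 := by
    intro P'' hP''
    rw [map_mul, map_mul]
    have hy1 : P''.adicValuation y ≤ 1 :=
      (P''.adicValuation_le_one_iff).mpr (Or.inr (hreg P'' hP''))
    have hc1 : P''.adicValuation (algebraMap K F'' c₀) ≤ 1 :=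
      P''.adicValuation_algebraMap_le_one c₀
    have hv1 : P''.adicValuation (algebraMap F' F'' v) ≤ 1 :=
      adicValuation_le_one_of_mem C H hres hπ hπ0 hP''
        (polyRing_le_coverRing _ _ (algebraMap_mem_polyRing θ hv))
    exact mul_le_one' (mul_le_one' hy1 hc1) hv1
  have hxs : y * algebraMap K F'' c₀ * algebraMap F' F'' v *
      algebraMap F' F'' (s.map fun c => C.chart.t - algebraMap K F' c).prod ∈
        coverRing C.chart.R θ O'' res'' Q'' := by
    have h : y * algebraMap K F'' c₀ * algebraMap F' F'' v *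
        algebraMap F' F'' (s.map fun c => C.chart.t - algebraMap K F' c).prod =
          algebraMap F' F'' e * y := by
      conv_rhs => rw [hefac, map_mul, map_mul, ← IsScalarTower.algebraMap_apply]
      ring
    rw [h]
    exact h1
  have hxR := strip C H hres hres0 hπ hπ0 honto s hs _ hx hxs
  have hw : y * algebraMap K F'' c₀ ∈ coverRing C.chart.R θ O'' res'' Q'' := by
    have h : y * algebraMap K F'' c₀ =
        y * algebraMap K F'' c₀ * algebraMap F' F'' v * algebraMap F' F'' v⁻¹ := by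
      rw [map_inv₀, mul_assoc _ (algebraMap F' F'' v), mul_inv_cancel₀ hv0', mul_one]
    rw [h]
    exact Subring.mul_mem _ hxR (polyRing_le_coverRing _ _ (algebraMap_mem_polyRing θ hvinv))
  -- step 3: the constant
  obtain ⟨a, s₁, ha, hs₁, ⟨d, hd, hsd⟩, hws⟩ := hw
  obtain ⟨z, hz, rfl⟩ := ha
  have hzc : (algebraMap K F'' c₀)⁻¹ * aeval θ z ∈ O'' := by
    have h : (algebraMap K F'' c₀)⁻¹ * aeval θ z = y * s₁ := by
      rw [← hws]
      field_simp
    rw [h]
    exact O''.mul_mem _ _ hy hsd.mem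
  obtain ⟨N, z', hz', hgz⟩ := hvert z hz c₀ hc₀ hzc
  have hgB : aeval θ ψc ∈ polyRing C.chart.R θ := aeval_mem_polyRing H.ψc_coeff_mem
  obtain ⟨ag, hag⟩ := exists_ptValue_polyRing C.chart H hres hgB
  have hag0 : π ag ≠ 0 := H.ψc_ne _ hag
  refine ⟨aeval θ z', s₁ * aeval θ ψc ^ N, aeval_mem_polyRing hz',
    Subring.mul_mem _ hs₁ (Subring.pow_mem _ hgB N),
    ⟨d * π ag ^ N, mul_ne_zero hd (pow_ne_zero _ hag0), hsd.mul (hag.pow N)⟩, ?_⟩
  apply mul_left_cancel₀ hc₀'
  rw [← hgz, ← hws]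
  ring

end Normal

end Fermat.Agent.BR3.CoverK
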