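import Mathlib
import Fermat.Agent.BR3.CoverK.Defs
import Fermat.Agent.BR3.CoverDiv
import Fermat.Agent.BR3.SimpleRoot
import Fermat.Agent.BR3.PlaceOnto

/-!
# Program C, node A6-K (ONTO): the sheet `θ ≡ u` maps onto the tube downstairs

`C : RegChart A O' res' Q' T'`, `H : CoverSheet …` a sheet of the cover `F'' = F'[θ]` over the
chart.  Every place `P'` of the tube `T'` has a place of `coverTube A T' θ u` above it:

* the values at `P'` of the coefficients of `Ψ` form a monic polynomial `Ψ_{P'} ∈ A[X]`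
  (`C.centred`, `evHom`);
* its reduction is the polynomial of the values at `Q'` of the reductions of the coefficients
  (`CoverDiv.compat_of_smoothChart`), which vanishes at `ū` because `Ψ̄(θ̄) = 0` and `θ̄(Q'') = ū`
  (`CoverDiv.ptValue_aeval`); hence `|Ψ_{P'}(u)| < 1`;
* `SimpleRoot.exists_root` gives a root `ϑ` of `Ψ_{P'}` with `|ϑ - u| < 1`, and
  `PlaceOnto.exists_place_over_isValueAt` a place `P''` over `P'` with `θ(P'') = ϑ`.

`exists_mem_coverTube` is the statement of helper21's finding #1086.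
-/

set_option autoImplicit false

namespace Fermat.Agent.BR3.CoverK

open AlgebraicCurve Polynomial Fermat.Agent.Red Fermat.Agent.BR.Centre Fermat.Agent.BR.S0
  Fermat.Agent.BR3.CoverDiv

variable {K k : Type*} [Field K] [Field k]
  {F' : Type*} [Field F'] [Algebra K F'] {Ft' : Type*} [Field Ft'] [Algebra k Ft']
  {F'' : Type*} [Field F''] [Algebra K F''] [Algebra F' F''] [IsScalarTower K F' F'']
  {Ft'' : Type*} [Field Ft''] [Algebra k Ft''] [Algebra Ft' Ft''] [IsScalarTower k Ft' Ft'']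
  {A : ValuationSubring K} {π : A →+* k}
  {O' : ValuationSubring F'} {res' : O' →+* Ft'} {Q' : Place k Ft'} {T' : Set (Place K F')}
  {O'' : ValuationSubring F''} {res'' : O'' →+* Ft''} {Q'' : Place k Ft''}
  {θ : F''} {Ψ ψ ψc : F'[X]} {u : A}

/-- An element of `A` killed by the residue map has absolute value `< 1`. -/
theorem valuation_lt_one_of_map_eq_zero {a : A} (ha : π a = 0) : A.valuation (a : K) < 1 := by
  by_contra hlt
  have h1 : A.valuation (a : K) = 1 :=
    le_antisymm ((A.valuation_le_one_iff _).mpr a.2) (not_lt.mp hlt)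
  have h0 : (a : K) ≠ 0 := by
    intro h
    rw [h, map_zero] at h1
    exact zero_ne_one h1
  have hinv : (a : K)⁻¹ ∈ A := by
    rw [← A.valuation_le_one_iff, map_inv₀, h1, inv_one]
  have hmul : a * ⟨(a : K)⁻¹, hinv⟩ = 1 := Subtype.ext (mul_inv_cancel₀ h0)
  have h2 := congrArg π hmul
  rw [map_mul, ha, zero_mul, map_one] at h2
  exact zero_ne_one h2

/-- **(ONTO)**: every place of the tube downstairs lies under a place of the sheet `θ ≡ u`. -/
theorem exists_mem_coverTube [IsAlgClosed K] [FiniteDimensional F' F'']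
    [Algebra.IsSeparable F' F''] (C : RegChart A O' res' Q' T')
    (H : CoverSheet A π O' res' Q' O'' res'' Q'' C.chart.R θ Ψ ψ ψc u)
    (hres : ∀ (a : K) (ha : a ∈ A) (h : algebraMap K F' a ∈ O'),
      res' ⟨algebraMap K F' a, h⟩ = algebraMap k Ft' (π ⟨a, ha⟩))
    (hπ : ∀ a : A, π a ≠ 0 → (a : K)⁻¹ ∈ A)
    (hπ0 : ∀ a : A, A.valuation (a : K) < 1 → π a = 0)
    {P' : Place K F'} (hP' : P' ∈ T') :
    ∃ P'' ∈ coverTube A T' θ u, P''.restrict F' = P' := by
  have _hπ := hπ
  have hcen := C.centred P' hP'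
  have hI : IntegralAt A C.chart.R P' := hcen.choose
  have hsub : (↑Ψ.coeffs : Set F') ⊆ C.chart.R := by
    intro c hc
    obtain ⟨n, -, rfl⟩ := Polynomial.mem_coeffs_iff.mp hc
    exact H.coeff_mem n
  -- the polynomial over the local ring, over `A`, over `K`, over `k`
  obtain ⟨ΨR, hΨR⟩ : ∃ ΨR : C.chart.R[X], ΨR = Ψ.toSubring C.chart.R hsub := ⟨_, rfl⟩
  have hmapR : ΨR.map C.chart.R.subtype = Ψ := by
    rw [hΨR]
    exact Polynomial.map_toSubring Ψ C.chart.R hsub
  have hΨRmonic : ΨR.Monic := by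
    rw [hΨR]
    exact (Polynomial.monic_toSubring Ψ C.chart.R hsub).mpr H.monic
  have hcoeffR : ∀ n, ((ΨR.coeff n : C.chart.R) : F') = Ψ.coeff n := by
    intro n
    rw [hΨR]
    exact Polynomial.coeff_toSubring Ψ C.chart.R hsub
  obtain ⟨ev, hev⟩ : ∃ ev : C.chart.R →+* A, ev = evHom A C.chart.R P' hI := ⟨_, rfl⟩
  have hev_coe : ∀ y : C.chart.R, ((ev y : A) : K) = evalAt P' (y : F') := by
    intro y
    rw [hev]
    rfl
  -- (1) the values at the point of the reductions of the coefficients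
  have hO : ∀ y ∈ O', algebraMap F' F'' y ∈ O'' := by
    intro y hy
    have h1 : y ∈ O''.comap (algebraMap F' F'') := by
      rw [H.comap_eq]
      exact hy
    exact h1
  have hab : ∀ n, PtValue O'' res'' Q'' (algebraMap F' F'' (Ψ.coeff n))
      (((ΨR.map ev).map π).coeff n) := by
    intro n
    obtain ⟨c, h1, h2⟩ := compat_of_smoothChart C.chart hres hπ0 hcen (H.coeff_mem n)
    have hc : c = ev (ΨR.coeff n) := by
      apply Subtype.ext
      rw [hev_coe, hcoeffR]
      exact (evalAt_eq_of_isValueAt h1).symm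
    rw [coeff_map, coeff_map, ← hc]
    exact h2.map hO H.res_map H.ord_map
  -- (2),(3) the reduction of `Ψ_{P'}` vanishes at `ū`
  have hθQ : PtValue O'' res'' Q'' θ (π u) := ⟨H.θ_mem, H.value⟩
  have h3 := ptValue_aeval hθQ Ψ ((ΨR.map ev).map π) hab
  rw [H.root] at h3
  have h4 : ((ΨR.map ev).map π).eval (π u) = 0 := h3.unique ptValue_zero
  rw [eval_map, eval₂_at_apply] at h4
  -- (5) `|Ψ_{P'}(u)| < 1`
  have h5 : A.valuation ((((ΨR.map ev).eval u : A)) : K) < 1 :=
    valuation_lt_one_of_map_eq_zero h4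
  have h6 : ((ΨR.map ev).map (algebraMap A K)).eval (u : K) = (((ΨR.map ev).eval u : A) : K) := by
    rw [eval_map]
    exact eval₂_at_apply (algebraMap A K) u
  have hmonic : ((ΨR.map ev).map (algebraMap A K)).Monic := (hΨRmonic.map ev).map _
  have hcoeffA : ∀ n, ((ΨR.map ev).map (algebraMap A K)).coeff n ∈ A := by
    intro n
    rw [coeff_map]
    exact ((ΨR.map ev).coeff n).2
  rw [← h6] at h5
  -- (8) a root in the residue class of `u`
  obtain ⟨x, hxA, hx0, hxu⟩ := SimpleRoot.exists_root A hmonic hcoeffA u.2 h5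
  -- (9) `Ψ(x)` vanishes at `P'`
  have h0 : IsValueAt P' (Ψ.eval (algebraMap K F' x)) 0 := by
    obtain ⟨xR, hxR⟩ : ∃ xR : C.chart.R, (xR : F') = algebraMap K F' x :=
      ⟨⟨algebraMap K F' x, C.chart.algebraMap_mem x hxA⟩, rfl⟩
    have h7 : ((ΨR.eval xR : C.chart.R) : F') = Ψ.eval (algebraMap K F' x) := by
      rw [← hmapR, eval_map, ← hxR]
      exact (eval₂_at_apply C.chart.R.subtype xR).symm
    have h8 : ev xR = ⟨x, hxA⟩ := by
      apply Subtype.ext
      rw [hev_coe, hxR]
      exact evalAt_algebraMap P' x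
    have h9 : ev (ΨR.eval xR) = (ΨR.map ev).eval ⟨x, hxA⟩ := by
      rw [eval_map, ← h8]
      exact (eval₂_at_apply ev xR).symm
    have h10 : (((ΨR.map ev).eval ⟨x, hxA⟩ : A) : K) = 0 := by
      have h : ((ΨR.map ev).map (algebraMap A K)).eval x =
          (((ΨR.map ev).eval ⟨x, hxA⟩ : A) : K) := by
        rw [eval_map (algebraMap A K)]
        exact eval₂_at_apply (algebraMap A K) (⟨x, hxA⟩ : A)
      rw [← h, hx0]
    have h11 : evalAt P' (Ψ.eval (algebraMap K F' x)) = 0 := by
      rw [← h7, ← hev_coe, h9, h10]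
    have h12 := hI.isValueAt_evalAt (ΨR.eval xR).2
    rw [h7, h11] at h12
    exact h12
  -- (10) a place over `P'` at which `θ` takes the value `x`
  obtain ⟨P'', hrestr, hval⟩ :=
    PlaceOnto.exists_place_over_isValueAt P' H.monic H.irreducible H.root H.gen h0
  refine ⟨P'', ⟨?_, x, hval, hxu⟩, hrestr⟩
  rw [hrestr]
  exact hP'

end Fermat.Agent.BR3.CoverK
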