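import Mathlib
import Fermat.Agent.BR3.CoverK.Defs
import Fermat.Agent.BR3.CoverK.Fields
import Fermat.Agent.BR3.CoverK.Normal
import Fermat.Agent.BR3.CoverK.EFact
import Fermat.Agent.BR3.CoverK.Onto

/-!
# Program C, node A6-K: the lifted regular chart, modulo (VERT)

`coverRegChartOfVert` : the regular chart of the cover on the sheet `coverTube A T' θ u`, from a
regular chart `C` downstairs and a standard étale sheet `H`, with the vertical step (VERT) as the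
only remaining hypothesis `hvert` ((NORMAL) = `normal_of_pieces`, (ONTO) = `exists_mem_coverTube`,
(EFACT) = `exists_factor`, all other fields = `Fields.coverRegChartOfNormal`).
-/

set_option autoImplicit false

namespace Fermat.Agent.BR3.CoverK

open AlgebraicCurve Polynomial Fermat.Agent.Red Fermat.Agent.BR.Centre Fermat.Agent.BR.S0
  Fermat.Agent.BR3.CoverDiv

variable {K k : Type*} [Field K] [Field k]
  {F' : Type*} [Field F'] [Algebra K F'] {Ft' : Type*} [Field Ft'] [Algebra k Ft']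
  {F'' : Type*} [Field F''] [Algebra K F''] [Algebra F' F''] [IsScalarTower K F' F'']
  {Ft'' : Type*} [Field Ft''] [Algebra k Ft''] [Algebra Ft' Ft''] [IsScalarTower k Ft' Ft'']
  [Algebra.IsIntegral F' F''] {A : ValuationSubring K} {π : A →+* k}
  {O' : ValuationSubring F'} {res' : O' →+* Ft'} {Q' : Place k Ft'} {T' : Set (Place K F')}
  {O'' : ValuationSubring F''} {res'' : O'' →+* Ft''} {Q'' : Place k Ft''}
  {θ : F''} {Ψ ψ ψc : F'[X]} {u : A}

/-- The shape of the vertical step (VERT): `z ∈ R'[θ] ∩ c₀ · O''` ⇒ `ψc(θ) ^ N · z ∈ c₀ · R'[θ]`. -/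
def VertHyp (R' : Subring F') (O'' : ValuationSubring F'') (θ : F'') (ψc : F'[X]) : Prop :=
  ∀ z : F'[X], (∀ n, z.coeff n ∈ R') → ∀ c₀ : K, c₀ ≠ 0 →
    (algebraMap K F'' c₀)⁻¹ * aeval θ z ∈ O'' →
    ∃ (N : ℕ) (z' : F'[X]), (∀ n, z'.coeff n ∈ R') ∧
      aeval θ ψc ^ N * aeval θ z = algebraMap K F'' c₀ * aeval θ z'

/-- **(NORMAL)** modulo (VERT). -/
theorem normal_of_vert [IsAlgClosed K] [FiniteDimensional F' F''] [Algebra.IsSeparable F' F'']
    (C : RegChart A O' res' Q' T')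
    (H : CoverSheet A π O' res' Q' O'' res'' Q'' C.chart.R θ Ψ ψ ψc u)
    (hres : ∀ (a : K) (ha : a ∈ A) (h : algebraMap K F' a ∈ O'),
      res' ⟨algebraMap K F' a, h⟩ = algebraMap k Ft' (π ⟨a, ha⟩))
    (hres0 : ∀ x : O', res' x = 0 ↔ (x : F') ∈ O'.nonunits)
    (hπ : ∀ a : A, π a ≠ 0 → (a : K)⁻¹ ∈ A)
    (hπ0 : ∀ a : A, A.valuation (a : K) < 1 → π a = 0)
    (hvg : ∀ y : F', y ≠ 0 → ∃ c : K, c ≠ 0 ∧ algebraMap K F' c * y ∈ O' ∧
      (algebraMap K F' c * y)⁻¹ ∈ O')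
    (hvert : VertHyp (K := K) C.chart.R O'' θ ψc)
    (y : F'') (hy : y ∈ O'') (hreg : ∀ P ∈ coverTube A T' θ u, 0 ≤ P.ord y) :
    y ∈ Fields.ring C H :=
  normal_of_pieces C H hres hres0 hπ hπ0 hvert
    (fun _ hP' => exists_mem_coverTube C H hres hπ hπ0 hP')
    (fun _ he he0 => exists_factor C hres hres0 hπ0 hvg he he0) y hy hreg

/-- **A6-K modulo (VERT)**: the lift of a regular smooth chart along a cover which is standard
étale at the point on the sheet. -/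
noncomputable def coverRegChartOfVert [IsAlgClosed K] [FiniteDimensional F' F'']
    [Algebra.IsSeparable F' F''] (C : RegChart A O' res' Q' T')
    (H : CoverSheet A π O' res' Q' O'' res'' Q'' C.chart.R θ Ψ ψ ψc u)
    (hres : ∀ (a : K) (ha : a ∈ A) (h : algebraMap K F' a ∈ O'),
      res' ⟨algebraMap K F' a, h⟩ = algebraMap k Ft' (π ⟨a, ha⟩))
    (hres0 : ∀ x : O', res' x = 0 ↔ (x : F') ∈ O'.nonunits)
    (hπ : ∀ a : A, π a ≠ 0 → (a : K)⁻¹ ∈ A)
    (hπ0 : ∀ a : A, A.valuation (a : K) < 1 → π a = 0)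
    (hvg : ∀ y : F', y ≠ 0 → ∃ c : K, c ≠ 0 ∧ algebraMap K F' c * y ∈ O' ∧
      (algebraMap K F' c * y)⁻¹ ∈ O')
    (hvert : VertHyp (K := K) C.chart.R O'' θ ψc) :
    RegChart A O'' res'' Q'' (coverTube A T' θ u) :=
  Fields.coverRegChartOfNormal C H hres hres0 hπ hπ0
    (normal_of_vert C H hres hres0 hπ hπ0 hvg hvert)

theorem coverRegChartOfVert_t [IsAlgClosed K] [FiniteDimensional F' F'']
    [Algebra.IsSeparable F' F''] (C : RegChart A O' res' Q' T')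
    (H : CoverSheet A π O' res' Q' O'' res'' Q'' C.chart.R θ Ψ ψ ψc u)
    (hres : ∀ (a : K) (ha : a ∈ A) (h : algebraMap K F' a ∈ O'),
      res' ⟨algebraMap K F' a, h⟩ = algebraMap k Ft' (π ⟨a, ha⟩))
    (hres0 : ∀ x : O', res' x = 0 ↔ (x : F') ∈ O'.nonunits)
    (hπ : ∀ a : A, π a ≠ 0 → (a : K)⁻¹ ∈ A)
    (hπ0 : ∀ a : A, A.valuation (a : K) < 1 → π a = 0)
    (hvg : ∀ y : F', y ≠ 0 → ∃ c : K, c ≠ 0 ∧ algebraMap K F' c * y ∈ O' ∧
      (algebraMap K F' c * y)⁻¹ ∈ O')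
    (hvert : VertHyp (K := K) C.chart.R O'' θ ψc) :
    (coverRegChartOfVert C H hres hres0 hπ hπ0 hvg hvert).chart.t =
      algebraMap F' F'' C.chart.t := rfl

theorem coverRegChartOfVert_R [IsAlgClosed K] [FiniteDimensional F' F'']
    [Algebra.IsSeparable F' F''] (C : RegChart A O' res' Q' T')
    (H : CoverSheet A π O' res' Q' O'' res'' Q'' C.chart.R θ Ψ ψ ψc u)
    (hres : ∀ (a : K) (ha : a ∈ A) (h : algebraMap K F' a ∈ O'),
      res' ⟨algebraMap K F' a, h⟩ = algebraMap k Ft' (π ⟨a, ha⟩))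
    (hres0 : ∀ x : O', res' x = 0 ↔ (x : F') ∈ O'.nonunits)
    (hπ : ∀ a : A, π a ≠ 0 → (a : K)⁻¹ ∈ A)
    (hπ0 : ∀ a : A, A.valuation (a : K) < 1 → π a = 0)
    (hvg : ∀ y : F', y ≠ 0 → ∃ c : K, c ≠ 0 ∧ algebraMap K F' c * y ∈ O' ∧
      (algebraMap K F' c * y)⁻¹ ∈ O')
    (hvert : VertHyp (K := K) C.chart.R O'' θ ψc) :
    (coverRegChartOfVert C H hres hres0 hπ hπ0 hvg hvert).chart.R =
      coverRing C.chart.R θ O'' res'' Q'' := rfl

end Fermat.Agent.BR3.CoverK
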