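/-
Program C (S36), node A6-K COVER-SMOOTH, piece (EFACT) (helper24): the downstairs toolbox of a
regular smooth chart `C : CoverK.RegChart A O res Q T` (`BR3/CoverK/Defs`).

* `ConstHyp A π O res` : the standing hypotheses on the constants of a component, bundled;
* `ev C hP : C.chart.R →+* A` (evaluation at a place of the tube), `valQ C hB : C.chart.R →+* k`
  (value of the reduction at the point), `pi_ev` : `π ∘ ev = valQ`;
* `lin C hP` : the function `t - t(P)` of the local ring; `exists_eq_lin_mul` : a function of the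
  local ring vanishing at `P` is divisible by `t - t(P)` in the local ring (from `normal`,
  `simple`, `inj`);
* **`induction_nonzero`** : every nonzero function of the local ring is built from units of the
  local ring, nonzero constants of `A` and the `t - t(P)`, `P ∈ T`, by products (induction on
  the order at the point of the reduction; no conservation, no finiteness of divisors).
-/
import Mathlib
import Fermat.Agent.BR3.CoverK.Defs
import Fermat.Agent.BR.CentreRed

set_option autoImplicit false

namespace Fermat.Agent.BR3.CoverK.Factor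

open AlgebraicCurve Polynomial Fermat.Agent.Red Fermat.Agent.X0 Fermat.Agent.BR.Centre
  Fermat.Agent.BR.S0 Fermat.Agent.BR3.CoverK

variable {K k : Type*} [Field K] [Field k]
  {F : Type*} [Field F] [Algebra K F] {Ft : Type*} [Field Ft] [Algebra k Ft]

/-- The standing hypotheses on the constants of a component `(O, res)` over `(A, π)`. -/
structure ConstHyp (A : ValuationSubring K) (π : A →+* k) (O : ValuationSubring F)
    (res : O →+* Ft) : Prop where
  res_const : ∀ (a : K) (ha : a ∈ A) (h : algebraMap K F a ∈ O),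
    res ⟨algebraMap K F a, h⟩ = algebraMap k Ft (π ⟨a, ha⟩)
  res_eq_zero_iff : ∀ x : O, res x = 0 ↔ (x : F) ∈ O.nonunits
  const_nonunit : ∀ c : K, A.valuation c < 1 → algebraMap K F c ∈ O.nonunits
  pi_inv : ∀ a : A, π a ≠ 0 → (a : K)⁻¹ ∈ A
  pi_zero : ∀ a : A, A.valuation (a : K) < 1 → π a = 0

/-- The value group of the component `O` is the value group of the constants. -/
def ValueGroupEq (K : Type*) [Field K] {F : Type*} [Field F] [Algebra K F]
    (O : ValuationSubring F) : Prop :=
  ∀ y : F, y ≠ 0 → ∃ c : K, c ≠ 0 ∧ algebraMap K F c * y ∈ O ∧ (algebraMap K F c * y)⁻¹ ∈ O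

namespace ConstHyp

variable {A : ValuationSubring K} {π : A →+* k} {O : ValuationSubring F} {res : O →+* Ft}

/-- `π` does not vanish on the units of `A`. -/
theorem valuation_lt_one_of_pi_eq_zero (_hB : ConstHyp A π O res) {a : A} (ha : π a = 0) :
    A.valuation (a : K) < 1 := by
  by_contra hlt
  have h1 : A.valuation (a : K) = 1 :=
    le_antisymm ((A.valuation_le_one_iff _).mpr a.2) (not_lt.mp hlt)
  have hu : IsUnit a := (A.valuation_eq_one_iff a).mpr h1
  have h2 := hu.map π
  rw [ha] at h2
  exact not_isUnit_zero h2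

theorem pi_eq_zero_iff (hB : ConstHyp A π O res) (a : A) :
    π a = 0 ↔ A.valuation (a : K) < 1 :=
  ⟨hB.valuation_lt_one_of_pi_eq_zero, hB.pi_zero a⟩

/-- A constant which is integral on the component is integral. -/
theorem mem_of_algebraMap_mem (hB : ConstHyp A π O res) {c : K} (hc : algebraMap K F c ∈ O) :
    c ∈ A := by
  by_contra hcA
  have hc0 : c ≠ 0 := by
    rintro rfl
    exact hcA A.zero_mem
  have h1 : A.valuation c⁻¹ < 1 := by
    have h2 : ¬ A.valuation c ≤ 1 := fun h => hcA ((A.valuation_le_one_iff _).mp h)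
    rw [map_inv₀]
    exact inv_lt_one_of_one_lt₀ (not_le.mp h2)
  have h3 := hB.const_nonunit _ h1
  rw [ValuationSubring.mem_nonunits_iff, map_inv₀, map_inv₀] at h3
  have h4 : O.valuation (algebraMap K F c) ≤ 1 := (O.valuation_le_one_iff _).mpr hc
  have h5 : O.valuation (algebraMap K F c) ≠ 0 :=
    (Valuation.ne_zero_iff _).mpr ((_root_.map_ne_zero _).mpr hc0)
  have h6 : (1 : _) ≤ (O.valuation (algebraMap K F c))⁻¹ := (one_le_inv₀ (zero_lt_iff.mpr h5)).mpr h4
  exact not_lt.mpr h6 h3

end ConstHyp

section Toolbox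

variable {A : ValuationSubring K} {π : A →+* k} {O : ValuationSubring F} {res : O →+* Ft}
  {Q : Place k Ft} {T : Set (Place K F)} (C : RegChart A O res Q T)

/-- The places of the tube are integral on the local ring. -/
theorem integralAt {P : Place K F} (hP : P ∈ T) : IntegralAt A C.chart.R P :=
  (C.centred P hP).choose

/-- Evaluation at a place of the tube. -/
noncomputable def ev {P : Place K F} (hP : P ∈ T) : C.chart.R →+* A :=
  evHom A C.chart.R P (integralAt C hP)

theorem coe_ev {P : Place K F} (hP : P ∈ T) (y : C.chart.R) :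
    ((ev C hP y : A) : K) = evalAt P (y : F) := rfl

theorem isValueAt_ev {P : Place K F} (hP : P ∈ T) (y : C.chart.R) :
    IsValueAt P (y : F) (ev C hP y : A) :=
  (integralAt C hP).isValueAt_evalAt y.2

theorem ord_nonneg {P : Place K F} (hP : P ∈ T) {y : F} (hy : y ∈ C.chart.R) : 0 ≤ P.ord y :=
  (integralAt C hP).ord_nonneg hy

/-- The value of a non-unit at a place of the tube lies in the maximal ideal. -/
theorem valuation_ev_lt_one {P : Place K F} (hP : P ∈ T) {y : C.chart.R} (hy : ¬ IsUnit y) :
    A.valuation ((ev C hP y : A) : K) < 1 :=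
  (C.centred P hP).valuation_evalAt_lt_one hy

/-- The reduction map on the local ring. -/
def red : C.chart.R →+* Ft := res.comp (Subring.inclusion C.chart.le)

theorem red_apply (y : C.chart.R) : red C y = res ⟨y, C.chart.le y y.2⟩ := rfl

/-- The value of the reduction at the point. -/
theorem exists_isValueAt_red (hB : ConstHyp A π O res) (y : C.chart.R) :
    ∃ a : A, IsValueAt Q (red C y) (π a) :=
  C.chart.exists_isValueAt hB.res_const y.2

theorem isValueAt_red_evalAt (hB : ConstHyp A π O res) (y : C.chart.R) :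
    IsValueAt Q (red C y) (evalAt Q (red C y)) := by
  obtain ⟨a, ha⟩ := exists_isValueAt_red C hB y
  rwa [evalAt_eq_of_isValueAt ha]

/-- The value at the point, as a ring homomorphism. -/
noncomputable def valQ (hB : ConstHyp A π O res) : C.chart.R →+* k where
  toFun y := evalAt Q (red C y)
  map_one' := by
    rw [map_one]
    exact evalAt_eq_of_isValueAt (isValueAt_one Q)
  map_mul' x y := by
    rw [map_mul]
    exact evalAt_eq_of_isValueAt ((isValueAt_red_evalAt C hB x).mul (isValueAt_red_evalAt C hB y))
  map_zero' := by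
    rw [map_zero]
    exact evalAt_eq_of_isValueAt (isValueAt_zero Q)
  map_add' x y := by
    rw [map_add]
    exact evalAt_eq_of_isValueAt ((isValueAt_red_evalAt C hB x).add (isValueAt_red_evalAt C hB y))

theorem isValueAt_valQ (hB : ConstHyp A π O res) (y : C.chart.R) :
    IsValueAt Q (red C y) (valQ C hB y) :=
  isValueAt_red_evalAt C hB y

theorem valQ_eq_of_isValueAt (hB : ConstHyp A π O res) {y : C.chart.R} {c : k}
    (hc : IsValueAt Q (red C y) c) : valQ C hB y = c :=
  (isValueAt_valQ C hB y).unique hc

/-- The value at the point of a constant. -/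
theorem valQ_algebraMap (hB : ConstHyp A π O res) (a : A) :
    valQ C hB ⟨algebraMap K F a, C.chart.algebraMap_mem a a.2⟩ = π a := by
  apply valQ_eq_of_isValueAt C hB
  rw [red_apply, hB.res_const a a.2]
  exact isValueAt_algebraMap Q _

/-- Non-units vanish at the point. -/
theorem valQ_eq_zero_of_not_isUnit (hB : ConstHyp A π O res) {y : C.chart.R} (hy : ¬ IsUnit y) :
    valQ C hB y = 0 := by
  apply valQ_eq_of_isValueAt C hB
  rw [isValueAt_zero_iff]
  exact C.chart.branch y hy

theorem valQ_eq_zero_iff (hB : ConstHyp A π O res) (y : C.chart.R) :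
    valQ C hB y = 0 ↔ ¬ IsUnit y := by
  refine ⟨fun h0 hu => ?_, valQ_eq_zero_of_not_isUnit C hB⟩
  have h1 := hu.map (valQ C hB)
  rw [h0] at h1
  exact not_isUnit_zero h1

/-- **Compatibility**: the residue of the value at a place of the tube is the value of the
reduction at the point. -/
theorem pi_ev (hB : ConstHyp A π O res) {P : Place K F} (hP : P ∈ T) (y : C.chart.R) :
    π (ev C hP y) = valQ C hB y := by
  obtain ⟨a, ha⟩ := C.chart.residue y
  set ca : C.chart.R := ⟨algebraMap K F a, C.chart.algebraMap_mem a a.2⟩ with hca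
  have h1 : valQ C hB (y - ca) = 0 := valQ_eq_zero_of_not_isUnit C hB ha
  rw [map_sub, valQ_algebraMap C hB a, sub_eq_zero] at h1
  have h2 := valuation_ev_lt_one C hP ha
  have h3 : ev C hP (y - ca) = ev C hP y - a := by
    rw [map_sub]
    congr 1
    apply Subtype.ext
    rw [coe_ev]
    exact evalAt_algebraMap P _
  rw [h3] at h2
  have h4 := hB.pi_zero _ h2
  rw [map_sub, sub_eq_zero] at h4
  rw [h4, h1]

/-- The reduction of the parameter does not vanish identically. -/
theorem red_t_ne_zero : red C ⟨C.chart.t, C.chart.t_mem⟩ ≠ 0 := by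
  intro h0
  have := C.chart.ord_res_t
  rw [red_apply] at h0
  rw [h0, Place.ord_zero] at this
  exact zero_ne_one this

/-- The coordinate of a place of the tube. -/
theorem valuation_evalAt_t_lt_one {P : Place K F} (hP : P ∈ T) :
    A.valuation (evalAt P C.chart.t) < 1 := by
  obtain ⟨c, hc1, hc⟩ := C.chart.value P hP
  rwa [evalAt_eq_of_isValueAt hc]

theorem isValueAt_evalAt_t {P : Place K F} (hP : P ∈ T) :
    IsValueAt P C.chart.t (evalAt P C.chart.t) := by
  obtain ⟨c, -, hc⟩ := C.chart.value P hP
  rwa [evalAt_eq_of_isValueAt hc]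

theorem evalAt_t_mem {P : Place K F} (hP : P ∈ T) : evalAt P C.chart.t ∈ A :=
  (A.valuation_le_one_iff _).mp (valuation_evalAt_t_lt_one C hP).le

/-- `t - t(P)` as a function of the local ring. -/
noncomputable def lin {P : Place K F} (hP : P ∈ T) : C.chart.R :=
  ⟨C.chart.t, C.chart.t_mem⟩ -
    ⟨algebraMap K F (evalAt P C.chart.t), C.chart.algebraMap_mem _ (evalAt_t_mem C hP)⟩

theorem coe_lin {P : Place K F} (hP : P ∈ T) :
    ((lin C hP : C.chart.R) : F) = C.chart.t - algebraMap K F (evalAt P C.chart.t) := rfl

/-- The reduction of `t - t(P)` is the reduction of `t`. -/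
theorem red_lin (hB : ConstHyp A π O res) {P : Place K F} (hP : P ∈ T) :
    red C (lin C hP) = red C ⟨C.chart.t, C.chart.t_mem⟩ := by
  unfold lin
  rw [map_sub, red_apply (y := ⟨algebraMap K F _, _⟩), hB.res_const _ (evalAt_t_mem C hP),
    hB.pi_zero ⟨_, evalAt_t_mem C hP⟩ (valuation_evalAt_t_lt_one C hP), map_zero, sub_zero]

theorem lin_ne_zero {P : Place K F} (hP : P ∈ T) : ((lin C hP : C.chart.R) : F) ≠ 0 := by
  intro h0
  have := C.chart.simple P hP _ (isValueAt_evalAt_t C hP)
  rw [← coe_lin C hP, h0, Place.ord_zero] at this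
  exact zero_ne_one this

/-- `t - t(P)` is a unit of the component. -/
theorem inv_lin_mem (hB : ConstHyp A π O res) {P : Place K F} (hP : P ∈ T) :
    (((lin C hP : C.chart.R) : F))⁻¹ ∈ O := by
  have h1 : red C (lin C hP) ≠ 0 := by
    rw [red_lin C hB hP]
    exact red_t_ne_zero C
  have h2 : ((lin C hP : C.chart.R) : F) ∉ O.nonunits := by
    intro hn
    exact h1 ((hB.res_eq_zero_iff ⟨_, C.chart.le _ (lin C hP).2⟩).mpr hn)
  rw [ValuationSubring.mem_nonunits_iff_or, not_or, not_not] at h2
  exact h2.2

/-- The order of `t - t(P)` at the places of the tube. -/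
theorem ord_lin_self {P : Place K F} (hP : P ∈ T) :
    P.ord ((lin C hP : C.chart.R) : F) = 1 :=
  C.chart.simple P hP _ (isValueAt_evalAt_t C hP)

theorem ord_lin_of_ne {P P' : Place K F} (hP : P ∈ T) (hP' : P' ∈ T) (hne : P ≠ P') :
    P'.ord ((lin C hP : C.chart.R) : F) = 0 := by
  have h1 : IsValueAt P' ((lin C hP : C.chart.R) : F)
      (evalAt P' C.chart.t - evalAt P C.chart.t) :=
    (isValueAt_evalAt_t C hP').sub (isValueAt_algebraMap P' _)
  apply h1.ord_eq_zero
  intro h0
  apply hne
  have h2 : evalAt P' C.chart.t = evalAt P C.chart.t := sub_eq_zero.mp h0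
  have h3 := isValueAt_evalAt_t C hP'
  rw [h2] at h3
  exact C.chart.inj P hP P' hP' _ (isValueAt_evalAt_t C hP) h3

/-- **Division by `t - t(P)`**: a function of the local ring vanishing at `P` is divisible by
`t - t(P)` in the local ring. -/
theorem exists_eq_lin_mul (hB : ConstHyp A π O res) {P : Place K F} (hP : P ∈ T)
    {y : C.chart.R} (hy : ev C hP y = 0) : ∃ y' : C.chart.R, y = lin C hP * y' := by
  have hl0 := lin_ne_zero C hP
  set w : F := (y : F) * (((lin C hP : C.chart.R) : F))⁻¹ with hw
  have hwO : w ∈ O := O.mul_mem _ _ (C.chart.le _ y.2) (inv_lin_mem C hB hP)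
  have hval : IsValueAt P (y : F) 0 := by
    have := isValueAt_ev C hP y
    rwa [hy] at this
  have hwT : ∀ P' ∈ T, 0 ≤ P'.ord w := by
    intro P' hP'
    rcases eq_or_ne (y : F) 0 with h0 | h0
    · rw [hw, h0, zero_mul, Place.ord_zero]
    rw [hw, P'.ord_mul h0 (inv_ne_zero hl0), Place.ord_inv]
    by_cases hPP : P = P'
    · subst hPP
      rw [ord_lin_self C hP]
      rw [isValueAt_iff, map_zero, sub_zero] at hval
      rcases hval with h1 | h1
      · exact absurd h1 h0
      · omega
    · rw [ord_lin_of_ne C hP hP' hPP]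
      have := ord_nonneg C hP' y.2
      omega
  refine ⟨⟨w, C.chart.normal w hwO hwT⟩, ?_⟩
  apply Subtype.ext
  show (y : F) = ((lin C hP : C.chart.R) : F) * w
  rw [hw]
  field_simp

/-- A unit of the component in the local ring without zeros on the tube is a unit of the
local ring. -/
theorem isUnit_of_forall_ord_eq_zero {y : C.chart.R} (hy0 : (y : F) ≠ 0) (hy : ((y : F))⁻¹ ∈ O)
    (hT : ∀ P ∈ T, P.ord (y : F) = 0) : IsUnit y := by
  have h1 : ((y : F))⁻¹ ∈ C.chart.R := by
    refine C.chart.normal _ hy fun P hP => ?_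
    rw [Place.ord_inv, hT P hP, neg_zero]
  refine isUnit_iff_exists_inv.mpr ⟨⟨_, h1⟩, ?_⟩
  apply Subtype.ext
  show (y : F) * ((y : F))⁻¹ = 1
  exact mul_inv_cancel₀ hy0

/-- The order at the point of the reduction of a function of the local ring is nonnegative. -/
theorem ord_red_nonneg (hB : ConstHyp A π O res) (y : C.chart.R) : 0 ≤ Q.ord (red C y) :=
  Place.ord_nonneg_of_mem Q (isValueAt_valQ C hB y).mem

/-- **Induction principle**: every nonzero function of the local ring is a product of a nonzero
constant of `A`, of factors `t - t(P)` (`P` in the tube) and of a unit of the local ring. -/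
theorem induction_nonzero (hB : ConstHyp A π O res) (hVG : ValueGroupEq K O)
    (motive : C.chart.R → Prop)
    (hunit : ∀ e : C.chart.R, IsUnit e → motive e)
    (hconst : ∀ (c : K) (hc : c ∈ A), c ≠ 0 →
      motive ⟨algebraMap K F c, C.chart.algebraMap_mem c hc⟩)
    (hlin : ∀ (P : Place K F) (hP : P ∈ T), motive (lin C hP))
    (hmul : ∀ e₁ e₂ : C.chart.R, motive e₁ → motive e₂ → motive (e₁ * e₂))
    (e : C.chart.R) (he : e ≠ 0) : motive e := by
  -- the case of a unit of the component, by induction on the order at the point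
  have key : ∀ (n : ℕ) (e : C.chart.R), (e : F) ≠ 0 → ((e : F))⁻¹ ∈ O →
      (Q.ord (red C e)).toNat = n → motive e := by
    intro n
    induction n using Nat.strong_induction_on with
    | _ n ih =>
      intro e he0 heO hn
      by_cases hzero : ∀ P ∈ T, P.ord (e : F) = 0
      · exact hunit e (isUnit_of_forall_ord_eq_zero C he0 heO hzero)
      · simp only [not_forall] at hzero
        obtain ⟨P, hP, hPe⟩ := hzero
        have hpos : 0 < P.ord (e : F) :=
          lt_of_le_of_ne (ord_nonneg C hP e.2) (Ne.symm hPe)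
        have hev : ev C hP e = 0 := by
          apply Subtype.ext
          rw [coe_ev, ZeroMemClass.coe_zero]
          have h1 := isValueAt_ev C hP e
          by_contra h0
          have := h1.ord_eq_zero h0
          omega
        obtain ⟨e', he'⟩ := exists_eq_lin_mul C hB hP hev
        have he'F : (e : F) = ((lin C hP : C.chart.R) : F) * (e' : F) := by
          rw [he']
          rfl
        have he'0 : (e' : F) ≠ 0 := by
          intro h0
          rw [he'F, h0, mul_zero] at he0
          exact he0 rfl
        have he'O : ((e' : F))⁻¹ ∈ O := by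
          have h1 : ((e' : F))⁻¹ = ((e : F))⁻¹ * ((lin C hP : C.chart.R) : F) := by
            rw [he'F]
            field_simp [lin_ne_zero C hP]
          rw [h1]
          exact O.mul_mem _ _ heO (C.chart.le _ (lin C hP).2)
        have hred : red C e = red C ⟨C.chart.t, C.chart.t_mem⟩ * red C e' := by
          rw [he', map_mul, red_lin C hB hP]
        have hre'0 : red C e' ≠ 0 := by
          intro h0
          have h1 : (e' : F) ∈ O.nonunits :=
            (hB.res_eq_zero_iff ⟨_, C.chart.le _ e'.2⟩).mp h0
          rw [ValuationSubring.mem_nonunits_iff_or] at h1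
          rcases h1 with h1 | h1
          · exact he'0 h1
          · exact h1 he'O
        have hord : Q.ord (red C e) = 1 + Q.ord (red C e') := by
          rw [hred, Q.ord_mul (red_t_ne_zero C) hre'0, red_apply, C.chart.ord_res_t]
        have h2 := ord_red_nonneg C hB e'
        have hlt : (Q.ord (red C e')).toNat < n := by
          rw [← hn, hord]
          omega
        rw [he']
        exact hmul _ _ (hlin P hP) (ih _ hlt e' he'0 he'O rfl)
  -- the general case
  have he0 : (e : F) ≠ 0 := fun h0 => he (Subtype.ext h0)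
  obtain ⟨c, hc0, hce, hce'⟩ := hVG (e : F) he0
  have hcF : algebraMap K F c ≠ 0 := (_root_.map_ne_zero _).mpr hc0
  -- `c⁻¹ ∈ A`
  have hcinv : c⁻¹ ∈ A := by
    apply hB.mem_of_algebraMap_mem
    have h1 : algebraMap K F c⁻¹ = (e : F) * (algebraMap K F c * (e : F))⁻¹ := by
      rw [map_inv₀]
      field_simp
    rw [h1]
    exact O.mul_mem _ _ (C.chart.le _ e.2) hce'
  -- `e₁ = c e` lies in the local ring
  have he1R : algebraMap K F c * (e : F) ∈ C.chart.R := by
    refine C.chart.normal _ hce fun P hP => ?_
    rw [P.ord_mul hcF he0, Place.ord_algebraMap, zero_add]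
    exact ord_nonneg C hP e.2
  have hfac : e = ⟨algebraMap K F c⁻¹, C.chart.algebraMap_mem _ hcinv⟩ *
      ⟨algebraMap K F c * (e : F), he1R⟩ := by
    apply Subtype.ext
    show (e : F) = algebraMap K F c⁻¹ * (algebraMap K F c * (e : F))
    rw [map_inv₀]
    field_simp
  rw [hfac]
  refine hmul _ _ (hconst _ hcinv (inv_ne_zero hc0)) (key _ ⟨_, he1R⟩ ?_ hce' rfl)
  exact mul_ne_zero hcF he0

end Toolbox

end Fermat.Agent.BR3.CoverK.Factor
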