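import Mathlib
import Fermat.Agent.Val.ConstRed
import Fermat.Agent.BR3.CoverK.Factor

/-!
# Program C, node A6-K: the standing hypotheses on the constants from a `ConstRed`

The lift `coverRegChart` of A6-K takes, for the component downstairs `(O', res')`, the hypotheses
`hres`, `hres0`, `hAO`, `hπ`, `hπ0` (bundled as `Factor.ConstHyp A π O' res'`) and the value-group
hypothesis `hvg` (`Factor.ValueGroupEq K O'`).  All of them hold for the component of a constant
reduction `S : Val.ConstRed A π`:

* `constHyp_of_constRed S : Factor.ConstHyp A π S.O S.res`;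
* `valueGroupEq_of_constRed S : Factor.ValueGroupEq K S.O` (best approximation from the zero
  subspace: every nonzero function is a constant times a unit of `S.O`).
-/

set_option autoImplicit false

namespace Fermat.Agent.BR3.CoverK

open AlgebraicCurve Fermat.Agent.Val

variable {K F k Ft : Type*} [Field K] [Field F] [Algebra K F] [Field k] [Field Ft]
  [Algebra k Ft] {A : ValuationSubring K} {π : A →+* k}

/-- The residue map of a constant reduction vanishes exactly on the non-units. -/
theorem res_eq_zero_iff_of_constRed (S : ConstRed (F := F) (Ft := Ft) A π) (x : S.O) :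
    S.res x = 0 ↔ (x : F) ∈ S.O.nonunits := by
  have h := S.resF_eq_zero_iff x.2
  rw [S.resF_of_mem x.2] at h
  exact h

/-- **the value group of a constant reduction is the value group of the constants** -/
theorem valueGroupEq_of_constRed (S : ConstRed (F := F) (Ft := Ft) A π) :
    Factor.ValueGroupEq K S.O := by
  intro y hy
  obtain ⟨w, hw, c, hc, h, hne⟩ := S.approx ⊥ inferInstance y
    (fun hmem => hy ((Submodule.mem_bot K).mp hmem))
  have hw0 : w = 0 := (Submodule.mem_bot K).mp hw
  subst hw0
  have e : algebraMap K F c * y = c • (y - 0) := by rw [sub_zero, Algebra.smul_def]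
  have hres : S.res ⟨c • (y - 0), h⟩ ≠ 0 := by
    have h1 := hne 0 (by simp)
    rw [map_zero] at h1
    exact fun h0 => h1 h0.symm
  have hresF : S.resF (c • (y - 0)) ≠ 0 := by rwa [S.resF_of_mem h]
  refine ⟨c, hc, ?_, ?_⟩
  · rw [e]
    exact h
  · rw [e]
    exact S.inv_mem_of_resF_ne_zero hresF

/-- **the standing hypotheses on the constants, from a constant reduction** -/
theorem constHyp_of_constRed (S : ConstRed (F := F) (Ft := Ft) A π) :
    Factor.ConstHyp A π S.O S.res where
  res_const := S.res_algebraMap
  res_eq_zero_iff := res_eq_zero_iff_of_constRed S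
  const_nonunit := by
    intro c hc
    have hcA : c ∈ A := (A.valuation_le_one_iff c).mp hc.le
    have hnon : c ∈ A.nonunits := (A.mem_nonunits_iff).mpr hc
    have hπ : π ⟨c, hcA⟩ = 0 := (S.pi_eq_zero_iff ⟨c, hcA⟩).mpr hnon
    have hmem : algebraMap K F c ∈ S.O := S.algebraMap_mem hcA
    rw [← res_eq_zero_iff_of_constRed S ⟨_, hmem⟩, S.res_algebraMap c hcA hmem, hπ, map_zero]
  pi_inv := by
    intro a ha
    have hnon : (a : K) ∉ A.nonunits := fun h => ha ((S.pi_eq_zero_iff a).mpr h)
    rw [A.mem_nonunits_iff, not_lt] at hnon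
    have h1 : A.valuation (a : K) = 1 := le_antisymm ((A.valuation_le_one_iff _).mpr a.2) hnon
    rw [← A.valuation_le_one_iff, map_inv₀, h1, inv_one]
  pi_zero := by
    intro a ha
    exact (S.pi_eq_zero_iff a).mpr ((A.mem_nonunits_iff).mpr ha)

end Fermat.Agent.BR3.CoverK
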