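import Mathlib
import Fermat.Agent.BR3.CoverK.Defs
import Fermat.Agent.BR3.GaussContractSub
import Fermat.Agent.BR.CentreOrd

/-!
# Program C, node A6-K (VERT): stripping the constant

`C : RegChart A O' res' Q' T'`, `H : CoverSheet …` a sheet of the cover `F'' = F'[θ]` over the
chart, `R' = C.chart.R`.  If `z ∈ R'[X]` and `z(θ) ∈ c₀ · O''` for a constant `c₀ ∈ Kˣ` then
`ψc(θ)^N · z(θ) = c₀ · z'(θ)` with `z' ∈ R'[X]`, for some `N`.

* `horth_of_sheet` : the hypothesis `horth` of `GaussContract.gaussContract` from `H.indep`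
  (normalise by the largest coefficient and reduce);
* `exists_const_mul_unit` : a nonzero non-unit `y` of the component is `d · a` with `d ∈ K`,
  `|d| < 1`, `a` a unit of the component (value group hypothesis);
* `exists_dominating_const` : the coefficients of a polynomial with coefficients in the maximal
  ideal of the component lie in `d · O'` for a single constant `d` with `|d| < 1`;
* `inv_aeval_ψc_mem` : `ψc(θ)` is a unit of `O''`;
* `vert` : the statement of helper21's finding #1086, by `GaussContractSub.gaussContract_sub` with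
  `S := R'`, rank one (`harch`) and normality downstairs.
-/

set_option autoImplicit false

namespace Fermat.Agent.BR3.CoverK

open AlgebraicCurve Polynomial Fermat.Agent.Red Fermat.Agent.BR.Centre Fermat.Agent.BR.S0
  Fermat.Agent.X0 Fermat.Agent.BR3.GaussContract Fermat.Agent.BR3.GaussContractSub

variable {K k : Type*} [Field K] [Field k]
  {F' : Type*} [Field F'] [Algebra K F'] {Ft' : Type*} [Field Ft'] [Algebra k Ft']
  {F'' : Type*} [Field F''] [Algebra K F''] [Algebra F' F''] [IsScalarTower K F' F'']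
  {Ft'' : Type*} [Field Ft''] [Algebra k Ft''] [Algebra Ft' Ft''] [IsScalarTower k Ft' Ft'']
  {A : ValuationSubring K} {π : A →+* k}
  {O' : ValuationSubring F'} {res' : O' →+* Ft'} {Q' : Place k Ft'} {T' : Set (Place K F')}
  {O'' : ValuationSubring F''} {res'' : O'' →+* Ft''} {Q'' : Place k Ft''}
  {R' : Subring F'} {θ : F''} {Ψ ψ ψc : F'[X]} {u : A}

/-- `O'' ∩ F' = O'`, elementwise. -/
theorem CoverSheet.mem_iff (H : CoverSheet A π O' res' Q' O'' res'' Q'' R' θ Ψ ψ ψc u) (x : F') :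
    algebraMap F' F'' x ∈ O'' ↔ x ∈ O' := by
  constructor
  · intro h
    have h1 : x ∈ O''.comap (algebraMap F' F'') := h
    rwa [H.comap_eq] at h1
  · intro h
    have h1 : x ∈ O''.comap (algebraMap F' F'') := by
      rw [H.comap_eq]
      exact h
    exact h1

/-- An element of `F'` outside `O'` has inverse in the maximal ideal of `O''`. -/
theorem CoverSheet.inv_mem_nonunits (H : CoverSheet A π O' res' Q' O'' res'' Q'' R' θ Ψ ψ ψc u)
    {μ : F'} (hμ : μ ∉ O') : algebraMap F' F'' μ⁻¹ ∈ O''.nonunits := by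
  have h1 : algebraMap F' F'' μ ∉ O'' := fun h => hμ ((H.mem_iff μ).mp h)
  rw [← O''.valuation_le_one_iff, not_le] at h1
  rw [ValuationSubring.mem_nonunits_iff, map_inv₀, map_inv₀]
  exact inv_lt_one_of_one_lt₀ h1

/-- **`horth` from `indep`**: a polynomial of degree `< deg ψ` whose value at `θ` is integral on
the component upstairs has coefficients integral on the component downstairs. -/
theorem horth_of_sheet (H : CoverSheet A π O' res' Q' O'' res'' Q'' R' θ Ψ ψ ψc u)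
    (r : F'[X]) (hdeg : r.natDegree < ψ.natDegree) (hr : aeval θ r ∈ O'') :
    ∀ n, r.coeff n ∈ O' := by
  classical
  by_contra hcon
  rw [not_forall] at hcon
  obtain ⟨n₁, hn₁⟩ := hcon
  have hn₁s : n₁ ∈ r.support := by
    rw [mem_support_iff]
    intro h0
    rw [h0] at hn₁
    exact hn₁ O'.zero_mem
  -- the largest coefficient
  obtain ⟨n₀, hn₀s, hmax⟩ := Finset.exists_max_image r.support
    (fun n => O'.valuation (r.coeff n)) ⟨n₁, hn₁s⟩
  obtain ⟨μ, hμ⟩ : ∃ μ : F', μ = r.coeff n₀ := ⟨_, rfl⟩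
  have hμ0 : μ ≠ 0 := by
    rw [hμ]
    exact mem_support_iff.mp hn₀s
  have hμO : μ ∉ O' := by
    intro h
    apply hn₁
    rw [← O'.valuation_le_one_iff] at h ⊢
    rw [hμ] at h
    exact (hmax n₁ hn₁s).trans h
  have hvμ : O'.valuation μ ≠ 0 := (Valuation.ne_zero_iff _).mpr hμ0
  -- the normalised polynomial
  have hs : ∀ l, μ⁻¹ * r.coeff l ∈ O' := by
    intro l
    by_cases hl : l ∈ r.support
    · rw [← O'.valuation_le_one_iff, map_mul, map_inv₀]
      have h1 := hmax l hl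
      rw [← hμ] at h1
      rw [inv_mul_le_iff₀ (zero_lt_iff.mpr hvμ), mul_one]
      exact h1
    · rw [notMem_support_iff.mp hl, mul_zero]
      exact O'.zero_mem
  have hn₀m : n₀ < ψ.natDegree := lt_of_le_of_lt (le_natDegree_of_mem_supp n₀ hn₀s) hdeg
  -- the value of the normalised polynomial lies in the maximal ideal
  have hO : ∀ x : F', x ∈ O' → algebraMap F' F'' x ∈ O'' := fun x hx => (H.mem_iff x).mpr hx
  have hval : algebraMap F' F'' μ⁻¹ * aeval θ r ∈ O''.nonunits := by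
    have h1 := H.inv_mem_nonunits hμO
    rw [ValuationSubring.mem_nonunits_iff] at h1 ⊢
    rw [map_mul]
    exact mul_lt_one_of_nonneg_of_lt_one_left zero_le h1 ((O''.valuation_le_one_iff _).mpr hr)
  have hmem : algebraMap F' F'' μ⁻¹ * aeval θ r ∈ O'' := O''.nonunits_le hval
  -- the value as a sum
  have hsum : algebraMap F' F'' μ⁻¹ * aeval θ r =
      ∑ l : Fin ψ.natDegree, algebraMap F' F'' (μ⁻¹ * r.coeff l) * θ ^ (l : ℕ) := by
    rw [aeval_eq_sum_range' hdeg, Finset.mul_sum, ← Finset.sum_range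
      (fun l => algebraMap F' F'' (μ⁻¹ * r.coeff l) * θ ^ l)]
    refine Finset.sum_congr rfl fun l _ => ?_
    rw [Algebra.smul_def, map_mul, mul_assoc]
  have hsumO : (⟨algebraMap F' F'' μ⁻¹ * aeval θ r, hmem⟩ : O'') =
      ∑ l : Fin ψ.natDegree, (⟨algebraMap F' F'' (μ⁻¹ * r.coeff l), hO _ (hs l)⟩ : O'') *
        (⟨θ, H.θ_mem⟩ : O'') ^ (l : ℕ) := by
    refine Subtype.ext (hsum.trans ?_)
    push_cast
    rfl
  have hzero : res'' ⟨algebraMap F' F'' μ⁻¹ * aeval θ r, hmem⟩ = 0 :=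
    (H.res_eq_zero_iff _).mpr hval
  rw [hsumO, map_sum] at hzero
  have hzero' : ∑ l : Fin ψ.natDegree,
      algebraMap Ft' Ft'' (res' ⟨μ⁻¹ * r.coeff l, hs l⟩) * res'' ⟨θ, H.θ_mem⟩ ^ (l : ℕ) = 0 := by
    rw [← hzero]
    refine Finset.sum_congr rfl fun l _ => ?_
    rw [map_mul, map_pow, H.res_map _ (hs l) (hO _ (hs l))]
  have hc := H.indep (fun l => res' ⟨μ⁻¹ * r.coeff l, hs l⟩) hzero'
  have hc0 := congrFun hc ⟨n₀, hn₀m⟩
  simp only [Pi.zero_apply] at hc0
  have hone : (⟨μ⁻¹ * r.coeff n₀, hs n₀⟩ : O') = 1 := by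
    apply Subtype.ext
    show μ⁻¹ * r.coeff n₀ = 1
    rw [← hμ, inv_mul_cancel₀ hμ0]
  rw [hone, map_one] at hc0
  exact one_ne_zero hc0

/-- A nonzero non-unit of the component is a constant of absolute value `< 1` times a unit of the
component. -/
theorem exists_const_mul_unit (hAO' : ∀ a ∈ A, algebraMap K F' a ∈ O')
    (hvg : ∀ y : F', y ≠ 0 → ∃ c : K, c ≠ 0 ∧ algebraMap K F' c * y ∈ O' ∧
      (algebraMap K F' c * y)⁻¹ ∈ O')
    {y : F'} (hy0 : y ≠ 0) (hy : y ∈ O'.nonunits) :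
    ∃ d : K, d ≠ 0 ∧ A.valuation d < 1 ∧ ∃ a ∈ O', y = algebraMap K F' d * a := by
  obtain ⟨c, hc0, hcO, hcinv⟩ := hvg y hy0
  have hcF : algebraMap K F' c ≠ 0 := (_root_.map_ne_zero _).mpr hc0
  refine ⟨c⁻¹, inv_ne_zero hc0, ?_, algebraMap K F' c * y, hcO, ?_⟩
  · by_contra hlt
    rw [not_lt, map_inv₀, one_le_inv₀ (zero_lt_iff.mpr ((Valuation.ne_zero_iff _).mpr hc0))] at hlt
    have hcA : c ∈ A := (A.valuation_le_one_iff _).mp hlt
    have h1 : O'.valuation (algebraMap K F' c * y) < 1 := by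
      rw [map_mul, mul_comm]
      exact mul_lt_one_of_nonneg_of_lt_one_left zero_le
        ((ValuationSubring.mem_nonunits_iff _).mp hy)
        ((O'.valuation_le_one_iff _).mpr (hAO' c hcA))
    have h2 : O'.valuation (algebraMap K F' c * y)⁻¹ ≤ 1 := (O'.valuation_le_one_iff _).mpr hcinv
    have h3 : O'.valuation (algebraMap K F' c * y) ≠ 0 :=
      (Valuation.ne_zero_iff _).mpr (mul_ne_zero hcF hy0)
    rw [map_inv₀, inv_le_one₀ (zero_lt_iff.mpr h3)] at h2
    exact absurd h1 (not_lt.mpr h2)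
  · rw [map_inv₀, inv_mul_cancel_left₀ hcF]

/-- The coefficients of a polynomial with coefficients in the maximal ideal of the component lie
in `d · O'` for a single constant `d` of absolute value `< 1`. -/
theorem exists_dominating_const (hAO' : ∀ a ∈ A, algebraMap K F' a ∈ O')
    (hvg : ∀ y : F', y ≠ 0 → ∃ c : K, c ≠ 0 ∧ algebraMap K F' c * y ∈ O' ∧
      (algebraMap K F' c * y)⁻¹ ∈ O')
    (E : F'[X]) (hE : ∀ n, E.coeff n ∈ O'.nonunits) :
    ∃ d : K, A.valuation d < 1 ∧ ∀ n, ∃ a ∈ O', E.coeff n = algebraMap K F' d * a := by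
  classical
  have h : ∀ n, E.coeff n ≠ 0 → ∃ d : K, d ≠ 0 ∧ A.valuation d < 1 ∧
      ∃ a ∈ O', E.coeff n = algebraMap K F' d * a :=
    fun n hn => exists_const_mul_unit hAO' hvg hn (hE n)
  choose! d hd0 hd1 hda using h
  by_cases hsupp : E.support.Nonempty
  · obtain ⟨n₁, hn₁s, hmax⟩ := Finset.exists_max_image E.support
      (fun n => A.valuation (d n)) hsupp
    have hn₁ : E.coeff n₁ ≠ 0 := mem_support_iff.mp hn₁s
    have hD0 : d n₁ ≠ 0 := hd0 n₁ hn₁
    have hDF : algebraMap K F' (d n₁) ≠ 0 := (_root_.map_ne_zero _).mpr hD0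
    refine ⟨d n₁, hd1 n₁ hn₁, fun n => ?_⟩
    by_cases hn : E.coeff n = 0
    · exact ⟨0, O'.zero_mem, by rw [hn, mul_zero]⟩
    · obtain ⟨a, haO, han⟩ := hda n hn
      have hle : A.valuation (d n * (d n₁)⁻¹) ≤ 1 := by
        rw [map_mul, map_inv₀, mul_inv_le_iff₀
          (zero_lt_iff.mpr ((Valuation.ne_zero_iff _).mpr hD0)), one_mul]
        exact hmax n (mem_support_iff.mpr hn)
      have hq : d n * (d n₁)⁻¹ ∈ A := (A.valuation_le_one_iff _).mp hle
      refine ⟨algebraMap K F' (d n * (d n₁)⁻¹) * a, O'.mul_mem _ _ (hAO' _ hq) haO, ?_⟩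
      rw [han, map_mul, map_inv₀]
      field_simp
  · refine ⟨0, by rw [map_zero]; exact zero_lt_one, fun n => ⟨0, O'.zero_mem, ?_⟩⟩
    have h0 : E.coeff n = 0 := by
      by_contra hn
      exact hsupp ⟨n, mem_support_iff.mpr hn⟩
    rw [h0, mul_zero]

/-- `ψc(θ)` is a unit of the component upstairs. -/
theorem CoverSheet.inv_aeval_ψc_mem
    (H : CoverSheet A π O' res' Q' O'' res'' Q'' R' θ Ψ ψ ψc u) (hR' : ∀ y ∈ R', y ∈ O') :
    (aeval θ ψc)⁻¹ ∈ O'' := by
  have hO : ∀ x : F', x ∈ O' → algebraMap F' F'' x ∈ O'' := fun x hx => (H.mem_iff x).mpr hx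
  have hgmem : aeval θ ψc ∈ O'' :=
    IsIntPoly.aeval_mem (p := ψc) hO H.θ_mem fun n => hR' _ (H.ψc_coeff_mem n)
  have hnn : aeval θ ψc ∉ O''.nonunits := by
    intro hn
    apply H.ψc_unit hgmem
    rw [(H.res_eq_zero_iff ⟨_, hgmem⟩).mpr hn, map_zero]
    exact zero_lt_one
  rw [ValuationSubring.mem_nonunits_iff, not_lt] at hnn
  have hval : O''.valuation (aeval θ ψc) = 1 :=
    le_antisymm ((O''.valuation_le_one_iff _).mpr hgmem) hnn
  rw [← O''.valuation_le_one_iff, map_inv₀, hval, inv_one]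

/-- **(VERT)**: if `z ∈ R'[X]` and `z(θ) ∈ c₀ · O''` then `ψc(θ)^N · z(θ) = c₀ · z'(θ)` with
`z' ∈ R'[X]`. -/
theorem vert (C : RegChart A O' res' Q' T')
    (H : CoverSheet A π O' res' Q' O'' res'' Q'' C.chart.R θ Ψ ψ ψc u)
    (hres0 : ∀ x : O', res' x = 0 ↔ (x : F') ∈ O'.nonunits)
    (hAO : ∀ c : K, A.valuation c < 1 → algebraMap K F' c ∈ O'.nonunits)
    (harch : ∀ a c : K, A.valuation a < 1 → c ≠ 0 → ∃ N : ℕ, A.valuation a ^ N ≤ A.valuation c)
    (hvg : ∀ y : F', y ≠ 0 → ∃ c : K, c ≠ 0 ∧ algebraMap K F' c * y ∈ O' ∧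
      (algebraMap K F' c * y)⁻¹ ∈ O')
    {z : F'[X]} (hz : ∀ n, z.coeff n ∈ C.chart.R) {c₀ : K} (hc₀ : c₀ ≠ 0)
    (hzc : (algebraMap K F'' c₀)⁻¹ * aeval θ z ∈ O'') :
    ∃ (N : ℕ) (z' : F'[X]), (∀ n, z'.coeff n ∈ C.chart.R) ∧
      aeval θ ψc ^ N * aeval θ z = algebraMap K F'' c₀ * aeval θ z' := by
  have _h1 := hres0
  have _h2 := hAO
  have hle : ∀ y ∈ C.chart.R, y ∈ O' := C.chart.le
  have hAO' : ∀ a ∈ A, algebraMap K F' a ∈ O' := fun a ha => hle _ (C.chart.algebraMap_mem a ha)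
  have hint : ∀ P ∈ T', IntegralAt A C.chart.R P := fun P hP => (C.centred P hP).choose
  -- the constant dominating the coefficients of `Ψ - ψ ψc`
  obtain ⟨d, hd1, hfac⟩ := exists_dominating_const hAO' hvg (Ψ - ψ * ψc) H.factor
  have hdA : d ∈ A := (A.valuation_le_one_iff _).mp hd1.le
  -- rank one
  obtain ⟨N, hN⟩ := harch d c₀ hd1 hc₀
  have hc₀F : algebraMap K F' c₀ ≠ 0 := (_root_.map_ne_zero _).mpr hc₀
  have hNO : (algebraMap K F' c₀)⁻¹ * algebraMap K F' d ^ N ∈ O' := by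
    have h1 : A.valuation (c₀⁻¹ * d ^ N) ≤ 1 := by
      rw [map_mul, map_inv₀, map_pow, inv_mul_le_iff₀
        (zero_lt_iff.mpr ((Valuation.ne_zero_iff _).mpr hc₀)), mul_one]
      exact hN
    have h2 := hAO' _ ((A.valuation_le_one_iff _).mp h1)
    rwa [map_mul, map_inv₀, map_pow] at h2
  have hzc' : (algebraMap F' F'' (algebraMap K F' c₀))⁻¹ * aeval θ z ∈ O'' := by
    rw [← IsScalarTower.algebraMap_apply K F' F'']
    exact hzc
  -- the Gauss contraction with coefficients in the local ring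
  obtain ⟨hS, hcO, hval⟩ := gaussContract_sub O' O'' H.mem_iff H.θ_mem H.monic H.irreducible
    H.ψ_monic H.ψc_monic (fun n => hle _ (H.coeff_mem n)) (fun n => hle _ (H.ψ_coeff_mem n))
    (fun n => hle _ (H.ψc_coeff_mem n)) H.root (hAO' d hdA) hfac (H.inv_aeval_ψc_mem hle)
    (horth_of_sheet H) (fun n => hle _ (hz n)) hc₀F hzc' hNO C.chart.R H.coeff_mem
    H.ψc_coeff_mem hz
  refine ⟨N, Polynomial.C (algebraMap K F' c₀)⁻¹ * ((ψc ^ N * z) %ₘ Ψ), fun n => ?_, ?_⟩
  · rw [coeff_C_mul]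
    refine C.chart.normal _ (hcO n) fun P hP => ?_
    by_cases h0 : ((ψc ^ N * z) %ₘ Ψ).coeff n = 0
    · rw [h0, mul_zero, Place.ord_zero]
    · rw [P.ord_mul (inv_ne_zero hc₀F) h0, Place.ord_inv, Place.ord_algebraMap, neg_zero, zero_add]
      exact (hint P hP).ord_nonneg (hS n)
  · rw [map_mul, aeval_C, hval, map_inv₀, ← IsScalarTower.algebraMap_apply K F' F'',
      mul_inv_cancel_left₀ ((_root_.map_ne_zero _).mpr hc₀)]

end Fermat.Agent.BR3.CoverK
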