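import Mathlib
import Fermat.Agent.BR3.CoverK.ChartOfVert
import Fermat.Agent.BR3.CoverK.Vert
import Fermat.Agent.BR3.CoverK.OfConstRed

/-!
# Program C, node A6-K: the lift of a regular smooth chart along a standard étale sheet

`coverRegChart` : for a regular chart `C : RegChart A O' res' Q' T'` downstairs and a sheet
`H : CoverSheet A π O' res' Q' O'' res'' Q'' C.chart.R θ Ψ ψ ψc u` of a finite separable cover
`F'' = F'[θ]`, the regular chart `RegChart A O'' res'' Q'' (coverTube A T' θ u)` upstairs, with the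
same parameter (`coverRegChart_t`) and local ring `R'[θ]` localised at the functions not vanishing
at `Q''` (`coverRegChart_R`).  The output is again a `RegChart`, so the construction iterates.

Pieces: `Fields.coverRegChartOfNormal` (helper2: all fields but `normal`), `normal_of_pieces`
(assembly of (NORMAL)), `exists_factor` (EFACT), `exists_mem_coverTube` (ONTO), `vert` (VERT)
(helper20), engines `GaussContract(Sub)`, `SimpleRoot`, `PlaceOnto`, `CoverDiv`.

`coverRegChartOfConstRed` : the same when the component downstairs is the component of a constant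
reduction `S : Val.ConstRed A π` (all hypotheses on the constants and the value group are
discharged).
-/

set_option autoImplicit false

namespace Fermat.Agent.BR3.CoverK

open AlgebraicCurve Polynomial Fermat.Agent.Red Fermat.Agent.BR.Centre Fermat.Agent.BR.S0
  Fermat.Agent.BR3.CoverDiv Fermat.Agent.Val

variable {K k : Type*} [Field K] [Field k]
  {F' : Type*} [Field F'] [Algebra K F'] {Ft' : Type*} [Field Ft'] [Algebra k Ft']
  {F'' : Type*} [Field F''] [Algebra K F''] [Algebra F' F''] [IsScalarTower K F' F'']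
  {Ft'' : Type*} [Field Ft''] [Algebra k Ft''] [Algebra Ft' Ft''] [IsScalarTower k Ft' Ft'']
  [Algebra.IsIntegral F' F''] {A : ValuationSubring K} {π : A →+* k}
  {O' : ValuationSubring F'} {res' : O' →+* Ft'} {Q' : Place k Ft'} {T' : Set (Place K F')}
  {O'' : ValuationSubring F''} {res'' : O'' →+* Ft''} {Q'' : Place k Ft''}
  {θ : F''} {Ψ ψ ψc : F'[X]} {u : A}

/-- (VERT) in the packaged form. -/
theorem vertHyp (C : RegChart A O' res' Q' T')
    (H : CoverSheet A π O' res' Q' O'' res'' Q'' C.chart.R θ Ψ ψ ψc u)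
    (hres0 : ∀ x : O', res' x = 0 ↔ (x : F') ∈ O'.nonunits)
    (hAO : ∀ c : K, A.valuation c < 1 → algebraMap K F' c ∈ O'.nonunits)
    (harch : ∀ a c : K, A.valuation a < 1 → c ≠ 0 → ∃ N : ℕ, A.valuation a ^ N ≤ A.valuation c)
    (hvg : ∀ y : F', y ≠ 0 → ∃ c : K, c ≠ 0 ∧ algebraMap K F' c * y ∈ O' ∧
      (algebraMap K F' c * y)⁻¹ ∈ O') :
    VertHyp (K := K) C.chart.R O'' θ ψc :=
  fun _ hz _ hc₀ hzc => vert C H hres0 hAO harch hvg hz hc₀ hzc

/-- **A6-K**: the lift of a regular smooth chart along a cover which is standard étale at the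
point on the sheet. -/
noncomputable def coverRegChart [IsAlgClosed K] [FiniteDimensional F' F'']
    [Algebra.IsSeparable F' F''] (C : RegChart A O' res' Q' T')
    (H : CoverSheet A π O' res' Q' O'' res'' Q'' C.chart.R θ Ψ ψ ψc u)
    (hres : ∀ (a : K) (ha : a ∈ A) (h : algebraMap K F' a ∈ O'),
      res' ⟨algebraMap K F' a, h⟩ = algebraMap k Ft' (π ⟨a, ha⟩))
    (hres0 : ∀ x : O', res' x = 0 ↔ (x : F') ∈ O'.nonunits)
    (hAO : ∀ c : K, A.valuation c < 1 → algebraMap K F' c ∈ O'.nonunits)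
    (hπ : ∀ a : A, π a ≠ 0 → (a : K)⁻¹ ∈ A)
    (hπ0 : ∀ a : A, A.valuation (a : K) < 1 → π a = 0)
    (harch : ∀ a c : K, A.valuation a < 1 → c ≠ 0 → ∃ N : ℕ, A.valuation a ^ N ≤ A.valuation c)
    (hvg : ∀ y : F', y ≠ 0 → ∃ c : K, c ≠ 0 ∧ algebraMap K F' c * y ∈ O' ∧
      (algebraMap K F' c * y)⁻¹ ∈ O') :
    RegChart A O'' res'' Q'' (coverTube A T' θ u) :=
  coverRegChartOfVert C H hres hres0 hπ hπ0 hvg (vertHyp C H hres0 hAO harch hvg)

theorem coverRegChart_t [IsAlgClosed K] [FiniteDimensional F' F'']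
    [Algebra.IsSeparable F' F''] (C : RegChart A O' res' Q' T')
    (H : CoverSheet A π O' res' Q' O'' res'' Q'' C.chart.R θ Ψ ψ ψc u)
    (hres : ∀ (a : K) (ha : a ∈ A) (h : algebraMap K F' a ∈ O'),
      res' ⟨algebraMap K F' a, h⟩ = algebraMap k Ft' (π ⟨a, ha⟩))
    (hres0 : ∀ x : O', res' x = 0 ↔ (x : F') ∈ O'.nonunits)
    (hAO : ∀ c : K, A.valuation c < 1 → algebraMap K F' c ∈ O'.nonunits)
    (hπ : ∀ a : A, π a ≠ 0 → (a : K)⁻¹ ∈ A)
    (hπ0 : ∀ a : A, A.valuation (a : K) < 1 → π a = 0)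
    (harch : ∀ a c : K, A.valuation a < 1 → c ≠ 0 → ∃ N : ℕ, A.valuation a ^ N ≤ A.valuation c)
    (hvg : ∀ y : F', y ≠ 0 → ∃ c : K, c ≠ 0 ∧ algebraMap K F' c * y ∈ O' ∧
      (algebraMap K F' c * y)⁻¹ ∈ O') :
    (coverRegChart C H hres hres0 hAO hπ hπ0 harch hvg).chart.t =
      algebraMap F' F'' C.chart.t := rfl

theorem coverRegChart_R [IsAlgClosed K] [FiniteDimensional F' F'']
    [Algebra.IsSeparable F' F''] (C : RegChart A O' res' Q' T')
    (H : CoverSheet A π O' res' Q' O'' res'' Q'' C.chart.R θ Ψ ψ ψc u)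
    (hres : ∀ (a : K) (ha : a ∈ A) (h : algebraMap K F' a ∈ O'),
      res' ⟨algebraMap K F' a, h⟩ = algebraMap k Ft' (π ⟨a, ha⟩))
    (hres0 : ∀ x : O', res' x = 0 ↔ (x : F') ∈ O'.nonunits)
    (hAO : ∀ c : K, A.valuation c < 1 → algebraMap K F' c ∈ O'.nonunits)
    (hπ : ∀ a : A, π a ≠ 0 → (a : K)⁻¹ ∈ A)
    (hπ0 : ∀ a : A, A.valuation (a : K) < 1 → π a = 0)
    (harch : ∀ a c : K, A.valuation a < 1 → c ≠ 0 → ∃ N : ℕ, A.valuation a ^ N ≤ A.valuation c)
    (hvg : ∀ y : F', y ≠ 0 → ∃ c : K, c ≠ 0 ∧ algebraMap K F' c * y ∈ O' ∧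
      (algebraMap K F' c * y)⁻¹ ∈ O') :
    (coverRegChart C H hres hres0 hAO hπ hπ0 harch hvg).chart.R =
      coverRing C.chart.R θ O'' res'' Q'' := rfl

/-- **A6-K over the component of a constant reduction**: all hypotheses on the constants and on
the value group downstairs are discharged by `S : ConstRed A π`; only the rank-one hypothesis on
`A` remains. -/
noncomputable def coverRegChartOfConstRed [IsAlgClosed K] [FiniteDimensional F' F'']
    [Algebra.IsSeparable F' F''] (S : ConstRed (F := F') (Ft := Ft') A π)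
    (C : RegChart A S.O S.res Q' T')
    (H : CoverSheet A π S.O S.res Q' O'' res'' Q'' C.chart.R θ Ψ ψ ψc u)
    (harch : ∀ a c : K, A.valuation a < 1 → c ≠ 0 →
      ∃ N : ℕ, A.valuation a ^ N ≤ A.valuation c) :
    RegChart A O'' res'' Q'' (coverTube A T' θ u) :=
  coverRegChart C H (constHyp_of_constRed S).res_const (constHyp_of_constRed S).res_eq_zero_iff
    (constHyp_of_constRed S).const_nonunit (constHyp_of_constRed S).pi_inv
    (constHyp_of_constRed S).pi_zero harch (valueGroupEq_of_constRed S)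

theorem coverRegChartOfConstRed_t [IsAlgClosed K] [FiniteDimensional F' F'']
    [Algebra.IsSeparable F' F''] (S : ConstRed (F := F') (Ft := Ft') A π)
    (C : RegChart A S.O S.res Q' T')
    (H : CoverSheet A π S.O S.res Q' O'' res'' Q'' C.chart.R θ Ψ ψ ψc u)
    (harch : ∀ a c : K, A.valuation a < 1 → c ≠ 0 →
      ∃ N : ℕ, A.valuation a ^ N ≤ A.valuation c) :
    (coverRegChartOfConstRed S C H harch).chart.t = algebraMap F' F'' C.chart.t := rfl

theorem coverRegChartOfConstRed_R [IsAlgClosed K] [FiniteDimensional F' F'']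
    [Algebra.IsSeparable F' F''] (S : ConstRed (F := F') (Ft := Ft') A π)
    (C : RegChart A S.O S.res Q' T')
    (H : CoverSheet A π S.O S.res Q' O'' res'' Q'' C.chart.R θ Ψ ψ ψc u)
    (harch : ∀ a c : K, A.valuation a < 1 → c ≠ 0 →
      ∃ N : ℕ, A.valuation a ^ N ≤ A.valuation c) :
    (coverRegChartOfConstRed S C H harch).chart.R = coverRing C.chart.R θ O'' res'' Q'' := rfl

end Fermat.Agent.BR3.CoverK
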