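import Mathlib
import Fermat.Agent.BR3.CoverK.Defs
import Fermat.Agent.BR3.RegFamily
import Fermat.Agent.BR3.SubDiscChart

/-!
# Program C, node A6-K: the two sources of `RegChart`s

* `RegChart.ofFamily` : a directed family of smooth levels (`SmoothFamily`) gives a regular chart
  (fields from `BR3/RegFamily.lean`);
* `subDiscRegChart` : the residue disc `|u - c| < |a|` of the circle of gauge `a` of an
  `AnnulusCore` gives a regular chart over the circle ring (fields from `BR3/SubDiscChart.lean`).

The `valueGroup` hypothesis of the lift (`∀ y ≠ 0, ∃ c, c • y` a unit of the component) is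
`RegFamily.valueGroup`, resp. `SubDisc.circle_valueGroup`.
-/

set_option autoImplicit false

noncomputable section

namespace Fermat.Agent.BR3.CoverK

open AlgebraicCurve IsLocalRing Fermat.Agent.Red Fermat.Agent.BR.Centre Fermat.Agent.BR.S0
  Fermat.Agent.BR Fermat.Agent.BR.Circle Fermat.Agent.BR.P1 Fermat.Agent.BR.AnnulusRed
  Fermat.Agent.BR.InertiaRed

section Family

variable {K F k : Type*} [Field K] [Field F] [Algebra K F] [Field k]
  {Ft : Type*} [Field Ft] [Algebra k Ft]
  {A : ValuationSubring K} {π : A →+* k} {O : ValuationSubring F} {res : O →+* Ft}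
  {Q : Place k Ft} {T : Set (Place K F)} {t : F} {ι : Type*} {R : ι → Subring F} {ϖ : ι → K}

/-- A directed family of levels gives a regular chart. -/
def RegChart.ofFamily (Hf : SmoothFamily A O res Q T t R ϖ)
    (hres : ∀ (a : K) (ha : a ∈ A) (h : algebraMap K F a ∈ O),
      res ⟨algebraMap K F a, h⟩ = algebraMap k Ft (π ⟨a, ha⟩))
    (hAO : ∀ c : K, A.valuation c < 1 → algebraMap K F c ∈ O.nonunits)
    (hord : ∀ h : t ∈ O, Q.ord (res ⟨t, h⟩) = 1) : RegChart A O res Q T where
  chart := Hf.chart hres hAO hord
  centred := fun _ hP => RegFamily.centred Hf hres hAO hord hP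
  frac := fun y => RegFamily.frac Hf hres hAO hord y

theorem RegChart.ofFamily_chart (Hf : SmoothFamily A O res Q T t R ϖ)
    (hres : ∀ (a : K) (ha : a ∈ A) (h : algebraMap K F a ∈ O),
      res ⟨algebraMap K F a, h⟩ = algebraMap k Ft (π ⟨a, ha⟩))
    (hAO : ∀ c : K, A.valuation c < 1 → algebraMap K F c ∈ O.nonunits)
    (hord : ∀ h : t ∈ O, Q.ord (res ⟨t, h⟩) = 1) :
    (RegChart.ofFamily Hf hres hAO hord).chart = Hf.chart hres hAO hord := rfl

end Family

section SubDisc

variable {K F : Type*} [Field K] [Field F] [Algebra K F]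
  {A : ValuationSubring K} [IsAlgClosed (ResidueField A)] {T : Set (Place K F)}

/-- The residue disc `|u - c| < |a|` of the circle of gauge `a` of an annulus gives a regular
chart over the circle ring, with parameter `(u - c) / a`. -/
def subDiscRegChart (C : AnnulusCore A T) (a c : K)
    (ha1 : A.valuation C.thick < A.valuation a) (ha2 : A.valuation a < 1)
    (hc : A.valuation c = A.valuation a) :
    RegChart A (circleRing C a ha1 ha2) (circleRes C a ha1 ha2)
      (placeAt (ResidueField A) (angRes A c a)) (SubDisc.classDisc C a (angRes A c a)) where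
  chart := SubDisc.discChart C a c ha1 ha2 hc
  centred := fun _ hP =>
    SubDisc.discRing_centred (C := C) (a := a) (cb := angRes A c a) (ha1 := ha1) (ha2 := ha2)
      (angRes_ne_zero A (gauge_ne_zero ha1) hc) hP
  frac := fun y => SubDisc.discRing_frac ha1 ha2 y

theorem subDiscRegChart_chart (C : AnnulusCore A T) (a c : K)
    (ha1 : A.valuation C.thick < A.valuation a) (ha2 : A.valuation a < 1)
    (hc : A.valuation c = A.valuation a) :
    (subDiscRegChart C a c ha1 ha2 hc).chart = SubDisc.discChart C a c ha1 ha2 hc := rfl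

theorem subDiscRegChart_t (C : AnnulusCore A T) (a c : K)
    (ha1 : A.valuation C.thick < A.valuation a) (ha2 : A.valuation a < 1)
    (hc : A.valuation c = A.valuation a) :
    (subDiscRegChart C a c ha1 ha2 hc).chart.t = SubDisc.discParam C a c := rfl

end SubDisc

end Fermat.Agent.BR3.CoverK
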