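/-
Program C (S36), node (W4), abstract smooth-point half (helper24): the sheets of a finite cover over
the tube of ONE smooth point `y' = ⟨v', Q'⟩` of the base, in the shapes consumed by the fields
`tube` / `cover` / `disjoint` (and `smooth`) of `SDD.Input`.

`C : CoverK.RegChart A O' res' Q' T'` the regular chart downstairs on `T' = tube' y'`,
`tube'' : β'' → Set (Place K F'')` the candidate tubes of the points of the cover.

* `SmoothFibre T' tube''` : the finite set `fib` of points of the cover over the point, with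
  (sub) `tube'' x` lies over `T'`, (disj) the tubes are pairwise disjoint, (exh) every place over
  `T'` lies in the tube of a point of `fib`; `SmoothFibre.existsUnique`.
* ROUTE 1 `SmoothFibre.ofGenerator` : ONE generator `θ` (root of a monic `Ψ` over `C.chart.R`)
  separating the fibre: `tube'' x = coverTube A T' θ (u x)` with `deg Ψ` pairwise distinct residues
  `π (u x)`, roots of `Ψ̄_{Q'}` (`Dict.redPoly`; for a sheet `H x` the root property is
  `Dict.isRoot_redPoly`) — no counting, no chart upstairs needed.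
* ROUTE 2 `smoothSheetsOfCoverSheets`, `SmoothFibre.ofCoverSheets` : one `CoverSheet (H x)` per
  point, each with its OWN generator `θ x`; pairwise disjointness is a hypothesis (discharge it by
  `Dict.coverTube_disjoint` for a common generator and by `Dict.disjoint_of_isIntegral` otherwise);
  the exhaustion is helper23's count (`SheetCount.count_of_smoothChart` on the lifted chart
  `coverRegChart C (H x)`: every sheet carries exactly ONE zero of `t - c`, because `Q'' x` is
  unramified over `Q'`) with `fib.card = [F'' : F']`.  Output: `CoverDict.SmoothSheets`.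
* `SmoothFibre.ofSmoothSheets` : adapter from helper23's `CoverDict.SmoothSheets`.
* `sheetChart` : the regular chart upstairs on `tube'' x` (field `smooth` of `SDD.Input`),
  `constHyp_up` : the standing hypotheses on the constants for the component upstairs.
* `cover_of_fibres` : the field `cover` from a `SmoothFibre` over every smooth point and
  `CoverDict.NodeSheets` over every node of the base (`CoverDict.cover_of_sheets` with `SmoothFibre`
  in place of `SmoothSheets`).
-/
import Mathlib
import Fermat.Agent.BR3.CoverK.Dict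
import Fermat.Agent.BR3.CoverK.Chart
import Fermat.Agent.BR3.CoverDict

set_option autoImplicit false
set_option linter.unusedSectionVars false

namespace Fermat.Agent.BR3.CoverK.Fibre

open AlgebraicCurve Polynomial Fermat.Agent.Red Fermat.Agent.X0 Fermat.Agent.BR.Centre
  Fermat.Agent.BR.S0 Fermat.Agent.BR.SS Fermat.Agent.BR.Circle Fermat.Agent.BR3.CoverK Fermat.Agent.BR3.CoverK.Factor
  Fermat.Agent.BR3.CoverK.Dict Fermat.Agent.BR3.CoverDiv Fermat.Agent.BR3.CoverPlaces
  Fermat.Agent.BR3.CoverDict Fermat.Agent.BR3.SheetCount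

variable {K k : Type*} [Field K] [Field k]
  {F' : Type*} [Field F'] [Algebra K F']
  {F'' : Type*} [Field F''] [Algebra K F''] [Algebra F' F''] [IsScalarTower K F' F'']
  [Algebra.IsIntegral F' F'']

/-! ### the sheets over one smooth point -/

/-- **The sheets over the tube of one smooth point of the base.** -/
structure SmoothFibre (T' : Set (Place K F')) {β'' : Type*}
    (tube'' : β'' → Set (Place K F'')) where
  /-- the points of the cover over the point -/
  fib : Finset β''
  sub : ∀ x ∈ fib, ∀ P ∈ tube'' x, P.restrict F' ∈ T'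
  disj : ∀ x ∈ fib, ∀ y ∈ fib, ∀ P, P ∈ tube'' x → P ∈ tube'' y → x = y
  exh : ∀ P : Place K F'', P.restrict F' ∈ T' → ∃ x ∈ fib, P ∈ tube'' x

namespace SmoothFibre

variable {T' : Set (Place K F')} {β'' : Type*} {tube'' : β'' → Set (Place K F'')}

/-- Every place over the tube lies in the tube of exactly one point of the fibre. -/
theorem existsUnique (X : SmoothFibre T' tube'') {P : Place K F''} (hP : P.restrict F' ∈ T') :
    ∃! x, x ∈ X.fib ∧ P ∈ tube'' x := by
  obtain ⟨x, hx, hPx⟩ := X.exh P hP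
  exact ⟨x, ⟨hx, hPx⟩, fun y hy => X.disj y hy.1 x hx P hy.2 hPx⟩

/-- The places over the tube are the union of the tubes of the points of the fibre. -/
theorem setOf_restrict_mem_eq (X : SmoothFibre T' tube'') :
    {P : Place K F'' | P.restrict F' ∈ T'} = ⋃ x ∈ X.fib, tube'' x := by
  ext P
  rw [Set.mem_iUnion₂]
  constructor
  · intro hP
    obtain ⟨x, hx, hPx⟩ := X.exh P hP
    exact ⟨x, hx, hPx⟩
  · rintro ⟨x, hx, hPx⟩
    exact X.sub x hx P hPx

end SmoothFibre

/-! ### route 1: one generator separating the fibre -/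

section Generator

variable {A : ValuationSubring K} {π : A →+* k} {T' : Set (Place K F')}
  {Ft' : Type*} [Field Ft'] [Algebra k Ft'] {O' : ValuationSubring F'} {res' : O' →+* Ft'}
  {Q' : Place k Ft'} (C : RegChart A O' res' Q' T')

/-- **Route 1**: the fibre from ONE generator whose point values at the points over `Q'` are
pairwise distinct and `deg Ψ` in number. -/
noncomputable def SmoothFibre.ofGenerator (hB : ConstHyp A π O' res') {θ : F''} {Ψ : F'[X]}
    (hmonic : Ψ.Monic) (hΨ : ∀ n, Ψ.coeff n ∈ C.chart.R) (hroot : aeval θ Ψ = 0)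
    {β'' : Type*} {tube'' : β'' → Set (Place K F'')} (fib : Finset β'') (u : β'' → A)
    (htube : ∀ x ∈ fib, tube'' x = coverTube A T' θ (u x))
    (hinj : ∀ x ∈ fib, ∀ y ∈ fib, π (u x) = π (u y) → x = y)
    (hu : ∀ x ∈ fib, (redPoly C hB hΨ).IsRoot (π (u x)))
    (hcard : Ψ.natDegree ≤ fib.card) (hdeg : ∀ P : Place K F'', P.deg = 1) :
    SmoothFibre T' tube'' where
  fib := fib
  sub := fun x hx P hP => by
    rw [htube x hx] at hP
    exact hP.1
  disj := fun x hx y hy P hPx hPy => by
    rw [htube x hx] at hPx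
    rw [htube y hy] at hPy
    by_contra hne
    exact not_mem_coverTube_of_ne hB.pi_zero (fun h => hne (hinj x hx y hy h)) hPx hPy
  exh := fun P hP => by
    obtain ⟨i, hi, -⟩ := existsUnique_mem_coverTube C hB hmonic hΨ hroot
      (ι := {x // x ∈ fib}) (fun i => u i.1)
      (fun i j hij => Subtype.ext (hinj i.1 i.2 j.1 j.2 hij))
      (fun i => hu i.1 i.2) (by rwa [Fintype.card_coe]) (hdeg P) hP
    refine ⟨i.1, i.2, ?_⟩
    rw [htube i.1 i.2]
    exact hi

end Generator

/-! ### the component upstairs -/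

section Up

variable {A : ValuationSubring K} {π : A →+* k}
  {Ft' : Type*} [Field Ft'] [Algebra k Ft'] {O' : ValuationSubring F'} {res' : O' →+* Ft'}
  {Q' : Place k Ft'}
  {Ft'' : Type*} [Field Ft''] [Algebra k Ft''] [Algebra Ft' Ft''] [IsScalarTower k Ft' Ft'']
  {O'' : ValuationSubring F''} {res'' : O'' →+* Ft''} {Q'' : Place k Ft''}
  {R' : Subring F'} {θ : F''} {Ψ ψ ψc : F'[X]} {u : A}

/-- The functions integral on the component downstairs are integral on the component upstairs. -/
theorem map_mem (H : CoverSheet A π O' res' Q' O'' res'' Q'' R' θ Ψ ψ ψc u) {y : F'}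
    (hy : y ∈ O') : algebraMap F' F'' y ∈ O'' := by
  have h1 : y ∈ O''.comap (algebraMap F' F'') := by
    rw [H.comap_eq]
    exact hy
  exact h1

/-- The non-units downstairs are non-units upstairs. -/
theorem map_mem_nonunits (H : CoverSheet A π O' res' Q' O'' res'' Q'' R' θ Ψ ψ ψc u) {y : F'}
    (hy : y ∈ O'.nonunits) : algebraMap F' F'' y ∈ O''.nonunits := by
  rw [ValuationSubring.mem_nonunits_iff_or] at hy ⊢
  rcases hy with hy | hy
  · left
    rw [hy, map_zero]
  · right
    intro hinv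
    apply hy
    have h1 : (algebraMap F' F'' y)⁻¹ = algebraMap F' F'' y⁻¹ := (map_inv₀ _ _).symm
    rw [h1] at hinv
    have h2 : y⁻¹ ∈ O''.comap (algebraMap F' F'') := hinv
    rwa [H.comap_eq] at h2

/-- **The standing hypotheses on the constants for the component upstairs.** -/
theorem constHyp_up (H : CoverSheet A π O' res' Q' O'' res'' Q'' R' θ Ψ ψ ψc u)
    (hB : ConstHyp A π O' res') : ConstHyp A π O'' res'' where
  res_const := fun a ha h => by
    have hO' : algebraMap K F' a ∈ O' := by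
      have h4 : algebraMap F' F'' (algebraMap K F' a) ∈ O'' := by
        rwa [← IsScalarTower.algebraMap_apply]
      have h5 : algebraMap K F' a ∈ O''.comap (algebraMap F' F'') := h4
      rwa [H.comap_eq] at h5
    have e : (⟨algebraMap K F'' a, h⟩ : O'') =
        ⟨algebraMap F' F'' (algebraMap K F' a), map_mem H hO'⟩ :=
      Subtype.ext (IsScalarTower.algebraMap_apply K F' F'' a)
    rw [e, H.res_map _ hO', hB.res_const a ha hO', ← IsScalarTower.algebraMap_apply]
  res_eq_zero_iff := H.res_eq_zero_iff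
  const_nonunit := fun c hc => by
    have h1 := map_mem_nonunits H (hB.const_nonunit c hc)
    rwa [← IsScalarTower.algebraMap_apply] at h1
  pi_inv := hB.pi_inv
  pi_zero := hB.pi_zero

end Up

/-! ### route 2: one sheet per point, exhaustion by counting -/

section Sheets

variable {A : ValuationSubring K} {π : A →+* k} {T' : Set (Place K F')}
  {Ft' : Type*} [Field Ft'] [Algebra k Ft'] {O' : ValuationSubring F'} {res' : O' →+* Ft'}
  {Q' : Place k Ft'} (C : RegChart A O' res' Q' T')
  {Ft'' : Type*} [Field Ft''] [Algebra k Ft''] [Algebra Ft' Ft''] [IsScalarTower k Ft' Ft'']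
  {O'' : ValuationSubring F''} {res'' : O'' →+* Ft''} {Q'' : Place k Ft''}
  {θ : F''} {Ψ ψ ψc : F'[X]} {u : A}

/-- A regular chart on a tube, transported along an equality of tubes. -/
def regChartOfEq {F : Type*} [Field F] [Algebra K F] {Ft : Type*} [Field Ft] [Algebra k Ft]
    {O : ValuationSubring F} {res : O →+* Ft} {Q : Place k Ft} {T T₂ : Set (Place K F)}
    (h : T₂ = T) (C : RegChart A O res Q T) : RegChart A O res Q T₂ :=
  h ▸ C

theorem regChartOfEq_t {F : Type*} [Field F] [Algebra K F] {Ft : Type*} [Field Ft] [Algebra k Ft]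
    {O : ValuationSubring F} {res : O →+* Ft} {Q : Place k Ft} {T T₂ : Set (Place K F)}
    (h : T₂ = T) (C : RegChart A O res Q T) : (regChartOfEq h C).chart.t = C.chart.t := by
  subst h
  rfl

theorem regChartOfEq_R {F : Type*} [Field F] [Algebra K F] {Ft : Type*} [Field Ft] [Algebra k Ft]
    {O : ValuationSubring F} {res : O →+* Ft} {Q : Place k Ft} {T T₂ : Set (Place K F)}
    (h : T₂ = T) (C : RegChart A O res Q T) : (regChartOfEq h C).chart.R = C.chart.R := by
  subst h
  rfl

/-- **The regular chart upstairs on the tube of a point of the fibre** (field `smooth` of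
`SDD.Input`): the lift of the chart downstairs along the sheet. -/
noncomputable def sheetChart [IsAlgClosed K] [FiniteDimensional F' F'']
    [Algebra.IsSeparable F' F'']
    (H : CoverSheet A π O' res' Q' O'' res'' Q'' C.chart.R θ Ψ ψ ψc u)
    (hB : ConstHyp A π O' res') (hvg : ValueGroupEq K O')
    (harch : ∀ a c : K, A.valuation a < 1 → c ≠ 0 → ∃ N : ℕ, A.valuation a ^ N ≤ A.valuation c)
    {T'' : Set (Place K F'')} (hT : T'' = coverTube A T' θ u) : RegChart A O'' res'' Q'' T'' :=
  regChartOfEq hT (coverRegChart C H hB.res_const hB.res_eq_zero_iff hB.const_nonunit hB.pi_inv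
    hB.pi_zero harch hvg)

theorem sheetChart_t [IsAlgClosed K] [FiniteDimensional F' F''] [Algebra.IsSeparable F' F'']
    (H : CoverSheet A π O' res' Q' O'' res'' Q'' C.chart.R θ Ψ ψ ψc u)
    (hB : ConstHyp A π O' res') (hvg : ValueGroupEq K O')
    (harch : ∀ a c : K, A.valuation a < 1 → c ≠ 0 → ∃ N : ℕ, A.valuation a ^ N ≤ A.valuation c)
    {T'' : Set (Place K F'')} (hT : T'' = coverTube A T' θ u) :
    (sheetChart C H hB hvg harch hT).chart.t = algebraMap F' F'' C.chart.t := by
  rw [sheetChart, regChartOfEq_t]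
  rfl

theorem sheetChart_R [IsAlgClosed K] [FiniteDimensional F' F''] [Algebra.IsSeparable F' F'']
    (H : CoverSheet A π O' res' Q' O'' res'' Q'' C.chart.R θ Ψ ψ ψc u)
    (hB : ConstHyp A π O' res') (hvg : ValueGroupEq K O')
    (harch : ∀ a c : K, A.valuation a < 1 → c ≠ 0 → ∃ N : ℕ, A.valuation a ^ N ≤ A.valuation c)
    {T'' : Set (Place K F'')} (hT : T'' = coverTube A T' θ u) :
    (sheetChart C H hB hvg harch hT).chart.R = coverRing C.chart.R θ O'' res'' Q'' := by
  rw [sheetChart, regChartOfEq_R]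
  rfl

/-- **The count on a sheet**: `t - c` has exactly one zero on the sheet `θ ≡ u` of a
`CoverSheet`. -/
theorem count_sheet [IsAlgClosed K] [FiniteDimensional F' F''] [Algebra.IsSeparable F' F'']
    (H : CoverSheet A π O' res' Q' O'' res'' Q'' C.chart.R θ Ψ ψ ψc u)
    (hB : ConstHyp A π O' res') (hvg : ValueGroupEq K O')
    (harch : ∀ a c : K, A.valuation a < 1 → c ≠ 0 → ∃ N : ℕ, A.valuation a ^ N ≤ A.valuation c)
    {c : K} (hc : A.valuation c < 1) (D : Divisor K F'')
    (hD : ∀ P, D P = P.ord (algebraMap F' F'' (C.chart.t - algebraMap K F' c))) :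
    Finsupp.mapDomain (fun P => P ∈ coverTube A T' θ u) D True = ((1 : ℕ) : ℤ) := by
  have hB'' := constHyp_up H hB
  have ht : C.chart.t ∈ O' := C.chart.le _ C.chart.t_mem
  have ht0 : res' ⟨C.chart.t, ht⟩ ≠ 0 := red_t_ne_zero C
  have hAO' : ∀ a ∈ A, algebraMap K F' a ∈ O' := fun a ha =>
    C.chart.le _ (C.chart.algebraMap_mem a ha)
  refine count_of_smoothChart (O' := O') (res' := res')
    (coverRegChart C H hB.res_const hB.res_eq_zero_iff hB.const_nonunit hB.pi_inv
      hB.pi_zero harch hvg).chart hB''.res_const hB.pi_zero ?_ (fun y hy => map_mem H hy)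
    (fun y hy => H.res_map y hy _) hAO' (fun a ha => hB.res_const a ha _) ht ht0 ?_ hc D hD
  · intro x hx
    have h1 : (x : F'') ∉ O''.nonunits := fun h => hx ((H.res_eq_zero_iff x).mpr h)
    rw [ValuationSubring.mem_nonunits_iff_or, not_or, not_not] at h1
    refine isUnit_iff_exists_inv.mpr ⟨⟨_, h1.2⟩, ?_⟩
    exact Subtype.ext (mul_inv_cancel₀ h1.1)
  · rw [H.ord_map, C.chart.ord_res_t]
    rfl

end Sheets

section Family

variable [HasPrincipalDivisors K F''] [FundamentalIdentity K F' F'']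
  {A : ValuationSubring K} {π : A →+* k} {T' : Set (Place K F')}
  {Ft' : Type*} [Field Ft'] [Algebra k Ft'] {O' : ValuationSubring F'} {res' : O' →+* Ft'}
  {Q' : Place k Ft'} (C : RegChart A O' res' Q' T')
  {β'' : Type*} {tube'' : β'' → Set (Place K F'')}

/-- **Route 2**: helper23's `SmoothSheets` from one `CoverSheet` per point of the fibre (each with
its own generator), pairwise disjoint, `[F'' : F']` in number: every sheet carries exactly one zero
of `t - c`. -/
noncomputable def smoothSheetsOfCoverSheets [IsAlgClosed K] [FiniteDimensional F' F'']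
    [Algebra.IsSeparable F' F''] (hB : ConstHyp A π O' res') (hvg : ValueGroupEq K O')
    (harch : ∀ a c : K, A.valuation a < 1 → c ≠ 0 → ∃ N : ℕ, A.valuation a ^ N ≤ A.valuation c)
    (fib : Finset β'') (Ft'' : β'' → Type*) [∀ x, Field (Ft'' x)] [∀ x, Algebra k (Ft'' x)]
    [∀ x, Algebra Ft' (Ft'' x)] [∀ x, IsScalarTower k Ft' (Ft'' x)]
    (O'' : β'' → ValuationSubring F'') (res'' : ∀ x, O'' x →+* Ft'' x)
    (Q'' : ∀ x, Place k (Ft'' x)) (θ : β'' → F'') (Ψ ψ ψc : β'' → F'[X]) (u : β'' → A)
    (H : ∀ x ∈ fib, CoverSheet A π O' res' Q' (O'' x) (res'' x) (Q'' x) C.chart.R (θ x) (Ψ x)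
      (ψ x) (ψc x) (u x))
    (htube : ∀ x ∈ fib, tube'' x = coverTube A T' (θ x) (u x))
    (hdisj : ∀ x ∈ fib, ∀ y ∈ fib, ∀ P, P ∈ tube'' x → P ∈ tube'' y → x = y)
    (hcard : fib.card = Module.finrank F' F'') :
    SmoothSheets A O' res' Q' T' C.chart tube'' where
  fib := fib
  e := fun _ => 1
  sub := fun x hx P hP => by
    rw [htube x hx] at hP
    exact hP.1
  disj := hdisj
  count := fun x hx c hc D hD => by
    rw [htube x hx]
    exact count_sheet C (H x hx) hB hvg harch hc D hD
  sum := by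
    rw [Finset.sum_const, smul_eq_mul, mul_one]
    exact hcard

/-- Adapter: helper23's `SmoothSheets` give a `SmoothFibre`. -/
def SmoothFibre.ofSmoothSheets {C' : SmoothChart A O' res' Q' T'}
    (X : SmoothSheets A O' res' Q' T' C' tube'') (hdeg'' : ∀ P : Place K F'', P.deg = 1)
    (hdeg' : ∀ P : Place K F', P.deg = 1) : SmoothFibre T' tube'' where
  fib := X.fib
  sub := X.sub
  disj := X.disj
  exh := fun _ hP => X.exists_mem hdeg'' hdeg' hP

/-- **Route 2**: the fibre from one `CoverSheet` per point. -/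
noncomputable def SmoothFibre.ofCoverSheets [IsAlgClosed K] [FiniteDimensional F' F'']
    [Algebra.IsSeparable F' F''] (hB : ConstHyp A π O' res') (hvg : ValueGroupEq K O')
    (harch : ∀ a c : K, A.valuation a < 1 → c ≠ 0 → ∃ N : ℕ, A.valuation a ^ N ≤ A.valuation c)
    (fib : Finset β'') (Ft'' : β'' → Type*) [∀ x, Field (Ft'' x)] [∀ x, Algebra k (Ft'' x)]
    [∀ x, Algebra Ft' (Ft'' x)] [∀ x, IsScalarTower k Ft' (Ft'' x)]
    (O'' : β'' → ValuationSubring F'') (res'' : ∀ x, O'' x →+* Ft'' x)
    (Q'' : ∀ x, Place k (Ft'' x)) (θ : β'' → F'') (Ψ ψ ψc : β'' → F'[X]) (u : β'' → A)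
    (H : ∀ x ∈ fib, CoverSheet A π O' res' Q' (O'' x) (res'' x) (Q'' x) C.chart.R (θ x) (Ψ x)
      (ψ x) (ψc x) (u x))
    (htube : ∀ x ∈ fib, tube'' x = coverTube A T' (θ x) (u x))
    (hdisj : ∀ x ∈ fib, ∀ y ∈ fib, ∀ P, P ∈ tube'' x → P ∈ tube'' y → x = y)
    (hcard : fib.card = Module.finrank F' F'') (hdeg'' : ∀ P : Place K F'', P.deg = 1)
    (hdeg' : ∀ P : Place K F', P.deg = 1) : SmoothFibre T' tube'' :=
  SmoothFibre.ofSmoothSheets
    (smoothSheetsOfCoverSheets C hB hvg harch fib Ft'' O'' res'' Q'' θ Ψ ψ ψc u H htube hdisj hcard)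
    hdeg'' hdeg'

end Family

/-! ### the field `cover` -/

section Setup

variable [HasPrincipalDivisors K F''] [FundamentalIdentity K F' F'']
  {A : ValuationSubring K} {π : A →+* k} {ι₀ : Type*}
  {Ft₀ : ι₀ → Type*} [∀ v, Field (Ft₀ v)] [∀ v, Algebra k (Ft₀ v)] {ν₀ : Type*}
  (S₀ : SemistableSetup (F := F') A π ι₀ Ft₀ ν₀) {β'' : Type*}
  (tube'' : β'' → Set (Place K F''))

/-- **The field `cover` of `SDD.Input` / `BR3.MultiInput` for the cover**: a `SmoothFibre` over
every smooth point and `NodeSheets` over every node of the base. -/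
theorem cover_of_fibres (hdeg'' : ∀ P : Place K F'', P.deg = 1)
    (hdeg' : ∀ P : Place K F', P.deg = 1)
    (hs : ∀ v (Q' : Place k (Ft₀ v)),
      (∀ e, (⟨v, Q'⟩ : Σ v, Place k (Ft₀ v)) ≠ ⟨S₀.src e, S₀.s₁ e⟩) →
      (∀ e, (⟨v, Q'⟩ : Σ v, Place k (Ft₀ v)) ≠ ⟨S₀.tgt e, S₀.s₂ e⟩) →
      Nonempty (SmoothFibre {P | S₀.r P = ⟨v, Q'⟩} tube''))
    (hn : ∀ e, ∃ C' : AnnulusCore A {P | S₀.r P = ⟨S₀.src e, S₀.s₁ e⟩},
        Nonempty (NodeSheets A {P | S₀.r P = ⟨S₀.src e, S₀.s₁ e⟩} C' tube''))
    (P'' : Place K F'') : ∃ x, P'' ∈ tube'' x := by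
  obtain ⟨⟨v, Q'⟩, hx⟩ : ∃ x, S₀.r (P''.restrict F') = x := ⟨_, rfl⟩
  by_cases hsrc : ∃ e, (⟨v, Q'⟩ : Σ v, Place k (Ft₀ v)) = ⟨S₀.src e, S₀.s₁ e⟩
  · obtain ⟨e, he⟩ := hsrc
    obtain ⟨C', ⟨X⟩⟩ := hn e
    obtain ⟨x, -, hx'⟩ := X.exists_mem hdeg'' hdeg' (P'' := P'') (hx.trans he)
    exact ⟨x, hx'⟩
  · rw [not_exists] at hsrc
    have htgt : ∀ e, (⟨v, Q'⟩ : Σ v, Place k (Ft₀ v)) ≠ ⟨S₀.tgt e, S₀.s₂ e⟩ := by
      intro e he
      exact S₀.r_ne_tgt (P''.restrict F') e (hx.trans he)
    obtain ⟨X⟩ := hs v Q' hsrc htgt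
    obtain ⟨x, -, hx'⟩ := X.exh P'' hx
    exact ⟨x, hx'⟩

end Setup

end Fermat.Agent.BR3.CoverK.Fibre
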