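import Mathlib
import Fermat.Agent.BR3.CoverK.Defs

/-!
# Program C, node A6-K: a sheet is monotone in the coefficient ring

The ring `R'` enters `CoverSheet … R' θ Ψ ψ ψc u` only through the three membership fields
`coeff_mem`, `ψ_coeff_mem`, `ψc_coeff_mem`.  Hence a sheet whose polynomials have their coefficients
in a subring `R₁ ≤ R₂` is a sheet for `R₂` (`CoverSheet.mono`); in particular, to feed
`coverRegChart C H` it suffices to produce `H` for ANY subring of `C.chart.R`
(`CoverSheet.of_le_chart`).
-/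

set_option autoImplicit false

namespace Fermat.Agent.BR3.CoverK

open AlgebraicCurve Polynomial Fermat.Agent.Red Fermat.Agent.BR.Centre Fermat.Agent.BR.S0

variable {K k : Type*} [Field K] [Field k]
  {F' : Type*} [Field F'] [Algebra K F'] {Ft' : Type*} [Field Ft'] [Algebra k Ft']
  {F'' : Type*} [Field F''] [Algebra K F''] [Algebra F' F''] [IsScalarTower K F' F'']
  {Ft'' : Type*} [Field Ft''] [Algebra k Ft''] [Algebra Ft' Ft''] [IsScalarTower k Ft' Ft'']
  {A : ValuationSubring K} {π : A →+* k}
  {O' : ValuationSubring F'} {res' : O' →+* Ft'} {Q' : Place k Ft'} {T' : Set (Place K F')}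
  {O'' : ValuationSubring F''} {res'' : O'' →+* Ft''} {Q'' : Place k Ft''}
  {θ : F''} {Ψ ψ ψc : F'[X]} {u : A}

/-- A sheet is monotone in the coefficient ring. -/
theorem CoverSheet.mono {R₁ R₂ : Subring F'}
    (H : CoverSheet A π O' res' Q' O'' res'' Q'' R₁ θ Ψ ψ ψc u) (h : R₁ ≤ R₂) :
    CoverSheet A π O' res' Q' O'' res'' Q'' R₂ θ Ψ ψ ψc u where
  comap_eq := H.comap_eq
  res_map := H.res_map
  res_eq_zero_iff := H.res_eq_zero_iff
  ord_map := H.ord_map
  θ_mem := H.θ_mem
  monic := H.monic
  irreducible := H.irreducible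
  coeff_mem := fun n => h (H.coeff_mem n)
  root := H.root
  gen := H.gen
  value := H.value
  simple := H.simple
  ψ_monic := H.ψ_monic
  ψc_monic := H.ψc_monic
  ψ_coeff_mem := fun n => h (H.ψ_coeff_mem n)
  ψc_coeff_mem := fun n => h (H.ψc_coeff_mem n)
  factor := H.factor
  ψc_unit := H.ψc_unit
  indep := H.indep

/-- A sheet with coefficients in a subring of the chart ring is a sheet for the chart. -/
theorem CoverSheet.of_le_chart {R₁ : Subring F'} (C : RegChart A O' res' Q' T')
    (H : CoverSheet A π O' res' Q' O'' res'' Q'' R₁ θ Ψ ψ ψc u) (h : R₁ ≤ C.chart.R) :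
    CoverSheet A π O' res' Q' O'' res'' Q'' C.chart.R θ Ψ ψ ψc u :=
  H.mono h

/-- The sheet only depends on the residue class of `u`: the field `value` is the only one which
mentions `u`. -/
theorem CoverSheet.congr_u {R' : Subring F'} {u' : A}
    (H : CoverSheet A π O' res' Q' O'' res'' Q'' R' θ Ψ ψ ψc u) (h : π u = π u') :
    CoverSheet A π O' res' Q' O'' res'' Q'' R' θ Ψ ψ ψc u' where
  comap_eq := H.comap_eq
  res_map := H.res_map
  res_eq_zero_iff := H.res_eq_zero_iff
  ord_map := H.ord_map
  θ_mem := H.θ_mem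
  monic := H.monic
  irreducible := H.irreducible
  coeff_mem := H.coeff_mem
  root := H.root
  gen := H.gen
  value := by rw [← h]; exact H.value
  simple := H.simple
  ψ_monic := H.ψ_monic
  ψc_monic := H.ψc_monic
  ψ_coeff_mem := H.ψ_coeff_mem
  ψc_coeff_mem := H.ψc_coeff_mem
  factor := H.factor
  ψc_unit := H.ψc_unit
  indep := H.indep

end Fermat.Agent.BR3.CoverK
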