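import Mathlib
import Fermat.Agent.BR3.CoverK.Defs
import Fermat.Agent.BR3.GaussContractSub

/-!
# Program C, node (I7-CUSP)/(SC1–SC4): a cover sheet of residue degree one from a lift of the root

The fields `ψ_monic … indep` of `CoverK.CoverSheet` for a sheet with `f = e = 1`: if the residue
`θ̄` of the generator at the component upstairs is the image of the residue `c̄` of a function `c` of
the chart ring downstairs, then `ψ := X - C c`, `ψc := Ψ /ₘ (X - C c)` do the job:

* `Ψ - ψ ψc = C (Ψ(c))` and `Ψ(c) ≡ Ψ(θ) = 0` on the component upstairs (`factor`);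
* `Ψ'(θ) = ψc(θ) + (θ - c) ψc'(θ) ≡ ψc(θ)`, so `ψc_unit` is `simple`;
* `indep` is trivial in degree one.

`coverSheet_of_lift` : the remaining ("easy") fields + the lift `c` give the `CoverSheet`.
-/

set_option autoImplicit false
set_option linter.unusedVariables false
set_option linter.unusedSectionVars false

namespace Fermat.Agent.BR3.CoverK.OfLift

open AlgebraicCurve Polynomial Fermat.Agent.Red Fermat.Agent.BR.Centre Fermat.Agent.BR.S0
open Fermat.Agent.BR3.GaussContractSub

variable {K k : Type*} [Field K] [Field k]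
  {F' : Type*} [Field F'] [Algebra K F'] {Ft' : Type*} [Field Ft'] [Algebra k Ft']
  {F'' : Type*} [Field F''] [Algebra K F''] [Algebra F' F''] [IsScalarTower K F' F'']
  {Ft'' : Type*} [Field Ft''] [Algebra k Ft''] [Algebra Ft' Ft''] [IsScalarTower k Ft' Ft'']
  {A : ValuationSubring K} {π : A →+* k}
  {O' : ValuationSubring F'} {res' : O' →+* Ft'} {Q' : Place k Ft'}
  {O'' : ValuationSubring F''} {res'' : O'' →+* Ft''} {Q'' : Place k Ft''}
  {R' : Subring F'} {θ : F''} {Ψ : F'[X]} {u : A}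

/-- the value at an integral element of a polynomial with integral coefficients is integral -/
theorem aeval_mem_of_coeff_mem (hO : ∀ x : F', x ∈ O' → algebraMap F' F'' x ∈ O'')
    {x : F''} (hx : x ∈ O'') {p : F'[X]} (hp : ∀ n, p.coeff n ∈ O') : aeval x p ∈ O'' := by
  rw [aeval_eq_sum_range]
  refine O''.toSubring.sum_mem fun i _ => ?_
  rw [Algebra.smul_def]
  exact O''.mul_mem _ _ (hO _ (hp i)) (O''.toSubring.pow_mem hx i)

/-- congruent arguments give congruent values -/
theorem res_aeval_congr (hO : ∀ x : F', x ∈ O' → algebraMap F' F'' x ∈ O'')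
    {x y : F''} (hx : x ∈ O'') (hy : y ∈ O'') (hxy : res'' ⟨x, hx⟩ = res'' ⟨y, hy⟩)
    {p : F'[X]} (hp : ∀ n, p.coeff n ∈ O') :
    res'' ⟨aeval x p, aeval_mem_of_coeff_mem hO hx hp⟩ =
      res'' ⟨aeval y p, aeval_mem_of_coeff_mem hO hy hp⟩ := by
  have hsub : (↑(p.map (algebraMap F' F'')).coeffs : Set F'') ⊆ O''.toSubring := by
    intro c hc
    obtain ⟨n, -, rfl⟩ := (Polynomial.mem_coeffs_iff).mp hc
    rw [coeff_map]
    exact hO _ (hp n)
  obtain ⟨p'', hp''⟩ : ∃ p'' : O''.toSubring[X], p'' =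
      (p.map (algebraMap F' F'')).toSubring O''.toSubring hsub := ⟨_, rfl⟩
  have hmap : p''.map O''.toSubring.subtype = p.map (algebraMap F' F'') := by
    rw [hp'']
    exact Polynomial.map_toSubring _ _ hsub
  have key : ∀ (z : F'') (hz : z ∈ O''),
      (⟨aeval z p, aeval_mem_of_coeff_mem hO hz hp⟩ : O'') = p''.eval (⟨z, hz⟩ : O'') := by
    intro z hz
    apply Subtype.ext
    have h1 := Polynomial.eval₂_at_apply (p := p'') O''.toSubring.subtype (⟨z, hz⟩ : O'')
    rw [← eval_map, hmap, eval_map_algebraMap] at h1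
    exact h1
  rw [key x hx, key y hy]
  have h2 : ∀ z : O'', res'' (p''.eval z) = p''.eval₂ res'' (res'' z) := fun z =>
    (Polynomial.eval₂_at_apply (p := p'') res'' z).symm
  rw [h2, h2, hxy]

/-- non-units upstairs which come from downstairs are non-units downstairs -/
theorem mem_nonunits_of_map (comap_eq : O''.comap (algebraMap F' F'') = O') {x : F'}
    (hx : algebraMap F' F'' x ∈ O''.nonunits) : x ∈ O'.nonunits := by
  have hiff : ∀ y : F', algebraMap F' F'' y ∈ O'' ↔ y ∈ O' := by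
    intro y
    rw [← comap_eq]
    rfl
  rw [ValuationSubring.mem_nonunits_iff] at hx ⊢
  by_contra hcon
  rw [not_lt] at hcon
  have hx0 : x ≠ 0 := by
    rintro rfl
    rw [map_zero] at hcon
    exact absurd hcon (not_le.mpr zero_lt_one)
  have h2 : O'.valuation x ≠ 0 := (Valuation.ne_zero_iff _).mpr hx0
  have hinv : x⁻¹ ∈ O' := by
    rw [← O'.valuation_le_one_iff, map_inv₀]
    exact (inv_le_one₀ (zero_lt_iff.mpr h2)).mpr hcon
  have hinv' : (algebraMap F' F'' x)⁻¹ ∈ O'' := by
    rw [← map_inv₀, hiff]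
    exact hinv
  have h3 := (O''.valuation_le_one_iff _).mpr hinv'
  rw [map_inv₀] at h3
  have h4 : O''.valuation (algebraMap F' F'' x) ≠ 0 :=
    (Valuation.ne_zero_iff _).mpr ((_root_.map_ne_zero _).mpr hx0)
  have h5 := (inv_le_one₀ (zero_lt_iff.mpr h4)).mp h3
  exact absurd hx (not_lt.mpr h5)

/-- **A cover sheet of residue degree one from a lift of the root.** -/
theorem coverSheet_of_lift
    (comap_eq : O''.comap (algebraMap F' F'') = O')
    (res_map : ∀ (y : F') (hy : y ∈ O') (hy' : algebraMap F' F'' y ∈ O''),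
      res'' ⟨algebraMap F' F'' y, hy'⟩ = algebraMap Ft' Ft'' (res' ⟨y, hy⟩))
    (res_eq_zero_iff : ∀ x : O'', res'' x = 0 ↔ (x : F'') ∈ O''.nonunits)
    (ord_map : ∀ f : Ft', Q''.ord (algebraMap Ft' Ft'' f) = Q'.ord f)
    (θ_mem : θ ∈ O'') (monic : Ψ.Monic) (irreducible : Irreducible Ψ)
    (coeff_mem : ∀ n, Ψ.coeff n ∈ R') (root : aeval θ Ψ = 0)
    (gen : ∀ y : F'', ∃ p : F'[X], aeval θ p = y)
    (value : IsValueAt Q'' (res'' ⟨θ, θ_mem⟩) (π u))
    (simple : ∀ h : aeval θ (derivative Ψ) ∈ O'',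
      ¬ Q''.adicValuation (res'' ⟨aeval θ (derivative Ψ), h⟩) < 1)
    (hR' : ∀ y ∈ R', y ∈ O') {c : F'} (hc : c ∈ R')
    (hcθ : res'' ⟨θ, θ_mem⟩ = algebraMap Ft' Ft'' (res' ⟨c, hR' c hc⟩)) :
    CoverSheet A π O' res' Q' O'' res'' Q'' R' θ Ψ (X - C c) (Ψ /ₘ (X - C c)) u := by
  have hiff : ∀ y : F', algebraMap F' F'' y ∈ O'' ↔ y ∈ O' := by
    intro y
    rw [← comap_eq]
    rfl
  have hO : ∀ x : F', x ∈ O' → algebraMap F' F'' x ∈ O'' := fun x hx => (hiff x).mpr hx
  have hcO : algebraMap F' F'' c ∈ O'' := hO c (hR' c hc)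
  have hcθ' : res'' ⟨θ, θ_mem⟩ = res'' ⟨algebraMap F' F'' c, hcO⟩ := by
    rw [hcθ, res_map c (hR' c hc) hcO]
  -- the coefficients of `ψ` and `ψc`
  have hψsub : IsSubPoly R' (X - C c : F'[X]) := by
    intro n
    rw [coeff_sub, coeff_X, coeff_C]
    refine R'.sub_mem ?_ ?_
    · split_ifs
      · exact R'.one_mem
      · exact R'.zero_mem
    · split_ifs
      · exact hc
      · exact R'.zero_mem
  have hψcsub : IsSubPoly R' (Ψ /ₘ (X - C c)) :=
    (IsSubPoly.divByMonic_modByMonic (S := R') coeff_mem hψsub (monic_X_sub_C c)).1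
  have hdeg : Ψ.degree ≠ 0 := by
    intro h0
    exact irreducible.not_isUnit (Polynomial.isUnit_iff_degree_eq_zero.mpr h0)
  -- `Ψ = ψ ψc + C (Ψ(c))`
  have hdecomp : Ψ - (X - C c) * (Ψ /ₘ (X - C c)) = C (Ψ.eval c) := by
    have h1 := Polynomial.modByMonic_add_div Ψ (X - C c)
    rw [Polynomial.modByMonic_X_sub_C_eq_C_eval] at h1
    rw [sub_eq_iff_eq_add]
    exact h1.symm
  -- `Ψ(c)` is a non-unit
  have hΨO : ∀ n, Ψ.coeff n ∈ O' := fun n => hR' _ (coeff_mem n)
  have hevalnon : Ψ.eval c ∈ O'.nonunits := by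
    apply mem_nonunits_of_map comap_eq
    have h1 := res_aeval_congr (res'' := res'') hO θ_mem hcO hcθ' hΨO
    have h2 : (⟨aeval θ Ψ, aeval_mem_of_coeff_mem hO θ_mem hΨO⟩ : O'') = 0 :=
      Subtype.ext root
    rw [h2, map_zero] at h1
    have h3 := (res_eq_zero_iff _).mp h1.symm
    have h4 : aeval (algebraMap F' F'' c) Ψ = algebraMap F' F'' (Ψ.eval c) :=
      aeval_algebraMap_apply_eq_algebraMap_eval _ _
    rw [← h4]
    exact h3
  refine
    { comap_eq := comap_eq
      res_map := res_map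
      res_eq_zero_iff := res_eq_zero_iff
      ord_map := ord_map
      θ_mem := θ_mem
      monic := monic
      irreducible := irreducible
      coeff_mem := coeff_mem
      root := root
      gen := gen
      value := value
      simple := simple
      ψ_monic := monic_X_sub_C c
      ψc_monic := ?_
      ψ_coeff_mem := hψsub
      ψc_coeff_mem := hψcsub
      factor := ?_
      ψc_unit := ?_
      indep := ?_ }
  · -- `ψc` is monic
    have h1 := Polynomial.leadingCoeff_divByMonic_X_sub_C Ψ hdeg c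
    rw [Polynomial.Monic, h1]
    exact monic
  · -- `factor`
    intro n
    rw [hdecomp, coeff_C]
    split_ifs
    · exact hevalnon
    · rw [ValuationSubring.mem_nonunits_iff, map_zero]
      exact zero_lt_one
  · -- `ψc_unit`
    intro h hlt
    have hψcO : ∀ n, (Ψ /ₘ (X - C c)).coeff n ∈ O' := fun n => hR' _ (hψcsub n)
    have hder : derivative Ψ = Ψ /ₘ (X - C c) + (X - C c) * derivative (Ψ /ₘ (X - C c)) := by
      have h1 : Ψ = (X - C c) * (Ψ /ₘ (X - C c)) + C (Ψ.eval c) := by
        rw [← hdecomp]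
        ring
      conv_lhs => rw [h1]
      rw [derivative_add, derivative_C, add_zero, derivative_mul, derivative_sub, derivative_X,
        derivative_C, sub_zero, one_mul]
    have hdO : ∀ n, (derivative (Ψ /ₘ (X - C c))).coeff n ∈ O' := by
      intro n
      rw [coeff_derivative]
      refine O'.mul_mem _ _ (hψcO _) ?_
      have : ((n : F') + 1) = ((n + 1 : ℕ) : F') := by push_cast; rfl
      rw [this]
      exact natCast_mem O' _
    have hd'' : aeval θ (derivative (Ψ /ₘ (X - C c))) ∈ O'' :=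
      aeval_mem_of_coeff_mem hO θ_mem hdO
    have hval : aeval θ (derivative Ψ) =
        aeval θ (Ψ /ₘ (X - C c)) +
          (θ - algebraMap F' F'' c) * aeval θ (derivative (Ψ /ₘ (X - C c))) := by
      rw [hder, map_add, map_mul, map_sub, aeval_X, aeval_C]
    have hsubmem : θ - algebraMap F' F'' c ∈ O'' := O''.toSubring.sub_mem θ_mem hcO
    have hmem : aeval θ (derivative Ψ) ∈ O'' := by
      rw [hval]
      exact O''.add_mem _ _ h (O''.mul_mem _ _ hsubmem hd'')
    apply simple hmem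
    have e : (⟨aeval θ (derivative Ψ), hmem⟩ : O'') =
        ⟨aeval θ (Ψ /ₘ (X - C c)), h⟩ +
          (⟨θ, θ_mem⟩ - ⟨algebraMap F' F'' c, hcO⟩) *
            ⟨aeval θ (derivative (Ψ /ₘ (X - C c))), hd''⟩ := Subtype.ext hval
    rw [e, map_add, map_mul, map_sub, hcθ', sub_self, zero_mul, add_zero]
    exact hlt
  · -- `indep`
    have hd : (X - C c : F'[X]).natDegree = 1 := natDegree_X_sub_C c
    rw [hd]
    intro cc hsum
    rw [Fin.sum_univ_one, Fin.val_zero, pow_zero, mul_one] at hsum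
    have h0 : cc 0 = 0 := (_root_.map_eq_zero _).mp hsum
    funext i
    rw [Subsingleton.elim i 0, h0]
    rfl

end Fermat.Agent.BR3.CoverK.OfLift
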