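/-
Program C (S36), node (A6-K DICT) (helper24): the place dictionary of a finite cover over the tube
of a smooth point of the base, for the fields `tube` / `cover` / `disjoint` of `SDD.Input` at the
smooth points (W4 of the I7 work breakdown).

`C : CoverK.RegChart A O' res' Q' T'` a regular smooth chart downstairs, `θ : F''` a root of a
MONIC polynomial `Ψ` with coefficients in the local ring `C.chart.R` (no sheet is fixed, `Ψ` need
not be irreducible and `θ` need not generate).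

* `redPoly C hB hΨ : k[X]` : the polynomial `Ψ̄_{Q'}` of the values at the point `Q'` of the
  reductions of the coefficients of `Ψ`; `valPoly C hP' hΨ : A[X]` : the polynomial `Ψ_{P'}` of the
  values of the coefficients at a place `P'` of the tube; `valPoly_map`.
* **(D1)** `exists_isValueAt_root` : at every place `P''` (of degree one) over the tube, `θ` has a
  value `c ∈ A`, `c` is a root of `Ψ_{P'}` and `π c` is a root of `Ψ̄_{Q'}`.
* **(D2)** `exists_mem_coverTube_of_roots`, `setOf_restrict_mem_eq_iUnion` : the places over the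
  tube are the union of the `coverTube A T' θ u`, `π u` running through the roots of `Ψ̄_{Q'}`;
  `not_mem_coverTube_of_ne` : `coverTube A T' θ u` and `coverTube A T' θ u'` are disjoint for
  `π u ≠ π u'`.
* **(D3)** `coverTube_congr`, `mem_coverTube_iff_pi` : `coverTube A T' θ u` depends on `u` only
  through `π u`.
* **(D4)** `exists_isValueAt_of_mem`, `tube_subset_coverTube` : conversely the tube of ANY regular
  chart upstairs (however it was built) at a point where `θ̄` takes the value `π u` lies in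
  `coverTube A T' θ u`.  Consequently, if `θ̄` takes the same value `ū` at two points over `Q'`,
  `coverTube A T' θ u` contains both residue discs: it is the tube of ONE point only if `ū` is
  taken once (`union_subset_coverTube`).
* **(D5)** `not_mem_of_valQ_ne` : the tubes of two regular charts upstairs are disjoint as soon as
  some function regular on both takes different values at the two points (disjointness of sheets
  built from different generators).
* `isRoot_redPoly`, `derivative_redPoly_ne_zero` : the point value `π u` of a sheet (`CoverSheet`)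
  is a simple root of `Ψ̄_{Q'}`; `existsUnique_mem_coverTube` : `deg Ψ` sheets with distinct
  residues partition the places over the tube.
* exchange of generators: `mem_of_isIntegral`, `tube_subset_coverTube_of_isIntegral`,
  `disjoint_of_isIntegral` : (D4), (D5) for a function integral over the local ring downstairs
  (membership in the local rings upstairs is automatic by `normal`).
-/
import Mathlib
import Fermat.Agent.BR3.CoverK.Factor
import Fermat.Agent.BR3.CoverDiv

set_option autoImplicit false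
set_option linter.unusedSectionVars false

namespace Fermat.Agent.BR3.CoverK.Dict

open AlgebraicCurve Polynomial Fermat.Agent.Red Fermat.Agent.X0 Fermat.Agent.BR.Centre
  Fermat.Agent.BR.S0 Fermat.Agent.BR3.CoverK Fermat.Agent.BR3.CoverK.Factor Fermat.Agent.BR3.CoverDiv
  Fermat.Agent.BR3.CoverPlaces

variable {K k : Type*} [Field K] [Field k]

/-! ### constants -/

section Const

variable {A : ValuationSubring K} {π : A →+* k}

/-- An element of `A` killed by the residue map has absolute value `< 1`. -/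
theorem valuation_lt_one_of_pi_eq_zero {a : A} (ha : π a = 0) : A.valuation (a : K) < 1 := by
  by_contra hlt
  have h1 : A.valuation (a : K) = 1 :=
    le_antisymm ((A.valuation_le_one_iff _).mpr a.2) (not_lt.mp hlt)
  have hu : IsUnit a := (A.valuation_eq_one_iff a).mpr h1
  have h2 := hu.map π
  rw [ha] at h2
  exact not_isUnit_zero h2

/-- Two elements of `A` with the same residue are congruent. -/
theorem valuation_sub_lt_one_of_pi_eq {u u' : A} (h : π u = π u') :
    A.valuation ((u : K) - (u' : K)) < 1 := by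
  have h1 : π (u - u') = 0 := by rw [map_sub, h, sub_self]
  exact valuation_lt_one_of_pi_eq_zero h1

/-- Congruent elements of `A` have the same residue. -/
theorem pi_eq_of_valuation_sub_lt_one (hπ0 : ∀ a : A, A.valuation (a : K) < 1 → π a = 0)
    {u u' : A} (h : A.valuation ((u : K) - (u' : K)) < 1) : π u = π u' := by
  have h1 : π (u - u') = 0 := hπ0 (u - u') h
  rwa [map_sub, sub_eq_zero] at h1

end Const

variable {F' : Type*} [Field F'] [Algebra K F']
  {F'' : Type*} [Field F''] [Algebra K F''] [Algebra F' F''] [IsScalarTower K F' F'']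
  [Algebra.IsIntegral F' F'']
  {A : ValuationSubring K} {π : A →+* k} {T' : Set (Place K F')}

/-! ### (D3), (D2b): `coverTube` and the residue of `u` -/

section Tube

/-- **(D3)** The sheet `θ ≡ u`, in terms of the residue of the value of `θ`. -/
theorem mem_coverTube_iff_pi (hπ0 : ∀ a : A, A.valuation (a : K) < 1 → π a = 0) {θ : F''} {u : A}
    {P'' : Place K F''} :
    P'' ∈ coverTube A T' θ u ↔
      P''.restrict F' ∈ T' ∧ ∃ c : A, IsValueAt P'' θ (c : K) ∧ π c = π u := by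
  rw [mem_coverTube]
  refine and_congr_right fun _ => ⟨?_, ?_⟩
  · rintro ⟨c, hc, hcu⟩
    obtain ⟨hcA, hπc⟩ := map_eq_of_valuation_sub_lt hπ0 hcu
    exact ⟨⟨c, hcA⟩, hc, hπc⟩
  · rintro ⟨c, hc, hcu⟩
    exact ⟨c, hc, valuation_sub_lt_one_of_pi_eq hcu⟩

/-- **(D3)** The sheet `θ ≡ u` depends on `u` only through its residue. -/
theorem coverTube_congr {θ : F''} {u u' : A} (h : π u = π u') :
    coverTube A T' θ u = coverTube A T' θ u' := by
  have key : ∀ {v v' : A}, π v = π v' → ∀ P'', P'' ∈ coverTube A T' θ v →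
      P'' ∈ coverTube A T' θ v' := by
    intro v v' hv P'' hP
    obtain ⟨h1, c, hc, hcv⟩ := hP
    refine ⟨h1, c, hc, ?_⟩
    have h2 := valuation_sub_lt_one_of_pi_eq hv
    have e : c - (v' : K) = (c - (v : K)) + ((v : K) - (v' : K)) := by ring
    rw [e]
    exact lt_of_le_of_lt (Valuation.map_add _ _ _) (max_lt hcv h2)
  exact Set.ext fun P'' => ⟨key h P'', key h.symm P''⟩

/-- **(D2b)** The sheets `θ ≡ u` and `θ ≡ u'` are disjoint for `π u ≠ π u'`. -/
theorem not_mem_coverTube_of_ne (hπ0 : ∀ a : A, A.valuation (a : K) < 1 → π a = 0) {θ : F''}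
    {u u' : A} (hne : π u ≠ π u') {P'' : Place K F''} (hP : P'' ∈ coverTube A T' θ u) :
    P'' ∉ coverTube A T' θ u' := by
  intro hP'
  obtain ⟨-, c, hc, hcu⟩ := hP
  obtain ⟨-, c', hc', hcu'⟩ := hP'
  rw [hc'.unique hc] at hcu'
  apply hne
  apply pi_eq_of_valuation_sub_lt_one hπ0
  have e : (u : K) - (u' : K) = (c - (u' : K)) - (c - (u : K)) := by ring
  rw [e]
  exact lt_of_le_of_lt (Valuation.map_sub _ _ _) (max_lt hcu' hcu)

theorem coverTube_disjoint (hπ0 : ∀ a : A, A.valuation (a : K) < 1 → π a = 0) {θ : F''}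
    {u u' : A} (hne : π u ≠ π u') :
    Disjoint (coverTube A T' θ u) (coverTube A T' θ u') :=
  Set.disjoint_left.mpr fun _ hP => not_mem_coverTube_of_ne hπ0 hne hP

/-- The sheets lie over the tube. -/
theorem restrict_mem_of_mem_coverTube {θ : F''} {u : A} {P'' : Place K F''}
    (hP : P'' ∈ coverTube A T' θ u) : P''.restrict F' ∈ T' :=
  hP.1

end Tube

/-! ### the polynomials `Ψ_{P'}` and `Ψ̄_{Q'}` -/

section Poly

variable {Ft' : Type*} [Field Ft'] [Algebra k Ft'] {O' : ValuationSubring F'} {res' : O' →+* Ft'}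
  {Q' : Place k Ft'} (C : RegChart A O' res' Q' T')

theorem coeffs_subset {R : Subring F'} {Ψ : F'[X]} (hΨ : ∀ n, Ψ.coeff n ∈ R) :
    (↑Ψ.coeffs : Set F') ⊆ R := by
  intro c hc
  obtain ⟨n, -, rfl⟩ := Polynomial.mem_coeffs_iff.mp hc
  exact hΨ n

/-- The polynomial `Ψ` over the local ring of the chart. -/
noncomputable def liftPoly {Ψ : F'[X]} (hΨ : ∀ n, Ψ.coeff n ∈ C.chart.R) : C.chart.R[X] :=
  Ψ.toSubring C.chart.R (coeffs_subset hΨ)

theorem coeff_liftPoly {Ψ : F'[X]} (hΨ : ∀ n, Ψ.coeff n ∈ C.chart.R) (n : ℕ) :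
    (liftPoly C hΨ).coeff n = ⟨Ψ.coeff n, hΨ n⟩ :=
  Subtype.ext (Polynomial.coeff_toSubring Ψ C.chart.R (coeffs_subset hΨ))

theorem liftPoly_map {Ψ : F'[X]} (hΨ : ∀ n, Ψ.coeff n ∈ C.chart.R) :
    (liftPoly C hΨ).map C.chart.R.subtype = Ψ :=
  Polynomial.map_toSubring Ψ C.chart.R (coeffs_subset hΨ)

theorem liftPoly_monic {Ψ : F'[X]} (hΨ : ∀ n, Ψ.coeff n ∈ C.chart.R) (hmonic : Ψ.Monic) :
    (liftPoly C hΨ).Monic :=
  (Polynomial.monic_toSubring Ψ C.chart.R (coeffs_subset hΨ)).mpr hmonic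

/-- **`Ψ̄_{Q'}`**: the polynomial over `k` of the values at the point `Q'` of the reductions of the
coefficients of `Ψ`. -/
noncomputable def redPoly (hB : ConstHyp A π O' res') {Ψ : F'[X]}
    (hΨ : ∀ n, Ψ.coeff n ∈ C.chart.R) : k[X] :=
  (liftPoly C hΨ).map (valQ C hB)

/-- **`Ψ_{P'}`**: the polynomial over `A` of the values of the coefficients of `Ψ` at a place of
the tube. -/
noncomputable def valPoly {P' : Place K F'} (hP' : P' ∈ T') {Ψ : F'[X]}
    (hΨ : ∀ n, Ψ.coeff n ∈ C.chart.R) : A[X] :=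
  (liftPoly C hΨ).map (ev C hP')

theorem coeff_redPoly (hB : ConstHyp A π O' res') {Ψ : F'[X]}
    (hΨ : ∀ n, Ψ.coeff n ∈ C.chart.R) (n : ℕ) :
    (redPoly C hB hΨ).coeff n = valQ C hB ⟨Ψ.coeff n, hΨ n⟩ := by
  rw [redPoly, coeff_map, coeff_liftPoly]

theorem coeff_valPoly {P' : Place K F'} (hP' : P' ∈ T') {Ψ : F'[X]}
    (hΨ : ∀ n, Ψ.coeff n ∈ C.chart.R) (n : ℕ) :
    (valPoly C hP' hΨ).coeff n = ev C hP' ⟨Ψ.coeff n, hΨ n⟩ := by
  rw [valPoly, coeff_map, coeff_liftPoly]

theorem coe_coeff_valPoly {P' : Place K F'} (hP' : P' ∈ T') {Ψ : F'[X]}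
    (hΨ : ∀ n, Ψ.coeff n ∈ C.chart.R) (n : ℕ) :
    (((valPoly C hP' hΨ).coeff n : A) : K) = evalAt P' (Ψ.coeff n) := by
  rw [coeff_valPoly]
  rfl

theorem redPoly_monic (hB : ConstHyp A π O' res') {Ψ : F'[X]}
    (hΨ : ∀ n, Ψ.coeff n ∈ C.chart.R) (hmonic : Ψ.Monic) : (redPoly C hB hΨ).Monic :=
  (liftPoly_monic C hΨ hmonic).map _

theorem valPoly_monic {P' : Place K F'} (hP' : P' ∈ T') {Ψ : F'[X]}
    (hΨ : ∀ n, Ψ.coeff n ∈ C.chart.R) (hmonic : Ψ.Monic) : (valPoly C hP' hΨ).Monic :=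
  (liftPoly_monic C hΨ hmonic).map _

theorem natDegree_redPoly (hB : ConstHyp A π O' res') {Ψ : F'[X]}
    (hΨ : ∀ n, Ψ.coeff n ∈ C.chart.R) (hmonic : Ψ.Monic) :
    (redPoly C hB hΨ).natDegree = Ψ.natDegree := by
  rw [redPoly, (liftPoly_monic C hΨ hmonic).natDegree_map]
  conv_rhs => rw [← liftPoly_map C hΨ]
  exact ((liftPoly_monic C hΨ hmonic).natDegree_map _).symm

/-- The reduction of `Ψ_{P'}` is `Ψ̄_{Q'}`, for every place `P'` of the tube. -/
theorem valPoly_map (hB : ConstHyp A π O' res') {P' : Place K F'} (hP' : P' ∈ T') {Ψ : F'[X]}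
    (hΨ : ∀ n, Ψ.coeff n ∈ C.chart.R) : (valPoly C hP' hΨ).map π = redPoly C hB hΨ := by
  rw [valPoly, redPoly, Polynomial.map_map]
  congr 1
  exact RingHom.ext fun y => pi_ev C hB hP' y

end Poly

/-! ### (D1): the value of `θ` at a place over the tube -/

section Value

variable {Ft' : Type*} [Field Ft'] [Algebra k Ft'] {O' : ValuationSubring F'} {res' : O' →+* Ft'}
  {Q' : Place k Ft'} (C : RegChart A O' res' Q' T')

/-- `θ` is integral over the image of the local ring. -/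
theorem isIntegral_map {θ : F''} {Ψ : F'[X]} (hmonic : Ψ.Monic)
    (hΨ : ∀ n, Ψ.coeff n ∈ C.chart.R) (hroot : aeval θ Ψ = 0) :
    IsIntegral (C.chart.R.map (algebraMap F' F'')) θ := by
  set f : C.chart.R →+* C.chart.R.map (algebraMap F' F'') :=
    ((algebraMap F' F'').comp C.chart.R.subtype).codRestrict (C.chart.R.map (algebraMap F' F''))
      (fun y => ⟨(y : F'), y.2, rfl⟩) with hf
  refine ⟨(liftPoly C hΨ).map f, (liftPoly_monic C hΨ hmonic).map f, ?_⟩
  rw [eval₂_map]
  have hcomp : (algebraMap (C.chart.R.map (algebraMap F' F'')) F'').comp f =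
      (algebraMap F' F'').comp C.chart.R.subtype := by
    ext y
    rfl
  rw [hcomp, ← eval₂_map, liftPoly_map]
  exact hroot

/-- **(D1)** At every place `P''` of degree one over the tube, `θ` has a value `c ∈ A`, `c` is a
root of `Ψ_{P'}` and `π c` is a root of `Ψ̄_{Q'}`. -/
theorem exists_isValueAt_root (hB : ConstHyp A π O' res') {θ : F''} {Ψ : F'[X]}
    (hmonic : Ψ.Monic) (hΨ : ∀ n, Ψ.coeff n ∈ C.chart.R) (hroot : aeval θ Ψ = 0)
    {P'' : Place K F''} (hdeg : P''.deg = 1) (hP : P''.restrict F' ∈ T') :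
    ∃ c : A, IsValueAt P'' θ (c : K) ∧ (valPoly C hP hΨ).IsRoot c ∧
      (redPoly C hB hΨ).IsRoot (π c) := by
  have hI : IntegralAt A C.chart.R (P''.restrict F') := integralAt C hP
  have hI'' : IntegralAt A (C.chart.R.map (algebraMap F' F'')) P'' :=
    (integralAt_restrict_iff A C.chart.R P'').mp hI
  obtain ⟨c, hcA, hc⟩ := hI''.of_isIntegral hdeg (isIntegral_map C hmonic hΨ hroot)
  -- the value of `Ψ(θ)` at `P''`
  have hab : ∀ n, IsValueAt P'' (algebraMap F' F'' (Ψ.coeff n))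
      (((valPoly C hP hΨ).map (algebraMap A K)).coeff n) := by
    intro n
    rw [coeff_map]
    have h1 : (algebraMap A K) ((valPoly C hP hΨ).coeff n) = evalAt (P''.restrict F') (Ψ.coeff n) :=
      coe_coeff_valPoly C hP hΨ n
    rw [h1]
    exact (isValueAt_restrict_iff P'' _ _).mp (hI.isValueAt_evalAt (hΨ n))
  have h2 := isValueAt_aeval hc Ψ _ hab
  rw [hroot] at h2
  have h3 : ((valPoly C hP hΨ).map (algebraMap A K)).eval c = 0 :=
    h2.unique (isValueAt_zero P'')
  have h4 : (valPoly C hP hΨ).eval (⟨c, hcA⟩ : A) = 0 := by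
    apply Subtype.ext
    rw [ZeroMemClass.coe_zero, ← h3, eval_map]
    exact (eval₂_at_apply (algebraMap A K) (⟨c, hcA⟩ : A)).symm
  refine ⟨⟨c, hcA⟩, hc, h4, ?_⟩
  rw [← valPoly_map C hB hP hΨ, IsRoot.def, eval_map, eval₂_at_apply, h4, map_zero]

/-- **(D2a)** Every place over the tube lies on a sheet `θ ≡ u`, `π u` a root of `Ψ̄_{Q'}`. -/
theorem exists_mem_coverTube (hB : ConstHyp A π O' res') {θ : F''} {Ψ : F'[X]}
    (hmonic : Ψ.Monic) (hΨ : ∀ n, Ψ.coeff n ∈ C.chart.R) (hroot : aeval θ Ψ = 0)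
    {P'' : Place K F''} (hdeg : P''.deg = 1) (hP : P''.restrict F' ∈ T') :
    ∃ u : A, (redPoly C hB hΨ).IsRoot (π u) ∧ P'' ∈ coverTube A T' θ u := by
  obtain ⟨c, hc, -, hcroot⟩ := exists_isValueAt_root C hB hmonic hΨ hroot hdeg hP
  refine ⟨c, hcroot, hP, c, hc, ?_⟩
  rw [sub_self, map_zero]
  exact zero_lt_one

/-- **(D2a)** Every place over the tube lies on one of the sheets `θ ≡ u i`, if the `π (u i)`
exhaust the roots of `Ψ̄_{Q'}`. -/
theorem exists_mem_coverTube_of_roots (hB : ConstHyp A π O' res') {θ : F''} {Ψ : F'[X]}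
    (hmonic : Ψ.Monic) (hΨ : ∀ n, Ψ.coeff n ∈ C.chart.R) (hroot : aeval θ Ψ = 0)
    {ι : Sort*} (u : ι → A) (hu : ∀ ū : k, (redPoly C hB hΨ).IsRoot ū → ∃ i, π (u i) = ū)
    {P'' : Place K F''} (hdeg : P''.deg = 1) (hP : P''.restrict F' ∈ T') :
    ∃ i, P'' ∈ coverTube A T' θ (u i) := by
  obtain ⟨v, hv, hPv⟩ := exists_mem_coverTube C hB hmonic hΨ hroot hdeg hP
  obtain ⟨i, hi⟩ := hu _ hv
  exact ⟨i, by rwa [coverTube_congr hi]⟩

/-- **(D2)** The places over the tube are the union of the sheets `θ ≡ u i`. -/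
theorem setOf_restrict_mem_eq_iUnion (hB : ConstHyp A π O' res') {θ : F''} {Ψ : F'[X]}
    (hmonic : Ψ.Monic) (hΨ : ∀ n, Ψ.coeff n ∈ C.chart.R) (hroot : aeval θ Ψ = 0)
    {ι : Sort*} (u : ι → A) (hu : ∀ ū : k, (redPoly C hB hΨ).IsRoot ū → ∃ i, π (u i) = ū)
    (hdeg : ∀ P'' : Place K F'', P''.deg = 1) :
    {P'' : Place K F'' | P''.restrict F' ∈ T'} = ⋃ i, coverTube A T' θ (u i) := by
  ext P''
  rw [Set.mem_iUnion]
  show P''.restrict F' ∈ T' ↔ _
  constructor
  · intro hP
    exact exists_mem_coverTube_of_roots C hB hmonic hΨ hroot u hu (hdeg P'') hP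
  · rintro ⟨i, hi⟩
    exact hi.1

end Value

/-! ### counting the roots -/

section Count

/-- Distinct roots in number at least the degree exhaust the roots. -/
theorem exists_eq_of_isRoot_of_card {p : k[X]} (hp : p ≠ 0) {ι : Type*} [Fintype ι] (v : ι → k)
    (hinj : Function.Injective v) (hroot : ∀ i, p.IsRoot (v i))
    (hcard : p.natDegree ≤ Fintype.card ι) {x : k} (hx : p.IsRoot x) : ∃ i, v i = x := by
  classical
  have hsub : Finset.univ.image v ⊆ p.roots.toFinset := by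
    intro y hy
    obtain ⟨i, -, rfl⟩ := Finset.mem_image.mp hy
    exact Multiset.mem_toFinset.mpr ((mem_roots hp).mpr (hroot i))
  have hle : p.roots.toFinset.card ≤ (Finset.univ.image v).card := by
    rw [Finset.card_image_of_injective _ hinj, Finset.card_univ]
    exact (Multiset.toFinset_card_le _).trans ((card_roots' p).trans hcard)
  have heq := Finset.eq_of_subset_of_card_le hsub hle
  have hxm : x ∈ Finset.univ.image v := by
    rw [heq]
    exact Multiset.mem_toFinset.mpr ((mem_roots hp).mpr hx)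
  obtain ⟨i, -, hi⟩ := Finset.mem_image.mp hxm
  exact ⟨i, hi⟩

variable {Ft' : Type*} [Field Ft'] [Algebra k Ft'] {O' : ValuationSubring F'} {res' : O' →+* Ft'}
  {Q' : Place k Ft'} (C : RegChart A O' res' Q' T')

/-- **The partition over the tube of a point over which the cover splits**: if `n = deg Ψ` sheets
`θ ≡ u i` with pairwise distinct residues `π (u i)`, roots of `Ψ̄_{Q'}`, are given, every place over
the tube lies on exactly one of them. -/
theorem existsUnique_mem_coverTube (hB : ConstHyp A π O' res') {θ : F''} {Ψ : F'[X]}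
    (hmonic : Ψ.Monic) (hΨ : ∀ n, Ψ.coeff n ∈ C.chart.R) (hroot : aeval θ Ψ = 0)
    {ι : Type*} [Fintype ι] (u : ι → A) (hinj : Function.Injective fun i => π (u i))
    (hu : ∀ i, (redPoly C hB hΨ).IsRoot (π (u i))) (hcard : Ψ.natDegree ≤ Fintype.card ι)
    {P'' : Place K F''} (hdeg : P''.deg = 1) (hP : P''.restrict F' ∈ T') :
    ∃! i, P'' ∈ coverTube A T' θ (u i) := by
  have hne : redPoly C hB hΨ ≠ 0 := (redPoly_monic C hB hΨ hmonic).ne_zero
  have hcard' : (redPoly C hB hΨ).natDegree ≤ Fintype.card ι := by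
    rwa [natDegree_redPoly C hB hΨ hmonic]
  obtain ⟨i, hi⟩ := exists_mem_coverTube_of_roots C hB hmonic hΨ hroot u
    (fun ū hū => exists_eq_of_isRoot_of_card hne (fun i => π (u i)) hinj hu hcard' hū) hdeg hP
  refine ⟨i, hi, fun j hj => ?_⟩
  by_contra hji
  exact not_mem_coverTube_of_ne hB.pi_zero (fun h => hji (hinj h)) hj hi

end Count

/-! ### the root of a sheet -/

section Sheet

variable {Ft' : Type*} [Field Ft'] [Algebra k Ft'] {O' : ValuationSubring F'} {res' : O' →+* Ft'}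
  {Q' : Place k Ft'} (C : RegChart A O' res' Q' T')
  {Ft'' : Type*} [Field Ft''] [Algebra k Ft''] [Algebra Ft' Ft''] [IsScalarTower k Ft' Ft'']
  {O'' : ValuationSubring F''} {res'' : O'' →+* Ft''} {Q'' : Place k Ft''}
  {θ : F''} {Ψ ψ ψc : F'[X]} {u : A}

/-- The value at the point of the sheet of a polynomial in `θ` with coefficients in the local ring
downstairs. -/
theorem ptValue_aeval_map (H : CoverSheet A π O' res' Q' O'' res'' Q'' C.chart.R θ Ψ ψ ψc u)
    (hB : ConstHyp A π O' res') (p : C.chart.R[X]) :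
    PtValue O'' res'' Q'' (aeval θ (p.map C.chart.R.subtype)) ((p.map (valQ C hB)).eval (π u)) := by
  have hO : ∀ y ∈ O', algebraMap F' F'' y ∈ O'' := by
    intro y hy
    have h1 : y ∈ O''.comap (algebraMap F' F'') := by
      rw [H.comap_eq]
      exact hy
    exact h1
  have hθQ : PtValue O'' res'' Q'' θ (π u) := ⟨H.θ_mem, H.value⟩
  refine ptValue_aeval hθQ _ _ fun n => ?_
  rw [coeff_map, coeff_map]
  have h1 : PtValue O' res' Q' ((p.coeff n : C.chart.R) : F') (valQ C hB (p.coeff n)) :=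
    ⟨C.chart.le _ (p.coeff n).2, isValueAt_valQ C hB (p.coeff n)⟩
  exact h1.map hO H.res_map H.ord_map

/-- The point value of a sheet is a root of `Ψ̄_{Q'}`. -/
theorem isRoot_redPoly (H : CoverSheet A π O' res' Q' O'' res'' Q'' C.chart.R θ Ψ ψ ψc u)
    (hB : ConstHyp A π O' res') : (redPoly C hB H.coeff_mem).IsRoot (π u) := by
  have h1 := ptValue_aeval_map C H hB (liftPoly C H.coeff_mem)
  rw [liftPoly_map, H.root] at h1
  exact h1.unique ptValue_zero

/-- The point value of a sheet is a SIMPLE root of `Ψ̄_{Q'}`. -/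
theorem derivative_redPoly_ne_zero
    (H : CoverSheet A π O' res' Q' O'' res'' Q'' C.chart.R θ Ψ ψ ψc u)
    (hB : ConstHyp A π O' res') :
    (derivative (redPoly C hB H.coeff_mem)).eval (π u) ≠ 0 := by
  have h1 := ptValue_aeval_map C H hB (derivative (liftPoly C H.coeff_mem))
  rw [← derivative_map, ← derivative_map, liftPoly_map] at h1
  intro h0
  obtain ⟨h2, h3⟩ := h1
  rw [show (derivative ((liftPoly C H.coeff_mem).map (valQ C hB))) =
    derivative (redPoly C hB H.coeff_mem) from rfl, h0, isValueAt_zero_iff] at h3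
  exact H.simple h2 h3

end Sheet

/-! ### (D4), (D5): the tubes of regular charts upstairs -/

section Upstairs

variable {Ft'' : Type*} [Field Ft''] [Algebra k Ft''] {O'' : ValuationSubring F''}
  {res'' : O'' →+* Ft''} {Q'' : Place k Ft''} {T'' : Set (Place K F'')}

/-- **(D4)** On the tube of a regular chart, a function of the local ring takes values which reduce
to its value at the point. -/
theorem exists_isValueAt_of_mem (C'' : RegChart A O'' res'' Q'' T'')
    (hB'' : ConstHyp A π O'' res'') {θ : F''} (hθ : θ ∈ C''.chart.R) {P'' : Place K F''}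
    (hP : P'' ∈ T'') :
    ∃ c : A, IsValueAt P'' θ (c : K) ∧ π c = valQ C'' hB'' ⟨θ, hθ⟩ :=
  ⟨ev C'' hP ⟨θ, hθ⟩, isValueAt_ev C'' hP ⟨θ, hθ⟩, pi_ev C'' hB'' hP ⟨θ, hθ⟩⟩

/-- **(D4)** The tube of a regular chart upstairs at a point where `θ̄` takes the value `π u` lies
on the sheet `θ ≡ u`. -/
theorem tube_subset_coverTube (C'' : RegChart A O'' res'' Q'' T'')
    (hB'' : ConstHyp A π O'' res'') (hsub : ∀ P'' ∈ T'', P''.restrict F' ∈ T') {θ : F''}
    (hθ : θ ∈ C''.chart.R) {u : A} (hu : valQ C'' hB'' ⟨θ, hθ⟩ = π u) :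
    T'' ⊆ coverTube A T' θ u := by
  intro P'' hP
  obtain ⟨c, hc, hcu⟩ := exists_isValueAt_of_mem C'' hB'' hθ hP
  exact ⟨hsub P'' hP, c, hc, valuation_sub_lt_one_of_pi_eq (hcu.trans hu)⟩

end Upstairs

section Two

variable {F : Type*} [Field F] [Algebra K F]
  {Ft₁ : Type*} [Field Ft₁] [Algebra k Ft₁] {O₁ : ValuationSubring F} {res₁ : O₁ →+* Ft₁}
  {Q₁ : Place k Ft₁} {T₁ : Set (Place K F)}
  {Ft₂ : Type*} [Field Ft₂] [Algebra k Ft₂] {O₂ : ValuationSubring F} {res₂ : O₂ →+* Ft₂}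
  {Q₂ : Place k Ft₂} {T₂ : Set (Place K F)}

/-- **(D5)** The tubes of two regular charts are disjoint as soon as some function regular on both
takes different values at the two points. -/
theorem not_mem_of_valQ_ne (C₁ : RegChart A O₁ res₁ Q₁ T₁) (C₂ : RegChart A O₂ res₂ Q₂ T₂)
    (hB₁ : ConstHyp A π O₁ res₁) (hB₂ : ConstHyp A π O₂ res₂) {θ : F}
    (hθ₁ : θ ∈ C₁.chart.R) (hθ₂ : θ ∈ C₂.chart.R)
    (hne : valQ C₁ hB₁ ⟨θ, hθ₁⟩ ≠ valQ C₂ hB₂ ⟨θ, hθ₂⟩) {P : Place K F} (hP₁ : P ∈ T₁) :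
    P ∉ T₂ := by
  intro hP₂
  obtain ⟨c₁, hc₁, h1⟩ := exists_isValueAt_of_mem C₁ hB₁ hθ₁ hP₁
  obtain ⟨c₂, hc₂, h2⟩ := exists_isValueAt_of_mem C₂ hB₂ hθ₂ hP₂
  apply hne
  rw [← h1, ← h2]
  congr 1
  exact Subtype.ext (hc₁.unique hc₂)

theorem disjoint_of_valQ_ne (C₁ : RegChart A O₁ res₁ Q₁ T₁) (C₂ : RegChart A O₂ res₂ Q₂ T₂)
    (hB₁ : ConstHyp A π O₁ res₁) (hB₂ : ConstHyp A π O₂ res₂) {θ : F}
    (hθ₁ : θ ∈ C₁.chart.R) (hθ₂ : θ ∈ C₂.chart.R)
    (hne : valQ C₁ hB₁ ⟨θ, hθ₁⟩ ≠ valQ C₂ hB₂ ⟨θ, hθ₂⟩) : Disjoint T₁ T₂ :=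
  Set.disjoint_left.mpr fun _ hP => not_mem_of_valQ_ne C₁ C₂ hB₁ hB₂ hθ₁ hθ₂ hne hP

end Two

section Collision

variable {Ft₁ : Type*} [Field Ft₁] [Algebra k Ft₁] {O₁ : ValuationSubring F''}
  {res₁ : O₁ →+* Ft₁} {Q₁ : Place k Ft₁} {T₁ : Set (Place K F'')}
  {Ft₂ : Type*} [Field Ft₂] [Algebra k Ft₂] {O₂ : ValuationSubring F''} {res₂ : O₂ →+* Ft₂}
  {Q₂ : Place k Ft₂} {T₂ : Set (Place K F'')}

/-- **Two sheets sharing a root**: if `θ̄` takes the same value `π u` at two points of the cover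
over the point of the base, the sheet `θ ≡ u` contains the tubes of both points. -/
theorem union_subset_coverTube (C₁ : RegChart A O₁ res₁ Q₁ T₁) (C₂ : RegChart A O₂ res₂ Q₂ T₂)
    (hB₁ : ConstHyp A π O₁ res₁) (hB₂ : ConstHyp A π O₂ res₂)
    (hsub₁ : ∀ P'' ∈ T₁, P''.restrict F' ∈ T') (hsub₂ : ∀ P'' ∈ T₂, P''.restrict F' ∈ T')
    {θ : F''} (hθ₁ : θ ∈ C₁.chart.R) (hθ₂ : θ ∈ C₂.chart.R) {u : A}
    (hu₁ : valQ C₁ hB₁ ⟨θ, hθ₁⟩ = π u) (hu₂ : valQ C₂ hB₂ ⟨θ, hθ₂⟩ = π u) :
    T₁ ∪ T₂ ⊆ coverTube A T' θ u :=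
  Set.union_subset (tube_subset_coverTube C₁ hB₁ hsub₁ hθ₁ hu₁)
    (tube_subset_coverTube C₂ hB₂ hsub₂ hθ₂ hu₂)

end Collision

/-! ### exchange of generators -/

section Exchange

variable {Ft' : Type*} [Field Ft'] [Algebra k Ft'] {O' : ValuationSubring F'} {res' : O' →+* Ft'}
  {Q' : Place k Ft'} (C : RegChart A O' res' Q' T')

/-- A function of `F''` integral over the local ring downstairs is regular at every place over the
tube (no hypothesis on the degree of the place). -/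
theorem ord_nonneg_of_isIntegral {θ : F''} {Ψ : F'[X]} (hmonic : Ψ.Monic)
    (hΨ : ∀ n, Ψ.coeff n ∈ C.chart.R) (hroot : aeval θ Ψ = 0) {P'' : Place K F''}
    (hP : P''.restrict F' ∈ T') : 0 ≤ P''.ord θ := by
  have hI'' : IntegralAt A (C.chart.R.map (algebraMap F' F'')) P'' :=
    (integralAt_restrict_iff A C.chart.R P'').mp (integralAt C hP)
  exact Place.ord_nonneg_of_mem P'' (hI''.mem_of_isIntegral (isIntegral_map C hmonic hΨ hroot))

variable {Ft'' : Type*} [Field Ft''] [Algebra k Ft''] {O'' : ValuationSubring F''}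
  {res'' : O'' →+* Ft''} {Q'' : Place k Ft''} {T'' : Set (Place K F'')}

/-- **(D4), exchange of generators**: a function integral over the local ring downstairs and
integral on the component upstairs lies in the local ring of every regular chart upstairs whose
tube lies over the tube downstairs. -/
theorem mem_of_isIntegral (C'' : RegChart A O'' res'' Q'' T'')
    (hsub : ∀ P'' ∈ T'', P''.restrict F' ∈ T') {θ : F''} {Ψ : F'[X]} (hmonic : Ψ.Monic)
    (hΨ : ∀ n, Ψ.coeff n ∈ C.chart.R) (hroot : aeval θ Ψ = 0) (hθO : θ ∈ O'') :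
    θ ∈ C''.chart.R :=
  C''.chart.normal θ hθO fun P'' hP =>
    ord_nonneg_of_isIntegral C hmonic hΨ hroot (hsub P'' hP)

/-- **(D4), exchange of generators**: the tube of a regular chart upstairs over the tube downstairs
(e.g. the sheet `θ₁ ≡ u₁` of another generator) lies on the sheet `θ ≡ u` of every integral
function `θ` whose reduction takes the value `π u` at the point. -/
theorem tube_subset_coverTube_of_isIntegral (C'' : RegChart A O'' res'' Q'' T'')
    (hB'' : ConstHyp A π O'' res'') (hsub : ∀ P'' ∈ T'', P''.restrict F' ∈ T') {θ : F''}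
    {Ψ : F'[X]} (hmonic : Ψ.Monic) (hΨ : ∀ n, Ψ.coeff n ∈ C.chart.R) (hroot : aeval θ Ψ = 0)
    (hθO : θ ∈ O'') {u : A} (hval : IsValueAt Q'' (res'' ⟨θ, hθO⟩) (π u)) :
    T'' ⊆ coverTube A T' θ u :=
  tube_subset_coverTube C'' hB'' hsub (mem_of_isIntegral C C'' hsub hmonic hΨ hroot hθO)
    (valQ_eq_of_isValueAt C'' hB'' hval)

variable {Ft₂ : Type*} [Field Ft₂] [Algebra k Ft₂] {O₂ : ValuationSubring F''}
  {res₂ : O₂ →+* Ft₂} {Q₂ : Place k Ft₂} {T₂ : Set (Place K F'')}

/-- **Disjointness across generators**: the tubes of two regular charts upstairs over the tube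
downstairs are disjoint as soon as ONE integral function takes different values at the two
points. -/
theorem disjoint_of_isIntegral (C₁ : RegChart A O'' res'' Q'' T'') (C₂ : RegChart A O₂ res₂ Q₂ T₂)
    (hB₁ : ConstHyp A π O'' res'') (hB₂ : ConstHyp A π O₂ res₂)
    (hsub₁ : ∀ P'' ∈ T'', P''.restrict F' ∈ T') (hsub₂ : ∀ P'' ∈ T₂, P''.restrict F' ∈ T')
    {θ : F''} {Ψ : F'[X]} (hmonic : Ψ.Monic) (hΨ : ∀ n, Ψ.coeff n ∈ C.chart.R)
    (hroot : aeval θ Ψ = 0) (hθO₁ : θ ∈ O'') (hθO₂ : θ ∈ O₂) {c₁ c₂ : k}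
    (hval₁ : IsValueAt Q'' (res'' ⟨θ, hθO₁⟩) c₁) (hval₂ : IsValueAt Q₂ (res₂ ⟨θ, hθO₂⟩) c₂)
    (hne : c₁ ≠ c₂) : Disjoint T'' T₂ := by
  have hm₁ : θ ∈ C₁.chart.R := mem_of_isIntegral C C₁ hsub₁ hmonic hΨ hroot hθO₁
  have hm₂ : θ ∈ C₂.chart.R := mem_of_isIntegral C C₂ hsub₂ hmonic hΨ hroot hθO₂
  have h1 : valQ C₁ hB₁ ⟨θ, hm₁⟩ = c₁ := valQ_eq_of_isValueAt C₁ hB₁ hval₁
  have h2 : valQ C₂ hB₂ ⟨θ, hm₂⟩ = c₂ := valQ_eq_of_isValueAt C₂ hB₂ hval₂
  refine disjoint_of_valQ_ne C₁ C₂ hB₁ hB₂ hm₁ hm₂ ?_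
  rw [h1, h2]
  exact hne

end Exchange

end Fermat.Agent.BR3.CoverK.Dict
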