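/-
Program C (S36), node (W4-ET) (helper24): the sheets of a finite cover over the tube of a smooth
point of the base, WITH RAMIFICATION in the reduction — in particular the purely inseparable case:
ONE point `x = ⟨cZero, Q''⟩` over a smooth point `Q'` of `'et'` along `alpha2` (mirror: one point of
`cInf` over a smooth point of `'can'` along `beta2`), a single sheet of weight `q = [F'' : F']`, no
`CoverSheet` along the map; the chart upstairs is built along the OTHER map.

`C' : S0.SmoothChart A O' res' Q' T'` the chart downstairs (parameter `t'`), `tube''` the candidate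
tubes upstairs.

* `smoothSheetsOfCharts` : helper23's `CoverDict.SmoothSheets` from ANY smooth charts upstairs
  `C'' x` on `tube'' x` (however built) at points `Q'' x` of components `(O'' x, res'' x)` over
  `(O', res')`, with weights `e x = ord_{Q'' x} (res' t')` (the ramification index of `Q'' x` over
  `Q'`) and `∑ e x = [F'' : F']`: the count on each sheet is `SheetCount.count_of_smoothChart`
  (conservation upstairs).  `e x = 1` everywhere is route 2 of `CoverK/Fibre`.
* `smoothSheetsOfInsep`, `mem_of_insep`, `eq_preimage_of_insep`, `SmoothFibre.ofInsep` : the case of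
  ONE sheet of weight `[F'' : F']`: the tube upstairs is the FULL preimage of the tube downstairs.
* (sub) `restrict_mem_of_regChart` : a tube upstairs with a regular chart at `Q''` is mapped into the
  tube downstairs of the point `Q'` under `Q''`, as soon as the functions of the chart ring
  downstairs have no poles on it (`CoverPlaces.RegTube.isRedOf_under`) and the tube downstairs
  contains every place reducing to `Q'`; `ord_nonneg_of_isIntegral_chart` : no poles from
  integrality over the local ring upstairs (`a(R')` integral over `b(R')`: `Φ_q` is monic in both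
  variables).
* `r_restrict_eq_of_sub` : the (T) export `S₀.r (P.restrict F') = ⟨v, Q'⟩`.
-/
import Mathlib
import Fermat.Agent.BR3.CoverK.Fibre

set_option autoImplicit false
set_option linter.unusedSectionVars false

namespace Fermat.Agent.BR3.CoverK.FibreInsep

open AlgebraicCurve Polynomial Fermat.Agent.Red Fermat.Agent.X0 Fermat.Agent.BR.Centre
  Fermat.Agent.BR.S0 Fermat.Agent.BR.SS Fermat.Agent.BR3.CoverK Fermat.Agent.BR3.CoverK.Factor
  Fermat.Agent.BR3.CoverK.Fibre Fermat.Agent.BR3.CoverPlaces Fermat.Agent.BR3.CoverDict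
  Fermat.Agent.BR3.SheetCount

variable {K k : Type*} [Field K] [Field k]
  {F' : Type*} [Field F'] [Algebra K F']
  {F'' : Type*} [Field F''] [Algebra K F''] [Algebra F' F''] [IsScalarTower K F' F'']
  [Algebra.IsIntegral F' F'']
  {A : ValuationSubring K} {π : A →+* k} {T' : Set (Place K F')}
  {Ft' : Type*} [Field Ft'] [Algebra k Ft'] {O' : ValuationSubring F'} {res' : O' →+* Ft'}
  {Q' : Place k Ft'}

/-! ### the count on a sheet with a chart upstairs -/

section Count

variable {Ft'' : Type*} [Field Ft''] [Algebra k Ft''] [Algebra Ft' Ft'']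
  {O'' : ValuationSubring F''} {res'' : O'' →+* Ft''} {Q'' : Place k Ft''}
  {T'' : Set (Place K F'')}

/-- The reduction of the parameter of a smooth chart does not vanish identically. -/
theorem res_t_ne_zero (C' : SmoothChart A O' res' Q' T') :
    res' ⟨C'.t, C'.le _ C'.t_mem⟩ ≠ 0 := by
  intro h0
  have := C'.ord_res_t
  rw [h0, Place.ord_zero] at this
  exact zero_ne_one this

/-- **The count on a sheet with a smooth chart upstairs**: `t' - c` has `e = ord_{Q''} (res' t')`
zeros on the tube of the chart. -/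
theorem count_chart (C' : SmoothChart A O' res' Q' T') (hB : ConstHyp A π O' res')
    (C'' : SmoothChart A O'' res'' Q'' T'') (hB'' : ConstHyp A π O'' res'')
    (hO : ∀ y ∈ O', algebraMap F' F'' y ∈ O'')
    (hresmap : ∀ (y : F') (hy : y ∈ O'),
      res'' ⟨algebraMap F' F'' y, hO y hy⟩ = algebraMap Ft' Ft'' (res' ⟨y, hy⟩))
    {e : ℕ} (he : Q''.ord (algebraMap Ft' Ft'' (res' ⟨C'.t, C'.le _ C'.t_mem⟩)) = (e : ℤ))
    {c : K} (hc : A.valuation c < 1) (D : Divisor K F'')
    (hD : ∀ P, D P = P.ord (algebraMap F' F'' (C'.t - algebraMap K F' c))) :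
    Finsupp.mapDomain (fun P => P ∈ T'') D True = (e : ℤ) := by
  have hAO' : ∀ a ∈ A, algebraMap K F' a ∈ O' := fun a ha => C'.le _ (C'.algebraMap_mem a ha)
  refine count_of_smoothChart (O' := O') (res' := res') C'' hB''.res_const hB.pi_zero ?_ hO
    hresmap hAO' (fun a ha => hB.res_const a ha _) (C'.le _ C'.t_mem) (res_t_ne_zero C') he hc D hD
  intro x hx
  have h1 : (x : F'') ∉ O''.nonunits := fun h => hx ((hB''.res_eq_zero_iff x).mpr h)
  rw [ValuationSubring.mem_nonunits_iff_or, not_or, not_not] at h1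
  refine isUnit_iff_exists_inv.mpr ⟨⟨_, h1.2⟩, ?_⟩
  exact Subtype.ext (mul_inv_cancel₀ h1.1)

end Count

/-! ### sheets with ramification in the reduction -/

section Family

variable [HasPrincipalDivisors K F''] [FundamentalIdentity K F' F'']
  {β'' : Type*} {tube'' : β'' → Set (Place K F'')}

/-- **`SmoothSheets` from charts upstairs with arbitrary ramification in the reduction.** -/
noncomputable def smoothSheetsOfCharts (C' : SmoothChart A O' res' Q' T')
    (hB : ConstHyp A π O' res') (fib : Finset β'') (e : β'' → ℕ)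
    (Ft'' : β'' → Type*) [∀ x, Field (Ft'' x)] [∀ x, Algebra k (Ft'' x)]
    [∀ x, Algebra Ft' (Ft'' x)]
    (O'' : β'' → ValuationSubring F'') (res'' : ∀ x, O'' x →+* Ft'' x)
    (Q'' : ∀ x, Place k (Ft'' x))
    (C'' : ∀ x, x ∈ fib → SmoothChart A (O'' x) (res'' x) (Q'' x) (tube'' x))
    (hB'' : ∀ x ∈ fib, ConstHyp A π (O'' x) (res'' x))
    (hO : ∀ x ∈ fib, ∀ y ∈ O', algebraMap F' F'' y ∈ O'' x)
    (hresmap : ∀ (x : β'') (hx : x ∈ fib) (y : F') (hy : y ∈ O'),
      res'' x ⟨algebraMap F' F'' y, hO x hx y hy⟩ = algebraMap Ft' (Ft'' x) (res' ⟨y, hy⟩))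
    (he : ∀ x ∈ fib,
      (Q'' x).ord (algebraMap Ft' (Ft'' x) (res' ⟨C'.t, C'.le _ C'.t_mem⟩)) = (e x : ℤ))
    (hsub : ∀ x ∈ fib, ∀ P ∈ tube'' x, P.restrict F' ∈ T')
    (hdisj : ∀ x ∈ fib, ∀ y ∈ fib, ∀ P, P ∈ tube'' x → P ∈ tube'' y → x = y)
    (hsum : ∑ x ∈ fib, e x = Module.finrank F' F'') :
    SmoothSheets A O' res' Q' T' C' tube'' where
  fib := fib
  e := e
  sub := hsub
  disj := hdisj
  count := fun x hx _ hc D hD =>
    count_chart C' hB (C'' x hx) (hB'' x hx) (hO x hx) (hresmap x hx) (he x hx) hc D hD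
  sum := hsum

variable {Ft'' : Type*} [Field Ft''] [Algebra k Ft''] [Algebra Ft' Ft'']
  {O'' : ValuationSubring F''} {res'' : O'' →+* Ft''} {Q'' : Place k Ft''}

/-- **One sheet of full weight**: `SmoothSheets` with `fib = {x}`. -/
noncomputable def smoothSheetsOfInsep [DecidableEq β''] (C' : SmoothChart A O' res' Q' T')
    (hB : ConstHyp A π O' res') (x : β'')
    (C'' : SmoothChart A O'' res'' Q'' (tube'' x)) (hB'' : ConstHyp A π O'' res'')
    (hO : ∀ y ∈ O', algebraMap F' F'' y ∈ O'')
    (hresmap : ∀ (y : F') (hy : y ∈ O'),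
      res'' ⟨algebraMap F' F'' y, hO y hy⟩ = algebraMap Ft' Ft'' (res' ⟨y, hy⟩))
    (he : Q''.ord (algebraMap Ft' Ft'' (res' ⟨C'.t, C'.le _ C'.t_mem⟩)) =
      (Module.finrank F' F'' : ℤ))
    (hsub : ∀ P ∈ tube'' x, P.restrict F' ∈ T') :
    SmoothSheets A O' res' Q' T' C' tube'' where
  fib := {x}
  e := fun _ => Module.finrank F' F''
  sub := fun y hy P hP => by
    rw [Finset.mem_singleton] at hy
    subst hy
    exact hsub P hP
  disj := fun y hy z hz _ _ _ => by
    rw [Finset.mem_singleton] at hy hz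
    rw [hy, hz]
  count := fun y hy _ hc D hD => by
    rw [Finset.mem_singleton] at hy
    subst hy
    exact count_chart C' hB C'' hB'' hO hresmap he hc D hD
  sum := by
    rw [Finset.sum_singleton]

/-- **(exh) for one sheet of full weight**: every place over the tube downstairs lies in the tube
upstairs. -/
theorem mem_of_insep (C' : SmoothChart A O' res' Q' T') (hB : ConstHyp A π O' res')
    {T'' : Set (Place K F'')} (C'' : SmoothChart A O'' res'' Q'' T'')
    (hB'' : ConstHyp A π O'' res'') (hO : ∀ y ∈ O', algebraMap F' F'' y ∈ O'')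
    (hresmap : ∀ (y : F') (hy : y ∈ O'),
      res'' ⟨algebraMap F' F'' y, hO y hy⟩ = algebraMap Ft' Ft'' (res' ⟨y, hy⟩))
    (he : Q''.ord (algebraMap Ft' Ft'' (res' ⟨C'.t, C'.le _ C'.t_mem⟩)) =
      (Module.finrank F' F'' : ℤ))
    (hsub : ∀ P ∈ T'', P.restrict F' ∈ T') (hdeg'' : ∀ P : Place K F'', P.deg = 1)
    (hdeg' : ∀ P : Place K F', P.deg = 1) {P'' : Place K F''} (hP : P''.restrict F' ∈ T') :
    P'' ∈ T'' := by
  classical
  have X := smoothSheetsOfInsep (β'' := Unit) (tube'' := fun _ => T'') C' hB () C'' hB'' hO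
    hresmap he hsub
  obtain ⟨_, -, h⟩ := X.exists_mem hdeg'' hdeg' hP
  exact h

/-- The tube upstairs of one sheet of full weight is the full preimage of the tube downstairs. -/
theorem eq_preimage_of_insep (C' : SmoothChart A O' res' Q' T') (hB : ConstHyp A π O' res')
    {T'' : Set (Place K F'')} (C'' : SmoothChart A O'' res'' Q'' T'')
    (hB'' : ConstHyp A π O'' res'') (hO : ∀ y ∈ O', algebraMap F' F'' y ∈ O'')
    (hresmap : ∀ (y : F') (hy : y ∈ O'),
      res'' ⟨algebraMap F' F'' y, hO y hy⟩ = algebraMap Ft' Ft'' (res' ⟨y, hy⟩))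
    (he : Q''.ord (algebraMap Ft' Ft'' (res' ⟨C'.t, C'.le _ C'.t_mem⟩)) =
      (Module.finrank F' F'' : ℤ))
    (hsub : ∀ P ∈ T'', P.restrict F' ∈ T') (hdeg'' : ∀ P : Place K F'', P.deg = 1)
    (hdeg' : ∀ P : Place K F', P.deg = 1) :
    T'' = {P'' : Place K F'' | P''.restrict F' ∈ T'} :=
  Set.ext fun P'' => ⟨fun h => hsub P'' h, fun h =>
    mem_of_insep C' hB C'' hB'' hO hresmap he hsub hdeg'' hdeg' h⟩

/-- **The fibre over a point with one sheet of full weight.** -/
noncomputable def SmoothFibre.ofInsep [DecidableEq β''] (C' : SmoothChart A O' res' Q' T')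
    (hB : ConstHyp A π O' res') (x : β'')
    (C'' : SmoothChart A O'' res'' Q'' (tube'' x)) (hB'' : ConstHyp A π O'' res'')
    (hO : ∀ y ∈ O', algebraMap F' F'' y ∈ O'')
    (hresmap : ∀ (y : F') (hy : y ∈ O'),
      res'' ⟨algebraMap F' F'' y, hO y hy⟩ = algebraMap Ft' Ft'' (res' ⟨y, hy⟩))
    (he : Q''.ord (algebraMap Ft' Ft'' (res' ⟨C'.t, C'.le _ C'.t_mem⟩)) =
      (Module.finrank F' F'' : ℤ))
    (hsub : ∀ P ∈ tube'' x, P.restrict F' ∈ T') (hdeg'' : ∀ P : Place K F'', P.deg = 1)
    (hdeg' : ∀ P : Place K F', P.deg = 1) : SmoothFibre T' tube'' :=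
  SmoothFibre.ofSmoothSheets (smoothSheetsOfInsep C' hB x C'' hB'' hO hresmap he hsub) hdeg'' hdeg'

theorem SmoothFibre.ofInsep_fib [DecidableEq β''] (C' : SmoothChart A O' res' Q' T')
    (hB : ConstHyp A π O' res') (x : β'')
    (C'' : SmoothChart A O'' res'' Q'' (tube'' x)) (hB'' : ConstHyp A π O'' res'')
    (hO : ∀ y ∈ O', algebraMap F' F'' y ∈ O'')
    (hresmap : ∀ (y : F') (hy : y ∈ O'),
      res'' ⟨algebraMap F' F'' y, hO y hy⟩ = algebraMap Ft' Ft'' (res' ⟨y, hy⟩))
    (he : Q''.ord (algebraMap Ft' Ft'' (res' ⟨C'.t, C'.le _ C'.t_mem⟩)) =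
      (Module.finrank F' F'' : ℤ))
    (hsub : ∀ P ∈ tube'' x, P.restrict F' ∈ T') (hdeg'' : ∀ P : Place K F'', P.deg = 1)
    (hdeg' : ∀ P : Place K F', P.deg = 1) :
    (SmoothFibre.ofInsep C' hB x C'' hB'' hO hresmap he hsub hdeg'' hdeg').fib = {x} := rfl

end Family

/-! ### (sub): a tube built along another map lies over the tube of the point under it -/

section Sub

variable {Ft'' : Type*} [Field Ft''] [Algebra k Ft''] [Algebra Ft' Ft'']
  {O'' : ValuationSubring F''} {res'' : O'' →+* Ft''} {Q'' : Place k Ft''}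
  {T'' : Set (Place K F'')}

omit [Algebra.IsIntegral F' F''] [Algebra F' F''] [IsScalarTower K F' F''] in
/-- A function integral over the local ring of a regular chart has no poles on its tube. -/
theorem ord_nonneg_of_isIntegral_chart (C'' : RegChart A O'' res'' Q'' T'') {y : F''}
    (hy : IsIntegral C''.chart.R y) {P : Place K F''} (hP : P ∈ T'') : 0 ≤ P.ord y :=
  Place.ord_nonneg_of_mem P ((integralAt C'' hP).mem_of_isIntegral hy)

/-- **(sub)** The tube of a regular chart upstairs at `Q''` (however built) is mapped into the tube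
downstairs of the point `Q'` under `Q''`: it suffices that the functions of a chart ring `R' ≤ O'`
downstairs have no poles on it, and that the tube downstairs contains every place whose reduction,
tested on `R'`, is `Q'`. -/
theorem restrict_mem_of_regChart (C'' : RegChart A O'' res'' Q'' T'')
    (hB'' : ConstHyp A π O'' res'') {R' : Subring F'} (hR'O' : R' ≤ O'.toSubring)
    (hO : ∀ y ∈ O', algebraMap F' F'' y ∈ O'')
    (hresmap : ∀ (y : F') (hy : y ∈ O'),
      res'' ⟨algebraMap F' F'' y, hO y hy⟩ = algebraMap Ft' Ft'' (res' ⟨y, hy⟩))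
    (hpole : ∀ y ∈ R', ∀ P ∈ T'', 0 ≤ P.ord (algebraMap F' F'' y))
    (hQ : LiesUnder Q'' Q')
    (hT' : ∀ P' : Place K F', IsRedOf A π R' O' res' hR'O' P' Q' → P' ∈ T')
    {P'' : Place K F''} (hP : P'' ∈ T'') : P''.restrict F' ∈ T' :=
  hT' _ ((RegTube.ofSmoothChart C''.chart hB''.res_const hB''.pi_zero
    C''.centred).isRedOf_under hR'O' hO hresmap hpole hQ hP)

/-- **(sub)**, integrality form: the functions of `R'` are integral over the local ring
upstairs. -/
theorem restrict_mem_of_isIntegral (C'' : RegChart A O'' res'' Q'' T'')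
    (hB'' : ConstHyp A π O'' res'') {R' : Subring F'} (hR'O' : R' ≤ O'.toSubring)
    (hO : ∀ y ∈ O', algebraMap F' F'' y ∈ O'')
    (hresmap : ∀ (y : F') (hy : y ∈ O'),
      res'' ⟨algebraMap F' F'' y, hO y hy⟩ = algebraMap Ft' Ft'' (res' ⟨y, hy⟩))
    (hint : ∀ y ∈ R', IsIntegral C''.chart.R (algebraMap F' F'' y))
    (hQ : LiesUnder Q'' Q')
    (hT' : ∀ P' : Place K F', IsRedOf A π R' O' res' hR'O' P' Q' → P' ∈ T')
    {P'' : Place K F''} (hP : P'' ∈ T'') : P''.restrict F' ∈ T' :=
  restrict_mem_of_regChart C'' hB'' hR'O' hO hresmap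
    (fun y hy _ hP => ord_nonneg_of_isIntegral_chart C'' (hint y hy) hP) hQ hT' hP

end Sub

/-! ### the (T) export -/

section Export

variable {ι₀ : Type*} {Ft₀ : ι₀ → Type*} [∀ v, Field (Ft₀ v)] [∀ v, Algebra k (Ft₀ v)]
  {ν₀ : Type*} (S₀ : SemistableSetup (F := F') A π ι₀ Ft₀ ν₀) {β'' : Type*}
  {tube'' : β'' → Set (Place K F'')}

/-- **(T)**: the reduction map of the cover lies over the reduction map of the base on the tubes of
the points of a fibre. -/
theorem r_restrict_eq_of_sub {y' : Σ v, Place k (Ft₀ v)}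
    (X : SmoothFibre {P | S₀.r P = y'} tube'') {x : β''} (hx : x ∈ X.fib) {P : Place K F''}
    (hP : P ∈ tube'' x) : S₀.r (P.restrict F') = y' :=
  X.sub x hx P hP

end Export

end Fermat.Agent.BR3.CoverK.FibreInsep
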