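/-
Program C (S36), node (W4-ET) (helper24): the one-sheet-of-full-weight fibre (`CoverK/FibreInsep`)
ALONG an algebra homomorphism `a : F' →ₐ[K] F''` (no `Algebra F' F''` instance in the statements;
`ρ = fun P => P.restrictAlong a ha`), with an arbitrary ring homomorphism `V : Ft' →+* Ft''` as the
embedding of the residue fields, and the exports in helper3's shape
`SDD.Partition.FibreOver S₀ ρ tube'' y' fib`.

* `mem_of_insep_along`, `eq_preimage_of_insep_along` : the tube upstairs is the FULL preimage of the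
  tube downstairs;
* (sub) `restrictAlong_mem_of_regChart`, `restrictAlong_mem_of_isIntegral` : the along versions of
  `FibreInsep.restrict_mem_of_regChart` / `restrict_mem_of_isIntegral`;
* `fibreOver_of_insep_along` : `FibreOver S₀ (fun P => P.restrictAlong a ha) tube'' y' {x}`;
* `SmoothFibre.fibreOver` (`ρ = restrict`), `fibreOver_of_smoothFibre_along` : ANY
  `Fibre.SmoothFibre {P | S₀.r P = y'} tube''` ends in `FibreOver … y' ↑X.fib`.
-/
import Mathlib
import Fermat.Agent.BR3.CoverK.FibreInsep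
import Fermat.Agent.BR3.SDD.Partition

set_option autoImplicit false
set_option linter.unusedSectionVars false
set_option linter.style.haveILetI false

namespace Fermat.Agent.BR3.CoverK.FibreInsepAlong

open AlgebraicCurve Polynomial Fermat.Agent.Red Fermat.Agent.X0 Fermat.Agent.BR.Centre
  Fermat.Agent.BR.S0 Fermat.Agent.BR.SS Fermat.Agent.BR3.CoverK Fermat.Agent.BR3.CoverK.Factor
  Fermat.Agent.BR3.CoverK.Fibre Fermat.Agent.BR3.CoverK.FibreInsep Fermat.Agent.BR3.SDD.Partition
  Fermat.Agent.BR3.CoverPlaces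

variable {K k : Type*} [Field K] [Field k]
  {F' : Type*} [Field F'] [Algebra K F']
  {F'' : Type*} [Field F''] [Algebra K F'']
  {A : ValuationSubring K} {π : A →+* k}

/-! ### the tube of one sheet of full weight, along `a` -/

section Insep

variable [HasPrincipalDivisors K F''] {T' : Set (Place K F')}
  {Ft' : Type*} [Field Ft'] [Algebra k Ft'] {O' : ValuationSubring F'} {res' : O' →+* Ft'}
  {Q' : Place k Ft'}
  {Ft'' : Type*} [Field Ft''] [Algebra k Ft'']
  {O'' : ValuationSubring F''} {res'' : O'' →+* Ft''} {Q'' : Place k Ft''}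
  {T'' : Set (Place K F'')}

/-- **(exh) for one sheet of full weight, along `a`**: every place over the tube downstairs lies in
the tube upstairs.  `V` is the embedding of the residue function fields. -/
theorem mem_of_insep_along (a : F' →ₐ[K] F'') (ha : a.toRingHom.IsIntegral)
    (hFI : FundamentalIdentityAlong K a ha) (V : Ft' →+* Ft'')
    (C' : SmoothChart A O' res' Q' T') (hB : ConstHyp A π O' res')
    (C'' : SmoothChart A O'' res'' Q'' T'') (hB'' : ConstHyp A π O'' res'')
    (hO : ∀ y ∈ O', a y ∈ O'')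
    (hresmap : ∀ (y : F') (hy : y ∈ O'), res'' ⟨a y, hO y hy⟩ = V (res' ⟨y, hy⟩))
    (he : Q''.ord (V (res' ⟨C'.t, C'.le _ C'.t_mem⟩)) = (finrankAlong K a : ℤ))
    (hsub : ∀ P ∈ T'', P.restrictAlong a ha ∈ T')
    (hdeg'' : ∀ P : Place K F'', P.deg = 1) (hdeg' : ∀ P : Place K F', P.deg = 1)
    {P'' : Place K F''} (hP : P''.restrictAlong a ha ∈ T') : P'' ∈ T'' := by
  letI : Algebra F' F'' := algebraAlong a
  haveI : IsScalarTower K F' F'' := isScalarTower_along a
  haveI : Algebra.IsIntegral F' F'' := isIntegral_along a ha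
  haveI : FundamentalIdentity K F' F'' := hFI
  letI : Algebra Ft' Ft'' := V.toAlgebra
  exact mem_of_insep C' hB C'' hB'' hO hresmap he hsub hdeg'' hdeg' hP

/-- The tube upstairs of one sheet of full weight is the full preimage of the tube downstairs. -/
theorem eq_preimage_of_insep_along (a : F' →ₐ[K] F'') (ha : a.toRingHom.IsIntegral)
    (hFI : FundamentalIdentityAlong K a ha) (V : Ft' →+* Ft'')
    (C' : SmoothChart A O' res' Q' T') (hB : ConstHyp A π O' res')
    (C'' : SmoothChart A O'' res'' Q'' T'') (hB'' : ConstHyp A π O'' res'')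
    (hO : ∀ y ∈ O', a y ∈ O'')
    (hresmap : ∀ (y : F') (hy : y ∈ O'), res'' ⟨a y, hO y hy⟩ = V (res' ⟨y, hy⟩))
    (he : Q''.ord (V (res' ⟨C'.t, C'.le _ C'.t_mem⟩)) = (finrankAlong K a : ℤ))
    (hsub : ∀ P ∈ T'', P.restrictAlong a ha ∈ T')
    (hdeg'' : ∀ P : Place K F'', P.deg = 1) (hdeg' : ∀ P : Place K F', P.deg = 1) :
    T'' = {P'' : Place K F'' | P''.restrictAlong a ha ∈ T'} :=
  Set.ext fun P'' => ⟨fun h => hsub P'' h, fun h =>
    mem_of_insep_along a ha hFI V C' hB C'' hB'' hO hresmap he hsub hdeg'' hdeg' h⟩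

end Insep

/-! ### (sub), along `a` -/

section Sub

variable {T' : Set (Place K F')}
  {Ft' : Type*} [Field Ft'] [Algebra k Ft'] {O' : ValuationSubring F'} {res' : O' →+* Ft'}
  {Q' : Place k Ft'}
  {Ft'' : Type*} [Field Ft''] [Algebra k Ft'']
  {O'' : ValuationSubring F''} {res'' : O'' →+* Ft''} {Q'' : Place k Ft''}
  {T'' : Set (Place K F'')}

/-- **(sub), along `a`** (`FibreInsep.restrict_mem_of_regChart`): the tube of a regular chart
upstairs at `Q''` (however built) is mapped by `restrictAlong a` into the tube downstairs of the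
point `Q'` under `Q''` (`hQ`, in the unfolded form of `CoverPlaces.LiesUnder` for the residue
embedding `V`). -/
theorem restrictAlong_mem_of_regChart (a : F' →ₐ[K] F'') (ha : a.toRingHom.IsIntegral)
    (V : Ft' →+* Ft'') (C'' : RegChart A O'' res'' Q'' T'') (hB'' : ConstHyp A π O'' res'')
    {R' : Subring F'} (hR'O' : R' ≤ O'.toSubring) (hO : ∀ y ∈ O', a y ∈ O'')
    (hresmap : ∀ (y : F') (hy : y ∈ O'), res'' ⟨a y, hO y hy⟩ = V (res' ⟨y, hy⟩))
    (hpole : ∀ y ∈ R', ∀ P ∈ T'', 0 ≤ P.ord (a y))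
    (hQ : ∀ (g : Ft') (c : k), IsValueAt Q'' (V g) c → IsValueAt Q' g c)
    (hT' : ∀ P' : Place K F', IsRedOf A π R' O' res' hR'O' P' Q' → P' ∈ T')
    {P'' : Place K F''} (hP : P'' ∈ T'') : P''.restrictAlong a ha ∈ T' := by
  letI : Algebra F' F'' := algebraAlong a
  haveI : IsScalarTower K F' F'' := isScalarTower_along a
  haveI : Algebra.IsIntegral F' F'' := isIntegral_along a ha
  letI : Algebra Ft' Ft'' := V.toAlgebra
  exact restrict_mem_of_regChart C'' hB'' hR'O' hO hresmap hpole hQ hT' hP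

/-- **(sub), along `a`**, integrality form: the images of the functions of `R'` are integral over
the local ring upstairs. -/
theorem restrictAlong_mem_of_isIntegral (a : F' →ₐ[K] F'') (ha : a.toRingHom.IsIntegral)
    (V : Ft' →+* Ft'') (C'' : RegChart A O'' res'' Q'' T'') (hB'' : ConstHyp A π O'' res'')
    {R' : Subring F'} (hR'O' : R' ≤ O'.toSubring) (hO : ∀ y ∈ O', a y ∈ O'')
    (hresmap : ∀ (y : F') (hy : y ∈ O'), res'' ⟨a y, hO y hy⟩ = V (res' ⟨y, hy⟩))
    (hint : ∀ y ∈ R', IsIntegral C''.chart.R (a y))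
    (hQ : ∀ (g : Ft') (c : k), IsValueAt Q'' (V g) c → IsValueAt Q' g c)
    (hT' : ∀ P' : Place K F', IsRedOf A π R' O' res' hR'O' P' Q' → P' ∈ T')
    {P'' : Place K F''} (hP : P'' ∈ T'') : P''.restrictAlong a ha ∈ T' :=
  restrictAlong_mem_of_regChart a ha V C'' hB'' hR'O' hO hresmap
    (fun y hy _ hP => ord_nonneg_of_isIntegral_chart C'' (hint y hy) hP) hQ hT' hP

end Sub

/-! ### the exports in the shape `FibreOver` -/

section Export

variable {ι₀ : Type*} {Ft₀ : ι₀ → Type*} [∀ v, Field (Ft₀ v)] [∀ v, Algebra k (Ft₀ v)]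
  {ν₀ : Type*} (S₀ : SemistableSetup (F := F') A π ι₀ Ft₀ ν₀) {β'' : Type*}
  (tube'' : β'' → Set (Place K F''))

/-- **The fibre of a point of the base with one sheet of full weight, along `a`.** -/
theorem fibreOver_of_insep_along [HasPrincipalDivisors K F''] (a : F' →ₐ[K] F'')
    (ha : a.toRingHom.IsIntegral) (hFI : FundamentalIdentityAlong K a ha)
    {Ft' : Type*} [Field Ft'] [Algebra k Ft'] {O' : ValuationSubring F'} {res' : O' →+* Ft'}
    {Q' : Place k Ft'} {Ft'' : Type*} [Field Ft''] [Algebra k Ft'']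
    {O'' : ValuationSubring F''} {res'' : O'' →+* Ft''} {Q'' : Place k Ft''} (V : Ft' →+* Ft'')
    (y' : Σ v, Place k (Ft₀ v)) (x : β'')
    (C' : SmoothChart A O' res' Q' {P | S₀.r P = y'}) (hB : ConstHyp A π O' res')
    (C'' : SmoothChart A O'' res'' Q'' (tube'' x)) (hB'' : ConstHyp A π O'' res'')
    (hO : ∀ y ∈ O', a y ∈ O'')
    (hresmap : ∀ (y : F') (hy : y ∈ O'), res'' ⟨a y, hO y hy⟩ = V (res' ⟨y, hy⟩))
    (he : Q''.ord (V (res' ⟨C'.t, C'.le _ C'.t_mem⟩)) = (finrankAlong K a : ℤ))
    (hsub : ∀ P ∈ tube'' x, S₀.r (P.restrictAlong a ha) = y')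
    (hdeg'' : ∀ P : Place K F'', P.deg = 1) (hdeg' : ∀ P : Place K F', P.deg = 1) :
    FibreOver S₀ (fun P => P.restrictAlong a ha) tube'' y' {x} where
  sub := fun z hz P hP => by
    rw [Set.mem_singleton_iff] at hz
    subst hz
    exact hsub P hP
  disj := fun z hz w hw _ _ _ => by
    rw [Set.mem_singleton_iff] at hz hw
    rw [hz, hw]
  exh := fun P hP =>
    ⟨x, rfl, mem_of_insep_along a ha hFI V C' hB C'' hB'' hO hresmap he hsub hdeg'' hdeg' hP⟩

/-- **Any `SmoothFibre` over the tube of a point of the base ends in `FibreOver`**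
(`ρ = restrict`). -/
theorem SmoothFibre.fibreOver [Algebra F' F''] [IsScalarTower K F' F'']
    [Algebra.IsIntegral F' F''] {y' : Σ v, Place k (Ft₀ v)}
    (X : SmoothFibre {P | S₀.r P = y'} tube'') :
    FibreOver S₀ (fun P => P.restrict F') tube'' y' (X.fib : Set β'') where
  sub := fun x hx P hP => X.sub x hx P hP
  disj := fun x hx y hy P hPx hPy => X.disj x hx y hy P hPx hPy
  exh := fun P hP => by
    obtain ⟨x, hx, hPx⟩ := X.exh P hP
    exact ⟨x, hx, hPx⟩

/-- **Any `SmoothFibre` ends in `FibreOver`, along `a`**: build the `SmoothFibre` under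
`letI := algebraAlong a; haveI := isScalarTower_along a; haveI := isIntegral_along a ha`. -/
theorem fibreOver_of_smoothFibre_along (a : F' →ₐ[K] F'') (ha : a.toRingHom.IsIntegral)
    {y' : Σ v, Place k (Ft₀ v)}
    (X : @SmoothFibre K _ F' _ _ F'' _ _ (algebraAlong a) (isScalarTower_along a)
      (isIntegral_along a ha) {P | S₀.r P = y'} β'' tube'') :
    FibreOver S₀ (fun P => P.restrictAlong a ha) tube'' y'
      ((@SmoothFibre.fib K _ F' _ _ F'' _ _ (algebraAlong a) (isScalarTower_along a)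
        (isIntegral_along a ha) _ β'' tube'' X : Finset β'') : Set β'') := by
  letI : Algebra F' F'' := algebraAlong a
  haveI : IsScalarTower K F' F'' := isScalarTower_along a
  haveI : Algebra.IsIntegral F' F'' := isIntegral_along a ha
  exact SmoothFibre.fibreOver S₀ tube'' X

end Export

end Fermat.Agent.BR3.CoverK.FibreInsepAlong
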