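/-
Program C (S36), node (W4-ET-MOD) (helper24): the purely inseparable horizontal sheets of
`X₀(M q²) → X₀(M q)`.

* Along `α₂` the component `cZero` lies over `et = O2` with residue embedding the relative Frobenius
  `V = qExpandFullC : F̃_M → F̃_M` (`CZeroRes.coe_resZ_alpha2`); the point of `et` under a point `Q''`
  of `cZero` is `underFrob Q'' := Φ_c • Q''` (`Φ_c = frobAutFullC`, the coefficientwise Frobenius),
  and `ord_{Q''} (V g) = q · ord_{Φ_c • Q''} g` (`Hecke.ord_qExpandFullC`): ramification index `q`.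
* Along `β₂` the same for `cInf = w₁` over `can = O1` (`FibreProd.resw1_beta2`).

Hence (`FibreInsepAlong.mem_of_insep_along`): the tube of ANY smooth chart of `cZero` at `Q''` which
lies over the tube of a smooth chart of `et` at `Φ_c • Q''` along `α₂` is the FULL preimage of that
tube (`mem_tube_cZero`, `mem_tube_cZero_of_eq`, `tube_cZero_eq_preimage`, and in helper3's shape
`fibreOver_cZero : FibreOver S₀ (restrictAlong α₂) tube'' y' {x}`), and the mirror statements for
`cInf` along `β₂` (`mem_tube_cInf`, …, `fibreOver_cInf`).  No further modular input is needed: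
`he` (`ord_res_t_cZero` / `ord_res_t_cInf`), `hO` (`alpha2_mem_cZero` / `beta2_mem_cInf`), `hresmap`
(`res_cZero_alpha2` / `res_cInf_beta2`), the constants and the fundamental identity are discharged
here.

* `underFrob`, `overFrob` (`Φ_c⁻¹ • Q'`), `underFrob_overFrob`, `overFrob_underFrob`,
  `underFrob_injective`, `underFrob_surjective` : the point map `uZero` (resp. its mirror) and its
  inverse;
* `liesUnder_frob`, `isValueAt_underFrob` : `Φ_c • Q''` lies under `Q''` for the algebra structure
  `V` (the hypothesis `hQ` of `FibreInsep.restrict_mem_of_regChart`);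
* (sub) `restrictAlong_mem_of_cZero(_of_isIntegral)`, `restrictAlong_mem_of_cInf(_of_isIntegral)` :
  the tube of a regular chart of `cZero` at `Q''` (built along `β₂`) is mapped by `restrictAlong α₂`
  into the tube of `et` at `Φ_c • Q''`, given only: no poles of `α₂ y` (`y` in a chart ring `R'` of
  `et`) on it — e.g. `α₂ y` integral over the chart ring upstairs — and the `IsRedOf`
  characterisation of the tube downstairs.

Consumers: `haveI := Fermat.Agent.BR.ResGen.charP_kB B hB; haveI := Fermat.Agent.BR2.ResInst.perfectField_res B`.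
-/
import Mathlib
import Fermat.Agent.BR3.CoverK.FibreInsepAlong
import Fermat.Agent.BR3.CoverK.OfConstRed
import Fermat.Agent.BR3.CZeroRes
import Fermat.Agent.Hecke.FrobPlaces
import Fermat.Agent.BR2.LevelGen
import Fermat.Agent.BR2.ResInst
import Fermat.Agent.BR.S0.RedHyp
import Fermat.Agent.BR.ConstRedTwoFinal

set_option autoImplicit false
set_option linter.style.haveILetI false
set_option linter.unusedSectionVars false

noncomputable section

/- S36 build-time patch: file-local shortcut instances. They only shorten instance search;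
each is the instance that the search finds anyway (reducible, same terms after unfolding). -/
local instance (priority := 100000) Fermat.Agent.BR3.FastInst.instAlgFullC_CoverK_FibreInsepMod
    {k : Type*} [Field k] (N : ℕ) :
    Algebra k ↥(ModularCurve.modularFunctionFieldFullC k N) := inferInstance
local instance (priority := 100000) Fermat.Agent.BR3.FastInst.instFieldFullC_CoverK_FibreInsepMod
    {k : Type*} [Field k] (N : ℕ) :
    Field ↥(ModularCurve.modularFunctionFieldFullC k N) := inferInstance
local instance (priority := 100000) Fermat.Agent.BR3.FastInst.instAlgLaurent_CoverK_FibreInsepMod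
    {k : Type*} [Field k] : Algebra k (LaurentSeries k) := inferInstance


set_option synthInstance.maxHeartbeats 400000

namespace Fermat.Agent.BR3.CoverK.FibreInsepMod

open ModularCurve AlgebraicCurve HahnSeries Fermat.Agent.X0 Fermat.Agent.Val Fermat.Agent.Red
open Fermat.Agent.Hecke Fermat.Agent.Hecke.AL Fermat.Agent.BR.TwoVal Fermat.Agent.BR.ResGen
open Fermat.Agent.BR.TwoValInst Fermat.Agent.BR.ConstRedTwo Fermat.Agent.BR.S0
open Fermat.Agent.BR3.FibreProd Fermat.Agent.BR3.ALSq Fermat.Agent.BR3.CZero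
open Fermat.Agent.BR3.CInfRes Fermat.Agent.BR3.CZeroRes Fermat.Agent.BR3.CoverK
open Fermat.Agent.BR3.CoverK.FibreInsep Fermat.Agent.BR3.CoverK.FibreInsepAlong
  Fermat.Agent.BR3.CoverPlaces Fermat.Agent.BR2.LevelGen Fermat.Agent.BR3.SDD.Partition
  Fermat.Agent.BR.Centre

variable {M q : ℕ} [NeZero M] [hq : Fact q.Prime]
variable (B : ValuationSubring (AlgebraicClosure ℚ)) (hB : B.LiesOverPrime q) (hqM : ¬ q ∣ M)

local notation "kB" => IsLocalRing.ResidueField B
local notation "FtM" => modularFunctionFieldFullC (IsLocalRing.ResidueField B) M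

variable [CharP (IsLocalRing.ResidueField B) q] [PerfectField (IsLocalRing.ResidueField B)]

/-- The point of the component downstairs under a point of a purely inseparable horizontal
component: the image under the coefficientwise Frobenius. -/
def underFrob (Q'' : Place kB FtM) : Place kB FtM :=
  frobAutFullC kB M q • Q''

omit hq in
theorem underFrob_def [Fact q.Prime] (Q'' : Place kB FtM) :
    underFrob B (q := q) Q'' = frobAutFullC kB M q • Q'' := rfl

/-- `ord_{Q''} (V g) = q · ord_{Φ_c • Q''} g`. -/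
theorem ord_qExpandFullC_underFrob (Q'' : Place kB FtM) (g : FtM) :
    Q''.ord (qExpandFullC kB M q g) = (q : ℤ) * (underFrob B (q := q) Q'').ord g :=
  ord_qExpandFullC kB M q Q'' g

/-- The relative Frobenius fixes the constants. -/
theorem qExpandFullC_algebraMap (c : kB) :
    qExpandFullC kB M q (algebraMap kB FtM c) = algebraMap kB FtM c := by
  apply Subtype.ext
  rw [coe_qExpandFullC]
  show qExpand kB q (algebraMap kB (LaurentSeries kB) c) = algebraMap kB (LaurentSeries kB) c
  rw [algebraMap_laurentSeries_eq_single, qExpand_single, mul_zero]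

/-- **`Φ_c • Q''` lies under `Q''`** for the algebra structure `V` on `F̃_M`. -/
theorem liesUnder_frob (Q'' : Place kB FtM) :
    letI : Algebra FtM FtM := (qExpandFullC kB M q).toAlgebra
    LiesUnder Q'' (underFrob B (q := q) Q'') := by
  letI : Algebra FtM FtM := (qExpandFullC kB M q).toAlgebra
  intro g c h
  have h1 : algebraMap FtM FtM g = qExpandFullC kB M q g := rfl
  unfold IsValueAt at h ⊢
  rw [h1, ← qExpandFullC_algebraMap B (q := q) c, ← map_sub, adicValuation_lt_one_iff] at h
  rw [adicValuation_lt_one_iff]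
  rcases h with h | h
  · left
    exact (map_eq_zero_iff _ (qExpandFullC kB M q).injective).mp h
  · right
    rw [ord_qExpandFullC_underFrob] at h
    have hq0 : (0 : ℤ) < q := by exact_mod_cast hq.out.pos
    exact (mul_pos_iff_of_pos_left hq0).mp h

/-- The point of a purely inseparable horizontal component over a point downstairs. -/
def overFrob (Q' : Place kB FtM) : Place kB FtM :=
  (frobAutFullC kB M q)⁻¹ • Q'

omit hq in
@[simp] theorem underFrob_overFrob [Fact q.Prime] (Q' : Place kB FtM) :
    underFrob B (q := q) (overFrob B (q := q) Q') = Q' :=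
  smul_inv_smul _ _

omit hq in
@[simp] theorem overFrob_underFrob [Fact q.Prime] (Q'' : Place kB FtM) :
    overFrob B (q := q) (underFrob B (q := q) Q'') = Q'' :=
  inv_smul_smul _ _

omit hq in
theorem underFrob_injective [Fact q.Prime] :
    Function.Injective (underFrob B (M := M) (q := q)) :=
  Function.LeftInverse.injective (overFrob_underFrob B)

omit hq in
theorem underFrob_surjective [Fact q.Prime] :
    Function.Surjective (underFrob B (M := M) (q := q)) :=
  fun Q' => ⟨overFrob B Q', underFrob_overFrob B Q'⟩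

/-- `liesUnder_frob`, unfolded (the hypothesis `hQ` of
`FibreInsepAlong.restrictAlong_mem_of_regChart`). -/
theorem isValueAt_underFrob (Q'' : Place kB FtM) (g : FtM) (c : kB)
    (h : IsValueAt Q'' (qExpandFullC kB M q g) c) : IsValueAt (underFrob B (q := q) Q'') g c :=
  liesUnder_frob B Q'' g c h

/-! ### `cZero` over `et` along `α₂` -/

section Zero

/-- (`hO`) `α₂` maps the valuation ring of `et` into the valuation ring of `cZero`. -/
theorem alpha2_mem_cZero : ∀ y ∈ (constRedW2 B hB hqM).O,
    alpha2 M q y ∈ (constRedCZero B hB hqM).O := by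
  intro y hy
  rw [constRedW2_O] at hy
  rw [constRedCZero_O]
  exact (alpha2_mem_cZero_iff B hB hqM y).2 hy

/-- (`hresmap`) the residue embedding of `cZero` over `et` along `α₂` is the relative Frobenius
`V = qExpandFullC`. -/
theorem res_cZero_alpha2 (y : Fb (M * q)) (hy : y ∈ (constRedW2 B hB hqM).O) :
    (constRedCZero B hB hqM).res ⟨alpha2 M q y, alpha2_mem_cZero B hB hqM y hy⟩ =
      qExpandFullC kB M q ((constRedW2 B hB hqM).res ⟨y, hy⟩) := by
  apply Subtype.ext
  have hy' : y ∈ O2 B hB hqM := by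
    rw [constRedW2_O] at hy
    exact hy
  refine (coe_resZ_alpha2 B hB hqM y hy').trans ?_
  rw [coe_qExpandFullC]
  exact congrArg (qExpand kB q) (coe_constRedW2_res B hB hqM ⟨y, hy'⟩).symm

variable {T' : Set (Place Kb (Fb (M * q)))} {T'' : Set (Place Kb (Fb (M * q * q)))}

/-- (`he`) the ramification index of `Q''` over `Φ_c • Q''` is `q = [F'' : F']`. -/
theorem ord_res_t_cZero (Q'' : Place kB FtM)
    (C' : SmoothChart B (constRedW2 B hB hqM).O (constRedW2 B hB hqM).res
      (underFrob B (q := q) Q'') T') :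
    Q''.ord (qExpandFullC kB M q ((constRedW2 B hB hqM).res ⟨C'.t, C'.le _ C'.t_mem⟩)) =
      (finrankAlong Kb (alpha2 M q) : ℤ) := by
  rw [finrankAlong_alpha2]
  refine (ord_qExpandFullC_underFrob B Q'' _).trans ?_
  rw [C'.ord_res_t, mul_one]

/-- **(exh) for `cZero` over `et` along `α₂`**: the tube of a smooth chart of `cZero` at `Q''` lying
over the tube of a smooth chart of `et` at the point `Φ_c • Q''` under it contains EVERY place over
that tube. -/
theorem mem_tube_cZero (Q'' : Place kB FtM)
    (C' : SmoothChart B (constRedW2 B hB hqM).O (constRedW2 B hB hqM).res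
      (underFrob B (q := q) Q'') T')
    (C'' : SmoothChart B (constRedCZero B hB hqM).O (constRedCZero B hB hqM).res Q'' T'')
    (hsub : ∀ P ∈ T'', P.restrictAlong (alpha2 M q) (isIntegral_fb (alpha2 M q)) ∈ T')
    {P'' : Place Kb (Fb (M * q * q))}
    (hP : P''.restrictAlong (alpha2 M q) (isIntegral_fb (alpha2 M q)) ∈ T') : P'' ∈ T'' :=
  mem_of_insep_along (alpha2 M q) (isIntegral_fb (alpha2 M q))
    (fundamentalIdentityAlong_fb (alpha2 M q)) (qExpandFullC kB M q) C'
    (constHyp_of_constRed (constRedW2 B hB hqM)) C''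
    (constHyp_of_constRed (constRedCZero B hB hqM)) (alpha2_mem_cZero B hB hqM)
    (res_cZero_alpha2 B hB hqM) (ord_res_t_cZero B hB hqM Q'' C') hsub
    (fun P => RedHyp.place_deg_eq_one P) (fun P => RedHyp.place_deg_eq_one P) hP

/-- The same with the point downstairs given: `Φ_c • Q'' = Q'` (e.g. `Q'' = overFrob B Q'` and
`underFrob_overFrob`). -/
theorem mem_tube_cZero_of_eq {Q' Q'' : Place kB FtM} (hQ : underFrob B (q := q) Q'' = Q')
    (C' : SmoothChart B (constRedW2 B hB hqM).O (constRedW2 B hB hqM).res Q' T')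
    (C'' : SmoothChart B (constRedCZero B hB hqM).O (constRedCZero B hB hqM).res Q'' T'')
    (hsub : ∀ P ∈ T'', P.restrictAlong (alpha2 M q) (isIntegral_fb (alpha2 M q)) ∈ T')
    {P'' : Place Kb (Fb (M * q * q))}
    (hP : P''.restrictAlong (alpha2 M q) (isIntegral_fb (alpha2 M q)) ∈ T') : P'' ∈ T'' := by
  subst hQ
  exact mem_tube_cZero B hB hqM Q'' C' C'' hsub hP

/-- The tube of `cZero` at `Q''` is the full preimage along `α₂` of the tube of `et` at
`Φ_c • Q''`. -/
theorem tube_cZero_eq_preimage (Q'' : Place kB FtM)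
    (C' : SmoothChart B (constRedW2 B hB hqM).O (constRedW2 B hB hqM).res
      (underFrob B (q := q) Q'') T')
    (C'' : SmoothChart B (constRedCZero B hB hqM).O (constRedCZero B hB hqM).res Q'' T'')
    (hsub : ∀ P ∈ T'', P.restrictAlong (alpha2 M q) (isIntegral_fb (alpha2 M q)) ∈ T') :
    T'' = {P'' | P''.restrictAlong (alpha2 M q) (isIntegral_fb (alpha2 M q)) ∈ T'} :=
  eq_preimage_of_insep_along (alpha2 M q) (isIntegral_fb (alpha2 M q))
    (fundamentalIdentityAlong_fb (alpha2 M q)) (qExpandFullC kB M q) C'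
    (constHyp_of_constRed (constRedW2 B hB hqM)) C''
    (constHyp_of_constRed (constRedCZero B hB hqM)) (alpha2_mem_cZero B hB hqM)
    (res_cZero_alpha2 B hB hqM) (ord_res_t_cZero B hB hqM Q'' C') hsub
    (fun P => RedHyp.place_deg_eq_one P) (fun P => RedHyp.place_deg_eq_one P)

/-- **The fibre of a point of `et` along `α₂`** in the shape `SDD.Partition.FibreOver`: the ONE
point `x` (`= ⟨cZero, Q''⟩`) whose tube carries a smooth chart of `cZero` at `Q''`. -/
theorem fibreOver_cZero {ι₀ : Type*} {Ft₀ : ι₀ → Type*} [∀ v, Field (Ft₀ v)]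
    [∀ v, Algebra kB (Ft₀ v)] {ν₀ : Type*}
    (S₀ : Fermat.Agent.BR.SS.SemistableSetup (F := Fb (M * q)) B (IsLocalRing.residue B) ι₀ Ft₀ ν₀)
    {β'' : Type*} (tube'' : β'' → Set (Place Kb (Fb (M * q * q))))
    (y' : Σ v, Place kB (Ft₀ v)) (x : β'') (Q'' : Place kB FtM)
    (C' : SmoothChart B (constRedW2 B hB hqM).O (constRedW2 B hB hqM).res
      (underFrob B (q := q) Q'') {P | S₀.r P = y'})
    (C'' : SmoothChart B (constRedCZero B hB hqM).O (constRedCZero B hB hqM).res Q'' (tube'' x))
    (hsub : ∀ P ∈ tube'' x,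
      S₀.r (P.restrictAlong (alpha2 M q) (isIntegral_fb (alpha2 M q))) = y') :
    FibreOver S₀ (fun P => P.restrictAlong (alpha2 M q) (isIntegral_fb (alpha2 M q))) tube'' y'
      {x} :=
  fibreOver_of_insep_along S₀ tube'' (alpha2 M q) (isIntegral_fb (alpha2 M q))
    (fundamentalIdentityAlong_fb (alpha2 M q)) (qExpandFullC kB M q) y' x C'
    (constHyp_of_constRed (constRedW2 B hB hqM)) C''
    (constHyp_of_constRed (constRedCZero B hB hqM)) (alpha2_mem_cZero B hB hqM)
    (res_cZero_alpha2 B hB hqM) (ord_res_t_cZero B hB hqM Q'' C') hsub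
    (fun P => RedHyp.place_deg_eq_one P) (fun P => RedHyp.place_deg_eq_one P)

/-- **(sub) for `cZero` over `et` along `α₂`**: the tube of a regular chart of `cZero` at `Q''`
(however built, e.g. along `β₂`) is mapped by `restrictAlong α₂` into the tube of `et` at
`Φ_c • Q''`, as soon as the functions `α₂ y`, `y` in a chart ring `R'` of `et`, have no poles on it
and the tube of `et` contains every place whose reduction tested on `R'` is `Φ_c • Q''`. -/
theorem restrictAlong_mem_of_cZero (Q'' : Place kB FtM)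
    (C'' : RegChart B (constRedCZero B hB hqM).O (constRedCZero B hB hqM).res Q'' T'')
    {R' : Subring (Fb (M * q))} (hR' : R' ≤ (constRedW2 B hB hqM).O.toSubring)
    (hpole : ∀ y ∈ R', ∀ P ∈ T'', 0 ≤ P.ord (alpha2 M q y))
    (hT' : ∀ P' : Place Kb (Fb (M * q)),
      IsRedOf B (IsLocalRing.residue B) R' (constRedW2 B hB hqM).O (constRedW2 B hB hqM).res hR' P'
        (underFrob B (q := q) Q'') → P' ∈ T')
    {P'' : Place Kb (Fb (M * q * q))} (hP : P'' ∈ T'') :
    P''.restrictAlong (alpha2 M q) (isIntegral_fb (alpha2 M q)) ∈ T' :=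
  restrictAlong_mem_of_regChart (alpha2 M q) (isIntegral_fb (alpha2 M q)) (qExpandFullC kB M q)
    C'' (constHyp_of_constRed (constRedCZero B hB hqM)) hR' (alpha2_mem_cZero B hB hqM)
    (res_cZero_alpha2 B hB hqM) hpole (isValueAt_underFrob B Q'') hT' hP

/-- **(sub) for `cZero` over `et` along `α₂`**, integrality form. -/
theorem restrictAlong_mem_of_cZero_of_isIntegral (Q'' : Place kB FtM)
    (C'' : RegChart B (constRedCZero B hB hqM).O (constRedCZero B hB hqM).res Q'' T'')
    {R' : Subring (Fb (M * q))} (hR' : R' ≤ (constRedW2 B hB hqM).O.toSubring)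
    (hint : ∀ y ∈ R', IsIntegral C''.chart.R (alpha2 M q y))
    (hT' : ∀ P' : Place Kb (Fb (M * q)),
      IsRedOf B (IsLocalRing.residue B) R' (constRedW2 B hB hqM).O (constRedW2 B hB hqM).res hR' P'
        (underFrob B (q := q) Q'') → P' ∈ T')
    {P'' : Place Kb (Fb (M * q * q))} (hP : P'' ∈ T'') :
    P''.restrictAlong (alpha2 M q) (isIntegral_fb (alpha2 M q)) ∈ T' :=
  restrictAlong_mem_of_isIntegral (alpha2 M q) (isIntegral_fb (alpha2 M q)) (qExpandFullC kB M q)
    C'' (constHyp_of_constRed (constRedCZero B hB hqM)) hR' (alpha2_mem_cZero B hB hqM)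
    (res_cZero_alpha2 B hB hqM) hint (isValueAt_underFrob B Q'') hT' hP

end Zero

/-! ### `cInf` over `can` along `β₂` -/

section Inf

/-- (`hO`) `β₂` maps the valuation ring of `can` into the valuation ring of `cInf`. -/
theorem beta2_mem_cInf : ∀ y ∈ (constRedW1 B hB hqM).O,
    beta2 M q y ∈ (constRedCInf B hB hqM).O := by
  intro y hy
  rw [constRedW1_O] at hy
  rw [constRedCInf_O]
  exact (beta2_mem_w1_iff B hB y).2 hy

/-- (`hresmap`) the residue embedding of `cInf` over `can` along `β₂` is the relative Frobenius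
`V = qExpandFullC`. -/
theorem res_cInf_beta2 (y : Fb (M * q)) (hy : y ∈ (constRedW1 B hB hqM).O) :
    (constRedCInf B hB hqM).res ⟨beta2 M q y, beta2_mem_cInf B hB hqM y hy⟩ =
      qExpandFullC kB M q ((constRedW1 B hB hqM).res ⟨y, hy⟩) := by
  apply Subtype.ext
  have hy' : y ∈ O1 M B hB := by
    rw [constRedW1_O] at hy
    exact hy
  refine (coe_resInf B hB hqM _).trans ?_
  refine (resw1_beta2 B hB y hy').trans ?_
  rw [coe_qExpandFullC]
  exact congrArg (qExpand kB q) (coe_constRedW1_res B hB hqM ⟨y, hy'⟩).symm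

variable {T' : Set (Place Kb (Fb (M * q)))} {T'' : Set (Place Kb (Fb (M * q * q)))}

/-- (`he`) the ramification index of `Q''` over `Φ_c • Q''` is `q = [F'' : F']`. -/
theorem ord_res_t_cInf (Q'' : Place kB FtM)
    (C' : SmoothChart B (constRedW1 B hB hqM).O (constRedW1 B hB hqM).res
      (underFrob B (q := q) Q'') T') :
    Q''.ord (qExpandFullC kB M q ((constRedW1 B hB hqM).res ⟨C'.t, C'.le _ C'.t_mem⟩)) =
      (finrankAlong Kb (beta2 M q) : ℤ) := by
  rw [finrankAlong_beta2]
  refine (ord_qExpandFullC_underFrob B Q'' _).trans ?_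
  rw [C'.ord_res_t, mul_one]

/-- **(exh) for `cInf` over `can` along `β₂`** (the mirror statement). -/
theorem mem_tube_cInf (Q'' : Place kB FtM)
    (C' : SmoothChart B (constRedW1 B hB hqM).O (constRedW1 B hB hqM).res
      (underFrob B (q := q) Q'') T')
    (C'' : SmoothChart B (constRedCInf B hB hqM).O (constRedCInf B hB hqM).res Q'' T'')
    (hsub : ∀ P ∈ T'', P.restrictAlong (beta2 M q) (isIntegral_fb (beta2 M q)) ∈ T')
    {P'' : Place Kb (Fb (M * q * q))}
    (hP : P''.restrictAlong (beta2 M q) (isIntegral_fb (beta2 M q)) ∈ T') : P'' ∈ T'' :=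
  mem_of_insep_along (beta2 M q) (isIntegral_fb (beta2 M q))
    (fundamentalIdentityAlong_fb (beta2 M q)) (qExpandFullC kB M q) C'
    (constHyp_of_constRed (constRedW1 B hB hqM)) C''
    (constHyp_of_constRed (constRedCInf B hB hqM)) (beta2_mem_cInf B hB hqM)
    (res_cInf_beta2 B hB hqM) (ord_res_t_cInf B hB hqM Q'' C') hsub
    (fun P => RedHyp.place_deg_eq_one P) (fun P => RedHyp.place_deg_eq_one P) hP

/-- The same with the point downstairs given: `Φ_c • Q'' = Q'`. -/
theorem mem_tube_cInf_of_eq {Q' Q'' : Place kB FtM} (hQ : underFrob B (q := q) Q'' = Q')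
    (C' : SmoothChart B (constRedW1 B hB hqM).O (constRedW1 B hB hqM).res Q' T')
    (C'' : SmoothChart B (constRedCInf B hB hqM).O (constRedCInf B hB hqM).res Q'' T'')
    (hsub : ∀ P ∈ T'', P.restrictAlong (beta2 M q) (isIntegral_fb (beta2 M q)) ∈ T')
    {P'' : Place Kb (Fb (M * q * q))}
    (hP : P''.restrictAlong (beta2 M q) (isIntegral_fb (beta2 M q)) ∈ T') : P'' ∈ T'' := by
  subst hQ
  exact mem_tube_cInf B hB hqM Q'' C' C'' hsub hP

/-- The tube of `cInf` at `Q''` is the full preimage along `β₂` of the tube of `can` at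
`Φ_c • Q''`. -/
theorem tube_cInf_eq_preimage (Q'' : Place kB FtM)
    (C' : SmoothChart B (constRedW1 B hB hqM).O (constRedW1 B hB hqM).res
      (underFrob B (q := q) Q'') T')
    (C'' : SmoothChart B (constRedCInf B hB hqM).O (constRedCInf B hB hqM).res Q'' T'')
    (hsub : ∀ P ∈ T'', P.restrictAlong (beta2 M q) (isIntegral_fb (beta2 M q)) ∈ T') :
    T'' = {P'' | P''.restrictAlong (beta2 M q) (isIntegral_fb (beta2 M q)) ∈ T'} :=
  eq_preimage_of_insep_along (beta2 M q) (isIntegral_fb (beta2 M q))
    (fundamentalIdentityAlong_fb (beta2 M q)) (qExpandFullC kB M q) C'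
    (constHyp_of_constRed (constRedW1 B hB hqM)) C''
    (constHyp_of_constRed (constRedCInf B hB hqM)) (beta2_mem_cInf B hB hqM)
    (res_cInf_beta2 B hB hqM) (ord_res_t_cInf B hB hqM Q'' C') hsub
    (fun P => RedHyp.place_deg_eq_one P) (fun P => RedHyp.place_deg_eq_one P)

/-- **The fibre of a point of `can` along `β₂`** in the shape `SDD.Partition.FibreOver`. -/
theorem fibreOver_cInf {ι₀ : Type*} {Ft₀ : ι₀ → Type*} [∀ v, Field (Ft₀ v)]
    [∀ v, Algebra kB (Ft₀ v)] {ν₀ : Type*}
    (S₀ : Fermat.Agent.BR.SS.SemistableSetup (F := Fb (M * q)) B (IsLocalRing.residue B) ι₀ Ft₀ ν₀)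
    {β'' : Type*} (tube'' : β'' → Set (Place Kb (Fb (M * q * q))))
    (y' : Σ v, Place kB (Ft₀ v)) (x : β'') (Q'' : Place kB FtM)
    (C' : SmoothChart B (constRedW1 B hB hqM).O (constRedW1 B hB hqM).res
      (underFrob B (q := q) Q'') {P | S₀.r P = y'})
    (C'' : SmoothChart B (constRedCInf B hB hqM).O (constRedCInf B hB hqM).res Q'' (tube'' x))
    (hsub : ∀ P ∈ tube'' x,
      S₀.r (P.restrictAlong (beta2 M q) (isIntegral_fb (beta2 M q))) = y') :
    FibreOver S₀ (fun P => P.restrictAlong (beta2 M q) (isIntegral_fb (beta2 M q))) tube'' y'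
      {x} :=
  fibreOver_of_insep_along S₀ tube'' (beta2 M q) (isIntegral_fb (beta2 M q))
    (fundamentalIdentityAlong_fb (beta2 M q)) (qExpandFullC kB M q) y' x C'
    (constHyp_of_constRed (constRedW1 B hB hqM)) C''
    (constHyp_of_constRed (constRedCInf B hB hqM)) (beta2_mem_cInf B hB hqM)
    (res_cInf_beta2 B hB hqM) (ord_res_t_cInf B hB hqM Q'' C') hsub
    (fun P => RedHyp.place_deg_eq_one P) (fun P => RedHyp.place_deg_eq_one P)

/-- **(sub) for `cInf` over `can` along `β₂`** (the mirror statement). -/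
theorem restrictAlong_mem_of_cInf (Q'' : Place kB FtM)
    (C'' : RegChart B (constRedCInf B hB hqM).O (constRedCInf B hB hqM).res Q'' T'')
    {R' : Subring (Fb (M * q))} (hR' : R' ≤ (constRedW1 B hB hqM).O.toSubring)
    (hpole : ∀ y ∈ R', ∀ P ∈ T'', 0 ≤ P.ord (beta2 M q y))
    (hT' : ∀ P' : Place Kb (Fb (M * q)),
      IsRedOf B (IsLocalRing.residue B) R' (constRedW1 B hB hqM).O (constRedW1 B hB hqM).res hR' P'
        (underFrob B (q := q) Q'') → P' ∈ T')
    {P'' : Place Kb (Fb (M * q * q))} (hP : P'' ∈ T'') :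
    P''.restrictAlong (beta2 M q) (isIntegral_fb (beta2 M q)) ∈ T' :=
  restrictAlong_mem_of_regChart (beta2 M q) (isIntegral_fb (beta2 M q)) (qExpandFullC kB M q)
    C'' (constHyp_of_constRed (constRedCInf B hB hqM)) hR' (beta2_mem_cInf B hB hqM)
    (res_cInf_beta2 B hB hqM) hpole (isValueAt_underFrob B Q'') hT' hP

/-- **(sub) for `cInf` over `can` along `β₂`**, integrality form. -/
theorem restrictAlong_mem_of_cInf_of_isIntegral (Q'' : Place kB FtM)
    (C'' : RegChart B (constRedCInf B hB hqM).O (constRedCInf B hB hqM).res Q'' T'')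
    {R' : Subring (Fb (M * q))} (hR' : R' ≤ (constRedW1 B hB hqM).O.toSubring)
    (hint : ∀ y ∈ R', IsIntegral C''.chart.R (beta2 M q y))
    (hT' : ∀ P' : Place Kb (Fb (M * q)),
      IsRedOf B (IsLocalRing.residue B) R' (constRedW1 B hB hqM).O (constRedW1 B hB hqM).res hR' P'
        (underFrob B (q := q) Q'') → P' ∈ T')
    {P'' : Place Kb (Fb (M * q * q))} (hP : P'' ∈ T'') :
    P''.restrictAlong (beta2 M q) (isIntegral_fb (beta2 M q)) ∈ T' :=
  restrictAlong_mem_of_isIntegral (beta2 M q) (isIntegral_fb (beta2 M q)) (qExpandFullC kB M q)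
    C'' (constHyp_of_constRed (constRedCInf B hB hqM)) hR' (beta2_mem_cInf B hB hqM)
    (res_cInf_beta2 B hB hqM) hint (isValueAt_underFrob B Q'') hT' hP

end Inf

end Fermat.Agent.BR3.CoverK.FibreInsepMod
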