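import Mathlib
import Fermat.Agent.BR3.CoverK.Defs

/-!
# Program C, node A6-K: sheets of full residue degree (`ψ = Ψ`, `ψc = 1`)

When the residue extension at the component has full degree `f = deg Ψ` (the case of the vertical
component `z e` over the circle of an annulus: `Ψ̄ = vertBar` is irreducible of degree `q`), the
factorisation data of a `CoverSheet` is trivial: `ψ = Ψ`, `ψc = 1`, defect `0`.

* `indep_of_natDegree_le_minpoly` : the independence field `indep` from
  `deg ψ ≤ deg (minpoly Ft' θ̄)`;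
* `CoverSheet.ofFull` : the sheet from the remaining fields.
-/

set_option autoImplicit false

namespace Fermat.Agent.BR3.CoverK

open AlgebraicCurve Polynomial Fermat.Agent.Red Fermat.Agent.BR.Centre Fermat.Agent.BR.S0

/-- The first `n ≤ deg (minpoly)` powers of an integral element are linearly independent, in the
form of the field `indep` of a `CoverSheet`. -/
theorem indep_of_natDegree_le_minpoly {Ft' Ft'' : Type*} [Field Ft'] [Field Ft''] [Algebra Ft' Ft'']
    {x : Ft''} (hx : IsIntegral Ft' x) {n : ℕ} (hn : n ≤ (minpoly Ft' x).natDegree)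
    (c : Fin n → Ft') (hc : ∑ l, algebraMap Ft' Ft'' (c l) * x ^ (l : ℕ) = 0) : c = 0 := by
  have _h := hx
  have hli : LinearIndependent Ft' fun i : Fin (minpoly Ft' x).natDegree => x ^ (i : ℕ) :=
    linearIndependent_pow x
  have hli' : LinearIndependent Ft' fun i : Fin n => x ^ (i : ℕ) := by
    have := hli.comp (Fin.castLE hn) (Fin.castLE_injective hn)
    exact this
  have hsum : ∑ l, c l • x ^ (l : ℕ) = 0 := by
    rw [← hc]
    exact Finset.sum_congr rfl fun l _ => Algebra.smul_def _ _
  funext l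
  exact (Fintype.linearIndependent_iff.mp hli') c hsum l

variable {K k : Type*} [Field K] [Field k]
  {F' : Type*} [Field F'] [Algebra K F'] {Ft' : Type*} [Field Ft'] [Algebra k Ft']
  {F'' : Type*} [Field F''] [Algebra K F''] [Algebra F' F''] [IsScalarTower K F' F'']
  {Ft'' : Type*} [Field Ft''] [Algebra k Ft''] [Algebra Ft' Ft''] [IsScalarTower k Ft' Ft'']
  {A : ValuationSubring K} {π : A →+* k}
  {O' : ValuationSubring F'} {res' : O' →+* Ft'} {Q' : Place k Ft'}
  {O'' : ValuationSubring F''} {res'' : O'' →+* Ft''} {Q'' : Place k Ft''}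
  {θ : F''} {Ψ : F'[X]} {u : A}

/-- **A sheet of full residue degree**: `ψ = Ψ`, `ψc = 1`. -/
theorem CoverSheet.ofFull {R' : Subring F'}
    (comap_eq : O''.comap (algebraMap F' F'') = O')
    (res_map : ∀ (y : F') (hy : y ∈ O') (hy' : algebraMap F' F'' y ∈ O''),
      res'' ⟨algebraMap F' F'' y, hy'⟩ = algebraMap Ft' Ft'' (res' ⟨y, hy⟩))
    (res_eq_zero_iff : ∀ x : O'', res'' x = 0 ↔ (x : F'') ∈ O''.nonunits)
    (ord_map : ∀ f : Ft', Q''.ord (algebraMap Ft' Ft'' f) = Q'.ord f)
    (θ_mem : θ ∈ O'') (monic : Ψ.Monic) (irreducible : Irreducible Ψ)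
    (coeff_mem : ∀ n, Ψ.coeff n ∈ R') (root : aeval θ Ψ = 0)
    (gen : ∀ y : F'', ∃ p : F'[X], aeval θ p = y)
    (value : IsValueAt Q'' (res'' ⟨θ, θ_mem⟩) (π u))
    (simple : ∀ h : aeval θ (derivative Ψ) ∈ O'',
      ¬ Q''.adicValuation (res'' ⟨aeval θ (derivative Ψ), h⟩) < 1)
    (indep : ∀ c : Fin Ψ.natDegree → Ft',
      ∑ l, algebraMap Ft' Ft'' (c l) * res'' ⟨θ, θ_mem⟩ ^ (l : ℕ) = 0 → c = 0) :
    CoverSheet A π O' res' Q' O'' res'' Q'' R' θ Ψ Ψ 1 u where
  comap_eq := comap_eq
  res_map := res_map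
  res_eq_zero_iff := res_eq_zero_iff
  ord_map := ord_map
  θ_mem := θ_mem
  monic := monic
  irreducible := irreducible
  coeff_mem := coeff_mem
  root := root
  gen := gen
  value := value
  simple := simple
  ψ_monic := monic
  ψc_monic := monic_one
  ψ_coeff_mem := coeff_mem
  ψc_coeff_mem := fun n => by
    rw [coeff_one]
    split_ifs
    · exact R'.one_mem
    · exact R'.zero_mem
  factor := fun n => by
    rw [mul_one, sub_self, coeff_zero, ValuationSubring.mem_nonunits_iff, map_zero]
    exact zero_lt_one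
  ψc_unit := fun h => by
    have e : (⟨aeval θ (1 : F'[X]), h⟩ : O'') = 1 := Subtype.ext (map_one (aeval θ))
    rw [e, map_one, map_one]
    exact lt_irrefl _
  indep := indep

end Fermat.Agent.BR3.CoverK
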