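/-
Program C (S36), node A6-K / (SC3)-(SC4) (helper4): a cover sheet of residue degree `f > 1` from the
minimal polynomial of the residue of the generator (the twin of `CoverK/OfLift`, which is `f = 1`).

`θ̄ = res'' θ` is a root of the reduction `Ψ̄` of `Ψ` (coefficients in the chart ring `R' ≤ O'`).
Let `μ = minpoly Ft' θ̄` and `Ψ̄ = μ ν`. If the coefficients of `Ψ̄` are regular at `Q'` then so are
those of `μ` and `ν` (Gauss lemma over the DVR of `Q'`: `coeff_regular_of_dvd`); if every function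
regular at `Q'` lifts to the chart ring (`hlift`), `μ` and `ν` lift to monic `ψ, ψc ∈ R'[X]`, and
* `factor` : `Ψ - ψ ψc` reduces to `Ψ̄ - μ ν = 0`;
* `ψc_unit` : `Ψ̄'(θ̄) = μ'(θ̄) ν(θ̄)` is a unit at `Q''` (`simple`) and `μ'(θ̄)` is regular at `Q''`,
  so `ν(θ̄)` is a unit at `Q''`;
* `indep` : `deg ψ = deg μ` (`OfFull.indep_of_natDegree_le_minpoly`).
`exists_coverSheet_of_minpoly` : the easy fields + `hlift` + `hreg` give `∃ ψ ψc, CoverSheet …`.
-/
import Mathlib
import Fermat.Agent.BR3.CoverK.OfLift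
import Fermat.Agent.BR3.CoverK.OfFull

set_option autoImplicit false
set_option linter.unusedSectionVars false

namespace Fermat.Agent.BR3.CoverK.OfMinpoly

open AlgebraicCurve Polynomial Fermat.Agent.Red Fermat.Agent.X0 Fermat.Agent.BR.Centre
  Fermat.Agent.BR.S0 Fermat.Agent.BR3.CoverK.OfLift Fermat.Agent.BR3.GaussContractSub

section Gauss

variable {k Ft : Type*} [Field k] [Field Ft] [Algebra k Ft] (Q : Place k Ft)

/-- **Gauss lemma at a place.** A monic divisor of a monic polynomial whose coefficients are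
regular at `Q` has coefficients regular at `Q`. -/
theorem coeff_regular_of_dvd {p g : Ft[X]} (hp : p.Monic) (hg : g.Monic) (hdvd : g ∣ p)
    (hreg : ∀ n, 0 ≤ Q.ord (p.coeff n)) (n : ℕ) : 0 ≤ Q.ord (g.coeff n) := by
  have hpl : p ∈ lifts (algebraMap Q.toValuationSubring Ft) := by
    rw [lifts_iff_coeff_lifts]
    intro m
    exact ⟨⟨p.coeff m, (Place.mem_iff_ord_nonneg Q).2 (hreg m)⟩, rfl⟩
  obtain ⟨f, hf, -, hfm⟩ := lifts_and_degree_eq_and_monic hpl hp
  obtain ⟨g', hg'⟩ := IsIntegrallyClosed.eq_map_mul_C_of_dvd Ft hfm (g := g) (by rw [hf]; exact hdvd)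
  rw [hg.leadingCoeff, C_1, mul_one] at hg'
  rw [← hg', coeff_map]
  exact (Place.mem_iff_ord_nonneg Q).1 (g'.coeff n).2

end Gauss

variable {K k : Type*} [Field K] [Field k]
  {F' : Type*} [Field F'] [Algebra K F'] {Ft' : Type*} [Field Ft'] [Algebra k Ft']
  {F'' : Type*} [Field F''] [Algebra K F''] [Algebra F' F''] [IsScalarTower K F' F'']
  {Ft'' : Type*} [Field Ft''] [Algebra k Ft''] [Algebra Ft' Ft''] [IsScalarTower k Ft' Ft'']
  {A : ValuationSubring K} {π : A →+* k}
  {O' : ValuationSubring F'} {res' : O' →+* Ft'} {Q' : Place k Ft'}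
  {O'' : ValuationSubring F''} {res'' : O'' →+* Ft''} {Q'' : Place k Ft''}
  {R' : Subring F'} {θ : F''} {Ψ : F'[X]} {u : A}

/-- The reduction map on the chart ring `R' ≤ O'`. -/
def redR (res' : O' →+* Ft') (hR' : ∀ y ∈ R', y ∈ O') : R' →+* Ft' :=
  res'.comp (Subring.inclusion (show R' ≤ O'.toSubring from hR'))

theorem redR_apply (hR' : ∀ y ∈ R', y ∈ O') (y : R') :
    redR res' hR' y = res' ⟨y, hR' y y.2⟩ := rfl

/-- The value at `θ` of a polynomial with coefficients in the chart ring is integral upstairs. -/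
theorem aeval_map_mem (hO : ∀ x : F', x ∈ O' → algebraMap F' F'' x ∈ O'')
    (hR' : ∀ y ∈ R', y ∈ O') (θ_mem : θ ∈ O'') (p : R'[X]) :
    aeval θ (p.map R'.subtype) ∈ O'' :=
  aeval_mem_of_coeff_mem hO θ_mem fun n => by
    rw [coeff_map]
    exact hR' _ (p.coeff n).2

/-- **Reduction commutes with evaluation**: for `p ∈ R'[X]`, the residue of `p(θ)` is the value at
`θ̄` of the reduced polynomial. -/
theorem res_aeval_map
    (comap_eq : O''.comap (algebraMap F' F'') = O')
    (res_map : ∀ (y : F') (hy : y ∈ O') (hy' : algebraMap F' F'' y ∈ O''),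
      res'' ⟨algebraMap F' F'' y, hy'⟩ = algebraMap Ft' Ft'' (res' ⟨y, hy⟩))
    (hR' : ∀ y ∈ R', y ∈ O') (θ_mem : θ ∈ O'') (p : R'[X])
    (h : aeval θ (p.map R'.subtype) ∈ O'') :
    res'' ⟨aeval θ (p.map R'.subtype), h⟩ =
      aeval (res'' ⟨θ, θ_mem⟩) (p.map (redR res' hR')) := by
  have hO : ∀ x : F', x ∈ O' → algebraMap F' F'' x ∈ O'' := fun x hx => by
    have : x ∈ O''.comap (algebraMap F' F'') := by rw [comap_eq]; exact hx
    exact this
  let inc : R' →+* O'' := ((algebraMap F' F'').comp R'.subtype).codRestrict O''.toSubring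
    fun y => hO _ (hR' y y.2)
  have h1 : (⟨aeval θ (p.map R'.subtype), h⟩ : O'') = p.eval₂ inc ⟨θ, θ_mem⟩ := by
    apply Subtype.ext
    have e := Polynomial.hom_eval₂ p inc O''.subtype ⟨θ, θ_mem⟩
    show aeval θ (p.map R'.subtype) = O''.subtype (p.eval₂ inc ⟨θ, θ_mem⟩)
    rw [e, aeval_def, eval₂_map]
    rfl
  rw [h1, Polynomial.hom_eval₂, aeval_def, eval₂_map]
  congr 1
  ext y
  exact res_map _ (hR' y y.2) (hO _ (hR' y y.2))


/-- An element of `O'` whose residue vanishes is a non-unit (from the same fact upstairs). -/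
theorem mem_nonunits_of_res_eq_zero
    (comap_eq : O''.comap (algebraMap F' F'') = O')
    (res_map : ∀ (y : F') (hy : y ∈ O') (hy' : algebraMap F' F'' y ∈ O''),
      res'' ⟨algebraMap F' F'' y, hy'⟩ = algebraMap Ft' Ft'' (res' ⟨y, hy⟩))
    (res_eq_zero_iff : ∀ x : O'', res'' x = 0 ↔ (x : F'') ∈ O''.nonunits)
    {y : F'} (hy : y ∈ O') (h0 : res' ⟨y, hy⟩ = 0) : y ∈ O'.nonunits := by
  have hy' : algebraMap F' F'' y ∈ O'' := by
    have : y ∈ O''.comap (algebraMap F' F'') := by rw [comap_eq]; exact hy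
    exact this
  apply mem_nonunits_of_map comap_eq
  have h1 := res_map y hy hy'
  rw [h0, map_zero] at h1
  exact (res_eq_zero_iff _).mp h1

omit [IsScalarTower k Ft' Ft''] in
/-- The value at a function regular at `Q''` of a polynomial whose coefficients are regular at `Q'`
is regular at `Q''`. -/
theorem adicValuation_aeval_le_one
    (ord_map : ∀ f : Ft', Q''.ord (algebraMap Ft' Ft'' f) = Q'.ord f)
    {x : Ft''} (hx : x ∈ Q''.toValuationSubring) {p : Ft'[X]}
    (hp : ∀ n, 0 ≤ Q'.ord (p.coeff n)) : Q''.adicValuation (aeval x p) ≤ 1 := by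
  apply Q''.adicValuation_le_one_of_mem
  rw [aeval_eq_sum_range]
  refine Q''.toValuationSubring.toSubring.sum_mem fun i _ => ?_
  rw [Algebra.smul_def]
  refine Q''.toValuationSubring.mul_mem _ _ ?_ (Q''.toValuationSubring.toSubring.pow_mem hx i)
  rw [Place.mem_iff_ord_nonneg, ord_map]
  exact hp i

/-- **A cover sheet of residue degree `f ≥ 1` from the minimal polynomial of the residue of the
generator.** -/
theorem exists_coverSheet_of_minpoly
    (comap_eq : O''.comap (algebraMap F' F'') = O')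
    (res_map : ∀ (y : F') (hy : y ∈ O') (hy' : algebraMap F' F'' y ∈ O''),
      res'' ⟨algebraMap F' F'' y, hy'⟩ = algebraMap Ft' Ft'' (res' ⟨y, hy⟩))
    (res_eq_zero_iff : ∀ x : O'', res'' x = 0 ↔ (x : F'') ∈ O''.nonunits)
    (ord_map : ∀ f : Ft', Q''.ord (algebraMap Ft' Ft'' f) = Q'.ord f)
    (θ_mem : θ ∈ O'') (monic : Ψ.Monic) (irreducible : Irreducible Ψ)
    (coeff_mem : ∀ n, Ψ.coeff n ∈ R') (root : aeval θ Ψ = 0)
    (gen : ∀ y : F'', ∃ p : F'[X], aeval θ p = y)
    (value : IsValueAt Q'' (res'' ⟨θ, θ_mem⟩) (π u))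
    (simple : ∀ h : aeval θ (derivative Ψ) ∈ O'',
      ¬ Q''.adicValuation (res'' ⟨aeval θ (derivative Ψ), h⟩) < 1)
    (hR' : ∀ y ∈ R', y ∈ O')
    (hlift : ∀ f : Ft', 0 ≤ Q'.ord f → ∃ y ∈ R', ∃ hy : y ∈ O', res' ⟨y, hy⟩ = f)
    (hreg : ∀ n, 0 ≤ Q'.ord (res' ⟨Ψ.coeff n, hR' _ (coeff_mem n)⟩)) :
    ∃ ψ ψc : F'[X], CoverSheet A π O' res' Q' O'' res'' Q'' R' θ Ψ ψ ψc u ∧
      ψ.natDegree = (minpoly Ft' (res'' ⟨θ, θ_mem⟩)).natDegree := by
  have hO : ∀ x : F', x ∈ O' → algebraMap F' F'' x ∈ O'' := fun x hx => by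
    have : x ∈ O''.comap (algebraMap F' F'') := by rw [comap_eq]; exact hx
    exact this
  -- `Ψ` over the chart ring and its reduction
  obtain ⟨ΨR, hΨR⟩ : ∃ ΨR : R'[X], ΨR.map R'.subtype = Ψ :=
    ⟨Ψ.toSubring R' (IsSubPoly.coeffs_subset coeff_mem), Polynomial.map_toSubring _ _ _⟩
  have hsubinj : Function.Injective R'.subtype := Subtype.val_injective
  have hΨRm : ΨR.Monic := Polynomial.monic_of_injective hsubinj (by rw [hΨR]; exact monic)
  have hΨbm : (ΨR.map (redR res' hR')).Monic := hΨRm.map _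
  have hΨbcoeff : ∀ n, (ΨR.map (redR res' hR')).coeff n =
      res' ⟨Ψ.coeff n, hR' _ (coeff_mem n)⟩ := by
    intro n
    rw [coeff_map, redR_apply]
    congr 1
    apply Subtype.ext
    show ((ΨR.coeff n : R') : F') = Ψ.coeff n
    rw [← hΨR, coeff_map]
    rfl
  have hΨbreg : ∀ n, 0 ≤ Q'.ord ((ΨR.map (redR res' hR')).coeff n) := fun n => by
    rw [hΨbcoeff]
    exact hreg n
  -- `θ̄` is a root of the reduction
  have hmemR : ∀ p : R'[X], aeval θ (p.map R'.subtype) ∈ O'' := aeval_map_mem hO hR' θ_mem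
  have hrootb : aeval (res'' ⟨θ, θ_mem⟩) (ΨR.map (redR res' hR')) = 0 := by
    have h0 : aeval θ (ΨR.map R'.subtype) = 0 := by rw [hΨR]; exact root
    have h1 := res_aeval_map comap_eq res_map hR' θ_mem ΨR (hmemR ΨR)
    have e : (⟨aeval θ (ΨR.map R'.subtype), hmemR ΨR⟩ : O'') = 0 := Subtype.ext h0
    rw [e, map_zero] at h1
    exact h1.symm
  have hint : IsIntegral Ft' (res'' ⟨θ, θ_mem⟩) := ⟨_, hΨbm, by rw [← aeval_def]; exact hrootb⟩
  -- the factorisation `Ψ̄ = μ ν`
  have hμm : (minpoly Ft' (res'' ⟨θ, θ_mem⟩)).Monic := minpoly.monic hint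
  have hμdvd : minpoly Ft' (res'' ⟨θ, θ_mem⟩) ∣ ΨR.map (redR res' hR') :=
    minpoly.dvd Ft' _ hrootb
  obtain ⟨ν, hν⟩ := hμdvd
  have hνm : ν.Monic := hμm.of_mul_monic_left (by rw [← hν]; exact hΨbm)
  have hμreg := coeff_regular_of_dvd Q' hΨbm hμm ⟨ν, hν⟩ hΨbreg
  have hνreg := coeff_regular_of_dvd Q' hΨbm hνm ⟨_, by rw [hν, mul_comm]⟩ hΨbreg
  -- lifting monic polynomials with regular coefficients
  have hl : ∀ p : Ft'[X], p.Monic → (∀ n, 0 ≤ Q'.ord (p.coeff n)) →
      ∃ pR : R'[X], pR.map (redR res' hR') = p ∧ pR.Monic := by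
    intro p hpm hp
    have hpl : p ∈ lifts (redR res' hR') := by
      rw [lifts_iff_coeff_lifts]
      intro n
      obtain ⟨y, hy, hyO, hy'⟩ := hlift _ (hp n)
      exact ⟨⟨y, hy⟩, hy'⟩
    obtain ⟨pR, h1, -, h2⟩ := lifts_and_degree_eq_and_monic hpl hpm
    exact ⟨pR, h1, h2⟩
  obtain ⟨ψR, hψR, hψRm⟩ := hl _ hμm hμreg
  obtain ⟨ψcR, hψcR, hψcRm⟩ := hl _ hνm hνreg
  have hdeg : (ψR.map R'.subtype).natDegree = (minpoly Ft' (res'' ⟨θ, θ_mem⟩)).natDegree := by
    rw [hψRm.natDegree_map, ← hψR, hψRm.natDegree_map]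
  refine ⟨ψR.map R'.subtype, ψcR.map R'.subtype,
    { comap_eq := comap_eq
      res_map := res_map
      res_eq_zero_iff := res_eq_zero_iff
      ord_map := ord_map
      θ_mem := θ_mem
      monic := monic
      irreducible := irreducible
      coeff_mem := coeff_mem
      root := root
      gen := gen
      value := value
      simple := simple
      ψ_monic := hψRm.map _
      ψc_monic := hψcRm.map _
      ψ_coeff_mem := fun n => by rw [coeff_map]; exact (ψR.coeff n).2
      ψc_coeff_mem := fun n => by rw [coeff_map]; exact (ψcR.coeff n).2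
      factor := ?_
      ψc_unit := ?_
      indep := ?_ }, hdeg⟩
  · -- `factor`
    intro n
    have e1 : Ψ - ψR.map R'.subtype * ψcR.map R'.subtype = (ΨR - ψR * ψcR).map R'.subtype := by
      rw [Polynomial.map_sub, Polynomial.map_mul, hΨR]
    have e2 : (ΨR - ψR * ψcR).map (redR res' hR') = 0 := by
      rw [Polynomial.map_sub, Polynomial.map_mul, hψR, hψcR, hν, sub_self]
    rw [e1, coeff_map]
    refine mem_nonunits_of_res_eq_zero comap_eq res_map res_eq_zero_iff
      (hR' _ ((ΨR - ψR * ψcR).coeff n).2) ?_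
    have h3 : redR res' hR' ((ΨR - ψR * ψcR).coeff n) = 0 := by
      rw [← coeff_map, e2, coeff_zero]
    exact h3
  · -- `ψc_unit`
    intro h hlt
    have hxreg : res'' ⟨θ, θ_mem⟩ ∈ Q''.toValuationSubring := value.mem
    -- the derivative
    have hder : derivative Ψ = (derivative ΨR).map R'.subtype := by
      rw [← hΨR, derivative_map]
    have hmem : aeval θ (derivative Ψ) ∈ O'' := by
      rw [hder]
      exact hmemR _
    apply simple hmem
    have e1 : res'' ⟨aeval θ (derivative Ψ), hmem⟩ =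
        aeval (res'' ⟨θ, θ_mem⟩) (derivative (ΨR.map (redR res' hR'))) := by
      have h1 := res_aeval_map comap_eq res_map hR' θ_mem (derivative ΨR) (hmemR _)
      rw [derivative_map]
      rw [← h1]
      congr 1
      apply Subtype.ext
      show aeval θ (derivative Ψ) = aeval θ ((derivative ΨR).map R'.subtype)
      rw [hder]
    have e2 : res'' ⟨aeval θ (ψcR.map R'.subtype), h⟩ = aeval (res'' ⟨θ, θ_mem⟩) ν := by
      rw [res_aeval_map comap_eq res_map hR' θ_mem ψcR h, hψcR]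
    rw [e2] at hlt
    rw [e1, hν, derivative_mul, map_add, map_mul, map_mul, minpoly.aeval, zero_mul, add_zero,
      map_mul]
    have hμ'reg : ∀ n, 0 ≤ Q'.ord ((derivative (minpoly Ft' (res'' ⟨θ, θ_mem⟩))).coeff n) := by
      intro n
      rw [coeff_derivative]
      have hn : ((n : Ft') + 1) = algebraMap k Ft' ((n : k) + 1) := by
        rw [map_add, map_natCast, map_one]
      by_cases h0 : (minpoly Ft' (res'' ⟨θ, θ_mem⟩)).coeff (n + 1) * ((n : Ft') + 1) = 0
      · rw [h0, Place.ord_zero]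
      · rw [Q'.ord_mul (left_ne_zero_of_mul h0) (right_ne_zero_of_mul h0), hn, Place.ord_algebraMap,
          add_zero]
        exact hμreg _
    exact mul_lt_one_of_nonneg_of_lt_one_right
      (adicValuation_aeval_le_one ord_map hxreg hμ'reg) zero_le hlt
  · -- `indep`
    exact indep_of_natDegree_le_minpoly hint (le_of_eq hdeg)

end Fermat.Agent.BR3.CoverK.OfMinpoly
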