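/-
Program C (S36), node A6-K / (SC3)-(SC4) (helper4): `CoverK/OfMinpoly` for the local ring of a
smooth chart.

For `R' = C.R`, `C : SmoothChart A O' res' Q' T'`:
* `hreg` of `exists_coverSheet_of_minpoly` holds: the reduction of a function of the local ring is
  regular at the point (`ord_res_nonneg`, from `SmoothChart.exists_isValueAt`);
* `hlift` follows from a dense subring of the residue field: if `D ⊆ Ft'` is a set of functions
  lifting to `C.R` and every function regular at `Q'` is a quotient `ā / b̄` with `ā, b̄ ∈ D`,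
  `b̄ (Q') ≠ 0` (`lift_of_quotients`): the lift of `b̄` is a unit of the local ring (`branch`).
`exists_coverSheet_of_minpoly_chart` : the easy fields + `hlift` give `∃ ψ ψc, CoverSheet …`.
-/
import Mathlib
import Fermat.Agent.BR3.CoverK.OfMinpoly

set_option autoImplicit false
set_option linter.unusedSectionVars false

namespace Fermat.Agent.BR3.CoverK.OfMinpoly

open AlgebraicCurve Polynomial Fermat.Agent.Red Fermat.Agent.X0 Fermat.Agent.BR.Centre
  Fermat.Agent.BR.S0 Fermat.Agent.BR3.CoverK.OfLift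

variable {K k : Type*} [Field K] [Field k]
  {F' : Type*} [Field F'] [Algebra K F'] {Ft' : Type*} [Field Ft'] [Algebra k Ft']
  {F'' : Type*} [Field F''] [Algebra K F''] [Algebra F' F''] [IsScalarTower K F' F'']
  {Ft'' : Type*} [Field Ft''] [Algebra k Ft''] [Algebra Ft' Ft''] [IsScalarTower k Ft' Ft'']
  {A : ValuationSubring K} {π : A →+* k}
  {O' : ValuationSubring F'} {res' : O' →+* Ft'} {Q' : Place k Ft'} {T' : Set (Place K F')}
  {O'' : ValuationSubring F''} {res'' : O'' →+* Ft''} {Q'' : Place k Ft''}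
  {θ : F''} {Ψ : F'[X]} {u : A}

/-- The reduction of a function of the local ring of a smooth chart is regular at the point. -/
theorem ord_res_nonneg (C : SmoothChart A O' res' Q' T')
    (hres : ∀ (a : K) (ha : a ∈ A) (h : algebraMap K F' a ∈ O'),
      res' ⟨algebraMap K F' a, h⟩ = algebraMap k Ft' (π ⟨a, ha⟩))
    {y : F'} (hy : y ∈ C.R) : 0 ≤ Q'.ord (res' ⟨y, C.le y hy⟩) := by
  obtain ⟨a, ha⟩ := C.exists_isValueAt hres hy
  exact (Place.mem_iff_ord_nonneg Q').1 ha.mem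

/-- **`hlift` from a dense set of liftable functions.** If every function of `D ⊆ Ft'` lifts to
the local ring and every function regular at the point is a quotient of two functions of `D` with
denominator not vanishing at the point, every function regular at the point lifts. -/
theorem lift_of_quotients (C : SmoothChart A O' res' Q' T') (D : Set Ft')
    (hD : ∀ d ∈ D, ∃ y ∈ C.R, ∃ hy : y ∈ O', res' ⟨y, hy⟩ = d)
    (hquot : ∀ f : Ft', 0 ≤ Q'.ord f → ∃ a ∈ D, ∃ b ∈ D, b ≠ 0 ∧ Q'.ord b = 0 ∧ f * b = a)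
    (f : Ft') (hf : 0 ≤ Q'.ord f) : ∃ y ∈ C.R, ∃ hy : y ∈ O', res' ⟨y, hy⟩ = f := by
  obtain ⟨a, ha, b, hb, hb0, hbQ, hfab⟩ := hquot f hf
  obtain ⟨ya, hyaR, hyaO, hya⟩ := hD a ha
  obtain ⟨yb, hybR, hybO, hyb⟩ := hD b hb
  -- the lift of the denominator is a unit of the local ring
  have hunit : IsUnit (⟨yb, hybR⟩ : C.R) := by
    by_contra hnu
    have h1 := C.branch ⟨yb, hybR⟩ hnu
    have e : (⟨((⟨yb, hybR⟩ : C.R) : F'), C.le _ hybR⟩ : O') = ⟨yb, hybO⟩ := rfl
    rw [e, hyb, adicValuation_lt_one_iff] at h1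
    rcases h1 with h1 | h1
    · exact hb0 h1
    · omega
  obtain ⟨w, hw⟩ := hunit.exists_right_inv
  have hw' : yb * (w : F') = 1 := congrArg (fun z : C.R => (z : F')) hw
  have hwO : (w : F') ∈ O' := C.le _ w.2
  refine ⟨ya * (w : F'), C.R.mul_mem hyaR w.2, O'.mul_mem _ _ hyaO hwO, ?_⟩
  have e1 : (⟨ya * (w : F'), O'.mul_mem _ _ hyaO hwO⟩ : O') = ⟨ya, hyaO⟩ * ⟨(w : F'), hwO⟩ := rfl
  have e2 : (⟨yb, hybO⟩ : O') * ⟨(w : F'), hwO⟩ = 1 := Subtype.ext hw'
  have h3 : b * res' ⟨(w : F'), hwO⟩ = 1 := by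
    rw [← hyb, ← map_mul, e2, map_one]
  rw [e1, map_mul, hya, ← hfab, mul_assoc, h3, mul_one]

/-- **`exists_coverSheet_of_minpoly` for the local ring of a smooth chart**: `hreg` is automatic. -/
theorem exists_coverSheet_of_minpoly_chart (C : SmoothChart A O' res' Q' T')
    (hres : ∀ (a : K) (ha : a ∈ A) (h : algebraMap K F' a ∈ O'),
      res' ⟨algebraMap K F' a, h⟩ = algebraMap k Ft' (π ⟨a, ha⟩))
    (comap_eq : O''.comap (algebraMap F' F'') = O')
    (res_map : ∀ (y : F') (hy : y ∈ O') (hy' : algebraMap F' F'' y ∈ O''),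
      res'' ⟨algebraMap F' F'' y, hy'⟩ = algebraMap Ft' Ft'' (res' ⟨y, hy⟩))
    (res_eq_zero_iff : ∀ x : O'', res'' x = 0 ↔ (x : F'') ∈ O''.nonunits)
    (ord_map : ∀ f : Ft', Q''.ord (algebraMap Ft' Ft'' f) = Q'.ord f)
    (θ_mem : θ ∈ O'') (monic : Ψ.Monic) (irreducible : Irreducible Ψ)
    (coeff_mem : ∀ n, Ψ.coeff n ∈ C.R) (root : aeval θ Ψ = 0)
    (gen : ∀ y : F'', ∃ p : F'[X], aeval θ p = y)
    (value : IsValueAt Q'' (res'' ⟨θ, θ_mem⟩) (π u))
    (simple : ∀ h : aeval θ (derivative Ψ) ∈ O'',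
      ¬ Q''.adicValuation (res'' ⟨aeval θ (derivative Ψ), h⟩) < 1)
    (hlift : ∀ f : Ft', 0 ≤ Q'.ord f → ∃ y ∈ C.R, ∃ hy : y ∈ O', res' ⟨y, hy⟩ = f) :
    ∃ ψ ψc : F'[X], CoverSheet A π O' res' Q' O'' res'' Q'' C.R θ Ψ ψ ψc u ∧
      ψ.natDegree = (minpoly Ft' (res'' ⟨θ, θ_mem⟩)).natDegree :=
  exists_coverSheet_of_minpoly comap_eq res_map res_eq_zero_iff ord_map θ_mem monic irreducible
    coeff_mem root gen value simple C.le hlift fun n => ord_res_nonneg C hres (coeff_mem n)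

end Fermat.Agent.BR3.CoverK.OfMinpoly
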