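import Fermat.Agent.BR3.CoverK.Chart

/-!
# Program C, node (MID-ALL), abstract half: the tube of a sheet does not depend on the sheet

Frame of `CoverK.Chart`: `C : RegChart A S.O S.res Q' T'` a regular chart downstairs over the
component of a constant reduction `S`, `H : CoverSheet A π S.O S.res Q' O'' res'' Q'' C.chart.R θ Ψ ψ
ψc u` a sheet of the cover at the point `Q''` of the component `(O'', res'')` upstairs.

* `mem_of_monic_root` : a root of a monic polynomial with coefficients in a valuation subring lies
  in it;
* `ord_nonneg_of_root` : a function integral over the chart ring downstairs is regular at EVERY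
  place over the tube `T'`;
* `mem_ring_of_root` : such a function lies in the local ring `coverRing` of the chart upstairs;
* **`compat_of_root`** : such a function is compatible at every place `P''` of the tube of the
  sheet: its value at `P''` is integral and reduces to the value at `Q''` of its reduction on the
  component (`CoverDiv.Compat`);
* **`coverTube_le_of_sheets`**, **`coverTube_eq_of_sheets`** : two sheets `(θ₁, u₁)`, `(θ₂, u₂)` at
  the same point `Q''` of the same component, over the same chart downstairs, have the same tube: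
  the tube depends only on `(O'', res'', Q'')`.
-/

set_option autoImplicit false
set_option linter.unusedSectionVars false
set_option linter.style.haveILetI false

namespace Fermat.Agent.BR3.CoverK.SheetCompat

open AlgebraicCurve Polynomial Fermat.Agent.Red Fermat.Agent.BR.Centre Fermat.Agent.BR.S0
  Fermat.Agent.BR3.CoverDiv Fermat.Agent.Val Fermat.Agent.BR3.CoverK

/-- a root of a monic polynomial with coefficients in a valuation subring lies in it -/
theorem mem_of_monic_root {E : Type*} [Field E] (V : ValuationSubring E) {p : E[X]}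
    (hp : p.Monic) (hc : ∀ n, p.coeff n ∈ V) {x : E} (hx : p.eval x = 0) : x ∈ V := by
  have hlifts : p ∈ Polynomial.lifts (V.subtype) :=
    (Polynomial.lifts_iff_coeff_lifts _).mpr fun i => ⟨⟨p.coeff i, hc i⟩, rfl⟩
  obtain ⟨p', hp'p, -, hp'm⟩ := Polynomial.lifts_and_natDegree_eq_and_monic hlifts hp
  have hint : IsIntegral V x := by
    refine ⟨p', hp'm, ?_⟩
    have e : algebraMap V E = V.subtype := rfl
    rw [e, ← Polynomial.eval_map, hp'p]
    exact hx
  obtain ⟨y, hy⟩ := IsIntegrallyClosed.isIntegral_iff.mp hint
  rw [← hy]
  exact y.2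

variable {K k : Type*} [Field K] [Field k]
  {F' : Type*} [Field F'] [Algebra K F'] {Ft' : Type*} [Field Ft'] [Algebra k Ft']
  {F'' : Type*} [Field F''] [Algebra K F''] [Algebra F' F''] [IsScalarTower K F' F'']
  {Ft'' : Type*} [Field Ft''] [Algebra k Ft''] [Algebra Ft' Ft''] [IsScalarTower k Ft' Ft'']
  [Algebra.IsIntegral F' F''] {A : ValuationSubring K} {π : A →+* k}
  {O' : ValuationSubring F'} {res' : O' →+* Ft'} {Q' : Place k Ft'} {T' : Set (Place K F')}
  {O'' : ValuationSubring F''} {res'' : O'' →+* Ft''} {Q'' : Place k Ft''}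

/-- the image of a monic polynomial equation -/
theorem eval_map_of_aeval {y : F''} {p : F'[X]} (hy : aeval y p = 0) :
    (p.map (algebraMap F' F'')).eval y = 0 := by
  rw [Polynomial.eval_map, ← Polynomial.aeval_def]
  exact hy

/-- **A function integral over the chart ring downstairs is regular at every place over the
tube.** -/
theorem ord_nonneg_of_root (C : RegChart A O' res' Q' T') {y : F''} {p : F'[X]} (hp : p.Monic)
    (hc : ∀ n, p.coeff n ∈ C.chart.R) (hy : aeval y p = 0) {P'' : Place K F''}
    (hP : P''.restrict F' ∈ T') : 0 ≤ P''.ord y := by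
  rw [← Fermat.Agent.X0.Place.mem_iff_ord_nonneg]
  refine mem_of_monic_root P''.toValuationSubring (hp.map (algebraMap F' F'')) (fun n => ?_)
    (eval_map_of_aeval hy)
  rw [Polynomial.coeff_map]
  obtain ⟨hI, -⟩ := C.centred _ hP
  obtain ⟨c, -, hv⟩ := hI _ (hc n)
  have h1 : p.coeff n ∈ (P''.restrict F').toValuationSubring := by
    rcases ((P''.restrict F').adicValuation_le_one_iff).mp hv.adicValuation_le_one with h | h
    · rw [h]
      exact zero_mem _
    · exact Fermat.Agent.X0.Place.mem_of_ord_nonneg _ h
  exact h1

section Sheet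

variable {θ : F''} {Ψ ψ ψc : F'[X]} {u : A}

/-- a function integral over the chart ring downstairs lies in the component upstairs -/
theorem mem_comp_of_root (C : RegChart A O' res' Q' T')
    (H : CoverSheet A π O' res' Q' O'' res'' Q'' C.chart.R θ Ψ ψ ψc u) {y : F''} {p : F'[X]}
    (hp : p.Monic) (hc : ∀ n, p.coeff n ∈ C.chart.R) (hy : aeval y p = 0) : y ∈ O'' := by
  refine mem_of_monic_root O'' (hp.map (algebraMap F' F'')) (fun n => ?_) (eval_map_of_aeval hy)
  rw [Polynomial.coeff_map]
  exact Fields.mem_of_mem C H (C.chart.le _ (hc n))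

variable [IsAlgClosed K] [FiniteDimensional F' F''] [Algebra.IsSeparable F' F'']
  (S : ConstRed (F := F') (Ft := Ft') A π) (C : RegChart A S.O S.res Q' T')
  (harch : ∀ a c : K, A.valuation a < 1 → c ≠ 0 → ∃ N : ℕ, A.valuation a ^ N ≤ A.valuation c)

include harch in
/-- a function integral over the chart ring downstairs lies in the local ring of the chart
upstairs -/
theorem mem_ring_of_root
    (H : CoverSheet A π S.O S.res Q' O'' res'' Q'' C.chart.R θ Ψ ψ ψc u) {y : F''} {p : F'[X]}
    (hp : p.Monic) (hc : ∀ n, p.coeff n ∈ C.chart.R) (hy : aeval y p = 0) :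
    y ∈ Fields.ring C H :=
  (coverRegChartOfConstRed S C H harch).chart.normal y (mem_comp_of_root C H hp hc hy)
    fun _ hP => ord_nonneg_of_root C hp hc hy hP.1

include harch in
/-- **Compatibility on the tube of a sheet**: a function integral over the chart ring downstairs
has, at every place of the tube, an integral value which reduces to the value at `Q''` of its
reduction on the component. -/
theorem compat_of_root
    (H : CoverSheet A π S.O S.res Q' O'' res'' Q'' C.chart.R θ Ψ ψ ψc u) {y : F''} {p : F'[X]}
    (hp : p.Monic) (hc : ∀ n, p.coeff n ∈ C.chart.R) (hy : aeval y p = 0) {P'' : Place K F''}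
    (hP : P'' ∈ coverTube A T' θ u) : Compat π O'' res'' Q'' P'' y :=
  Fields.compat C H (constHyp_of_constRed S).res_const (constHyp_of_constRed S).pi_inv
    (constHyp_of_constRed S).pi_zero hP (mem_ring_of_root S C harch H hp hc hy)

variable {θ₂ : F''} {Ψ₂ ψ₂ ψc₂ : F'[X]} {u₂ : A}

include harch in
/-- **The tube of a sheet is contained in the tube of any other sheet at the same point.** -/
theorem coverTube_le_of_sheets
    (H : CoverSheet A π S.O S.res Q' O'' res'' Q'' C.chart.R θ Ψ ψ ψc u)
    (H₂ : CoverSheet A π S.O S.res Q' O'' res'' Q'' C.chart.R θ₂ Ψ₂ ψ₂ ψc₂ u₂) :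
    coverTube A T' θ u ⊆ coverTube A T' θ₂ u₂ := by
  intro P'' hP
  obtain ⟨c, hc1, hc2⟩ := compat_of_root S C harch H H₂.monic H₂.coeff_mem H₂.root hP
  have h0 : π c = π u₂ := hc2.unique (Fields.ptValue_theta C H₂)
  have h1 : π (c - u₂) = 0 := by rw [map_sub, h0, sub_self]
  refine ⟨hP.1, (c : K), hc1, ?_⟩
  have := Fields.valuation_lt_one_of_map_eq_zero (π := π) h1
  simpa using this

include harch in
/-- **The tube depends only on the point**: two sheets at the same point of the same component,
over the same chart downstairs, have the same tube. -/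
theorem coverTube_eq_of_sheets
    (H : CoverSheet A π S.O S.res Q' O'' res'' Q'' C.chart.R θ Ψ ψ ψc u)
    (H₂ : CoverSheet A π S.O S.res Q' O'' res'' Q'' C.chart.R θ₂ Ψ₂ ψ₂ ψc₂ u₂) :
    coverTube A T' θ u = coverTube A T' θ₂ u₂ :=
  Set.Subset.antisymm (coverTube_le_of_sheets S C harch H H₂)
    (coverTube_le_of_sheets S C harch H₂ H)

end Sheet

end Fermat.Agent.BR3.CoverK.SheetCompat
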