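/-
Program C (S36), node (W4-ET-MOD), part 4 (helper24): the b-mirror of `CoverK/SubZeroAll` against
the one-function packaging `CInfChartAll.cInfTubeAll` (built along `α₂`): along `β₂`,

    P ∈ cInfTubeAll B hB hqM H Q'' hnc  ↔  H.r (P.restrictAlong β₂) = ⟨0, Φ_c • Q''⟩

at EVERY non-crossing point `Q''` of `can` (finite points and cusps), hypothesis-free
(`mem_cInfTubeAll_iff_r_beta2`, `r_beta2_of_mem_cInfTubeAll`, `mem_cInfTubeAll_overFrob`).
-/
import Mathlib
import Fermat.Agent.BR3.CoverK.SubZeroAll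
import Fermat.Agent.BR3.CInfChartAll

set_option autoImplicit false
set_option linter.style.haveILetI false
set_option linter.unusedSectionVars false

noncomputable section

set_option synthInstance.maxHeartbeats 400000

namespace Fermat.Agent.BR3.CoverK.SubInfAll

open ModularCurve AlgebraicCurve Fermat.Agent.X0 Fermat.Agent.Val Fermat.Agent.Red
open Fermat.Agent.Hecke Fermat.Agent.Hecke.AL Fermat.Agent.BR.TwoVal Fermat.Agent.BR.ResGen
open Fermat.Agent.BR.TwoValInst Fermat.Agent.BR.ConstRedTwo Fermat.Agent.BR.S0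
open Fermat.Agent.BR.S0.RedModular Fermat.Agent.BR.S0.RedHyp Fermat.Agent.BR.S0.PointDict
open Fermat.Agent.BR3.FibreProd Fermat.Agent.BR3.CInfRes Fermat.Agent.BR3.CoverK
open Fermat.Agent.BR3.CoverK.FibreInsepMod Fermat.Agent.BR3.CoverK.SubZeroMod
open Fermat.Agent.BR3.CoverK.SubZeroAll Fermat.Agent.BR2.LevelGen Fermat.Agent.BR3.CInfChartAll

variable {M q : ℕ} [NeZero M] [hq : Fact q.Prime]
variable (B : ValuationSubring (AlgebraicClosure ℚ)) (hB : B.LiesOverPrime q) (hqM : ¬ q ∣ M)

local notation "kB" => IsLocalRing.ResidueField B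
local notation "FtM" => modularFunctionFieldFullC (IsLocalRing.ResidueField B) M
local notation "Dm" => chartDataModular B hB hqM

variable [CharP (IsLocalRing.ResidueField B) q] [PerfectField (IsLocalRing.ResidueField B)]

/-- **The tube `cInfTubeAll` of the point `Q''` of `cInf` (built along `α₂`) is the full
`β₂`-preimage of the tube of the point `Φ_c • Q''` of `can`** (every non-crossing point). -/
theorem mem_cInfTubeAll_iff_r_beta2 (H : AtlasHyp (chartDataModular B hB hqM) (jx M q))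
    (Q'' : Place kB FtM) (hnc : ∀ e : Crossing Dm, Q'' ≠ z₁ Dm e)
    {P : Place Kb (Fb (M * q * q))} :
    P ∈ cInfTubeAll B hB hqM H Q'' hnc ↔
      H.r (P.restrictAlong (beta2 M q) (isIntegral_fb (beta2 M q))) =
        ⟨0, underFrob B (q := q) Q''⟩ :=
  mem_iff_r_beta2_of_regChart B hB hqM H Q'' hnc (cInfRegAll B hB hqM H Q'' hnc)
    (fun _ hP => restrictAlong_mem_of_mem_cInfTubeAll B hB hqM H Q'' hnc
      (isIntegral_fb (alpha2 M q)) hP)

/-- (sub) along `β₂` -/
theorem r_beta2_of_mem_cInfTubeAll (H : AtlasHyp (chartDataModular B hB hqM) (jx M q))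
    (Q'' : Place kB FtM) (hnc : ∀ e : Crossing Dm, Q'' ≠ z₁ Dm e)
    {P : Place Kb (Fb (M * q * q))} (hP : P ∈ cInfTubeAll B hB hqM H Q'' hnc) :
    H.r (P.restrictAlong (beta2 M q) (isIntegral_fb (beta2 M q))) =
      ⟨0, underFrob B (q := q) Q''⟩ :=
  (mem_cInfTubeAll_iff_r_beta2 B hB hqM H Q'' hnc).mp hP

/-- (exh) along `β₂`, the point downstairs given -/
theorem mem_cInfTubeAll_overFrob (H : AtlasHyp (chartDataModular B hB hqM) (jx M q))
    (Q' : Place kB FtM) (hnc : ∀ e : Crossing Dm, Q' ≠ z₁ Dm e)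
    {P : Place Kb (Fb (M * q * q))}
    (hP : H.r (P.restrictAlong (beta2 M q) (isIntegral_fb (beta2 M q))) = ⟨0, Q'⟩) :
    P ∈ cInfTubeAll B hB hqM H (overFrob B (q := q) Q')
      (not_crossing₁_overFrob B hB hqM hnc) :=
  (mem_cInfTubeAll_iff_r_beta2 B hB hqM H _ _).mpr (by rw [underFrob_overFrob]; exact hP)

end Fermat.Agent.BR3.CoverK.SubInfAll
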