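/-
Program C (S36), node (W4-ET-MOD), part 3 (helper24): the fibre of `X₀(M q²) → X₀(M q)` over EVERY
non-crossing point of `et` along `α₂` (finite points AND cusps), hypothesis-free, against helper1's
one-function packaging `CZeroChartAll.cZeroTubeAll`:

    P ∈ cZeroTubeAll B hB hqM H Q'' hnc  ↔  H.r (P.restrictAlong α₂) = ⟨1, Φ_c • Q''⟩

(`mem_cZeroTubeAll_iff_r_alpha2`; `mem_cZeroTubeAll_overFrob` = `hOld` over `et`;
`r_alpha2_of_mem_cZeroTubeAll` = `subZero`), and the GENERIC form for ANY regular chart `C''` of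
`cZero` at `Q''` on a tube `T''` lying over the tube of the point `Q''` of `et` along `β₂`
(`mem_iff_r_alpha2_of_regChart`).  Mirror for `cInf` over `can` along `β₂`
(`mem_iff_r_beta2_of_regChart`).

New ingredient for the cusps: `inv_jBar_mem_alpha2_of_not_integralAt` — if the place under `P` along
`β₂` is not `B`-integral on the finite chart, then `1/j` is regular at the place under `P` along
`α₂` (value analysis through `Φ_q`: `IntegralAt.of_isIntegral`), and its mirror.
-/
import Mathlib
import Fermat.Agent.BR3.CoverK.SubZeroMod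
import Fermat.Agent.BR3.CZeroChartAll
import Fermat.Agent.BR3.CInfChartCusp
import Fermat.Agent.BR3.CuspSheet.Chart

set_option autoImplicit false
set_option linter.style.haveILetI false
set_option linter.unusedSectionVars false

noncomputable section

/- S36 build-time patch: file-local shortcut instances. They only shorten instance search;
each is the instance that the search finds anyway (reducible, same terms after unfolding). -/
local instance (priority := 100000) Fermat.Agent.BR3.FastInst.instAlgFullC_CoverK_SubZeroAll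
    {k : Type*} [Field k] (N : ℕ) :
    Algebra k ↥(ModularCurve.modularFunctionFieldFullC k N) := inferInstance
local instance (priority := 100000) Fermat.Agent.BR3.FastInst.instFieldFullC_CoverK_SubZeroAll
    {k : Type*} [Field k] (N : ℕ) :
    Field ↥(ModularCurve.modularFunctionFieldFullC k N) := inferInstance
local instance (priority := 100000) Fermat.Agent.BR3.FastInst.instAlgLaurent_CoverK_SubZeroAll
    {k : Type*} [Field k] : Algebra k (LaurentSeries k) := inferInstance


set_option synthInstance.maxHeartbeats 400000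

namespace Fermat.Agent.BR3.CoverK.SubZeroAll

open ModularCurve AlgebraicCurve HahnSeries Polynomial Fermat.Agent.X0 Fermat.Agent.Val
open Fermat.Agent.Red Fermat.Agent.Hecke Fermat.Agent.Hecke.AL Fermat.Agent.BR.TwoVal
open Fermat.Agent.BR.ResGen Fermat.Agent.BR.TwoValInst Fermat.Agent.BR.ConstRedTwo
open Fermat.Agent.BR.S0 Fermat.Agent.BR.ModUnit Fermat.Agent.BR.Centre Fermat.Agent.BR.Kron
open Fermat.Agent.BR.S0.RedModular Fermat.Agent.BR.S0.RedHyp Fermat.Agent.BR.S0.PointDict
open Fermat.Agent.BR3.FibreProd Fermat.Agent.BR3.CZero Fermat.Agent.BR3.CInfRes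
open Fermat.Agent.BR3.CZeroRes Fermat.Agent.BR3.CoverK Fermat.Agent.BR3.CoverK.FibreInsepMod
open Fermat.Agent.BR3.CoverK.SubZeroMod
open Fermat.Agent.BR3.CoverPlaces Fermat.Agent.BR2.LevelGen Fermat.Agent.BR3.RegAtlas
open Fermat.Agent.BR3.CZeroChart Fermat.Agent.BR3.CInfChart Fermat.Agent.BR3.CoverSheetInf
open Fermat.Agent.BR3.CZeroChartCusp Fermat.Agent.BR3.CZeroChartAll
open Fermat.Agent.BR.Inst Fermat.Agent.BR.Inst.ChartInModel Fermat.Agent.Good.Bridge
open ModularCurve.IgusaScheme

/-! ### generic -/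

section Generic

variable {K F F' : Type*} [Field K] [Field F] [Field F'] [Algebra K F] [Algebra K F']

/-- The value of `φ y` at `w` is the value of `y` at the place under `w` along `φ`. -/
theorem isValueAt_restrictAlong_iff' (φ : F →ₐ[K] F') (hφ : φ.toRingHom.IsIntegral)
    (w : Place K F') (y : F) (c : K) :
    IsValueAt (w.restrictAlong φ hφ) y c ↔ IsValueAt w (φ y) c := by
  letI := algebraAlong φ
  haveI := isScalarTower_along φ
  haveI := isIntegral_along φ hφ
  exact isValueAt_restrict_iff w y c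

end Generic

variable {M q : ℕ} [NeZero M] [hq : Fact q.Prime]

/-- A root `y` of `Φ_q(x, ·)` is integral over every subring containing `x`. -/
theorem isIntegral_of_evalEval_phiK_subring {F : Type*} [Field F] (R : Subring F) {x y : F}
    (hx : x ∈ R) (h : (phiK q F).evalEval x y = 0) : IsIntegral R y := by
  have hmon : ((phiK q R).map (Polynomial.evalRingHom (⟨x, hx⟩ : R))).Monic :=
    (phiK_monic q hq.out R).map _
  refine ⟨_, hmon, ?_⟩
  rw [Polynomial.eval₂_eq_eval_map, ← h, ← Polynomial.map_evalRingHom_eval]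
  congr 1
  rw [phiK, phiK, Polynomial.map_map, Polynomial.map_map, Polynomial.map_map]
  congr 1
  apply Polynomial.ringHom_ext
  · intro n
    simp
  · simp
    rfl

variable (B : ValuationSubring (AlgebraicClosure ℚ)) (hB : B.LiesOverPrime q) (hqM : ¬ q ∣ M)

local notation "kB" => IsLocalRing.ResidueField B
local notation "FtM" => modularFunctionFieldFullC (IsLocalRing.ResidueField B) M
local notation "Dm" => chartDataModular B hB hqM

/-! ### values through `Φ_q` -/

/-- If `Φ_q(x, y) = 0` and `x` has a `B`-integral value at a place of `F̄_N`, so has `y`. -/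
theorem exists_isValueAt_of_evalEval_phiK {N : ℕ} [NeZero N] (P' : Place Kb (Fb N))
    {x y : Fb N} (h : (phiK q (Fb N)).evalEval x y = 0) {c : Kb} (hc : c ∈ B)
    (hx : IsValueAt P' x c) : ∃ c' : Kb, c' ∈ B ∧ IsValueAt P' y c' := by
  have hI : IntegralAt B (Subring.closure ({x} : Set (Fb N))) P' :=
    IntegralAt.closure (by
      intro z hz
      rw [Set.mem_singleton_iff] at hz
      subst hz
      exact ⟨c, hc, hx⟩)
  exact hI.of_isIntegral (place_deg_eq_one P')
    (isIntegral_of_evalEval_phiK_subring _ (Subring.subset_closure (Set.mem_singleton x)) h)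

include hB in
/-- `B`-integrality on the finite chart is `B`-integrality of the value of `j`. -/
theorem integralAt_chartFin_iff (P' : Place Kb (Fb (M * q))) :
    IntegralAt B (chartFin (M := M) (q := q)) P' ↔
      ∃ c : Kb, c ∈ B ∧ IsValueAt P' (jBar (M * q)) c :=
  Fermat.Agent.BR.Inst.integralAt_chartBarFin_iff hB (place_deg_eq_one P')

include hB hqM in
/-- **Cusp regularity along `α₂`**: if the place under `P` along `β₂` is not `B`-integral on the
finite chart, then `1/j` is regular at the place under `P` along `α₂`. -/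
theorem inv_jBar_mem_alpha2_of_not_integralAt {P : Place Kb (Fb (M * q * q))}
    (hb : ¬ IntegralAt B (chartFin (M := M) (q := q))
      (P.restrictAlong (beta2 M q) (isIntegral_fb (beta2 M q)))) :
    (jBar (M * q))⁻¹ ∈
      (P.restrictAlong (alpha2 M q) (isIntegral_fb (alpha2 M q))).toValuationSubring := by
  by_contra hinv
  by_cases h0 : jBar (M * q) = 0
  · rw [h0, inv_zero] at hinv
    exact hinv (zero_mem _)
  have hz : IsValueAt (P.restrictAlong (alpha2 M q) (isIntegral_fb (alpha2 M q)))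
      (jBar (M * q)) 0 := by
    rw [isValueAt_zero_iff]
    exact Fermat.Agent.BR.S0.SmoothLevelsGlue.adicValuation_lt_one_of_mul_eq_one
      (inv_mul_cancel₀ h0) hinv
  obtain ⟨c', hc', hv⟩ := exists_isValueAt_of_evalEval_phiK B _
    (evalEval_phiK_jBar_jq' hqM) B.zero_mem hz
  rw [isValueAt_restrictAlong_iff', ← Fermat.Agent.BR3.FibreProd.beta2_jBar,
    ← isValueAt_restrictAlong_iff' (beta2 M q) (isIntegral_fb (beta2 M q))] at hv
  exact hb ((integralAt_chartFin_iff B hB _).mpr ⟨c', hc', hv⟩)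

include hB in
/-- **Cusp regularity along `β₂`** (the mirror). -/
theorem inv_jBar_mem_beta2_of_not_integralAt {P : Place Kb (Fb (M * q * q))}
    (ha : ¬ IntegralAt B (chartFin (M := M) (q := q))
      (P.restrictAlong (alpha2 M q) (isIntegral_fb (alpha2 M q)))) :
    (jBar (M * q))⁻¹ ∈
      (P.restrictAlong (beta2 M q) (isIntegral_fb (beta2 M q))).toValuationSubring := by
  by_contra hinv
  by_cases h0 : jBar (M * q) = 0
  · rw [h0, inv_zero] at hinv
    exact hinv (zero_mem _)
  have hz : IsValueAt (P.restrictAlong (beta2 M q) (isIntegral_fb (beta2 M q)))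
      (jBar (M * q)) 0 := by
    rw [isValueAt_zero_iff]
    exact Fermat.Agent.BR.S0.SmoothLevelsGlue.adicValuation_lt_one_of_mul_eq_one
      (inv_mul_cancel₀ h0) hinv
  rw [isValueAt_restrictAlong_iff', Fermat.Agent.BR3.FibreProd.beta2_jBar,
    ← isValueAt_restrictAlong_iff' (alpha2 M q) (isIntegral_fb (alpha2 M q))] at hz
  obtain ⟨c', hc', hv⟩ := exists_isValueAt_of_evalEval_phiK B _
    (evalEval_phiK_jq'_jBar (M := M) (q := q)) B.zero_mem hz
  exact ha ((integralAt_chartFin_iff B hB _).mpr ⟨c', hc', hv⟩)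

/-- A place of `F̄_{Mq}` at which `1/j` is regular is regular on the whole chart at infinity. -/
theorem mem_of_mem_chartInf (P : Place Kb (Fb (M * q)))
    (hj : (jBar (M * q))⁻¹ ∈ P.toValuationSubring) {y : Fb (M * q)}
    (hy : y ∈ chartInf (M := M) (q := q)) : y ∈ P.toValuationSubring := by
  obtain ⟨x, hx, rfl⟩ := mem_chartBar_iff.mp hy
  have hint : IsIntegral P.toValuationSubring.toSubring (barEmb (M * q) x) :=
    isIntegral_barEmb_of_mem_chartAlg (M * q) q {(jFull (M * q))⁻¹}
      P.toValuationSubring.toSubring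
      (fun r => by
        rw [barEmb_algebraMap_zl]
        exact P.algebraMap_mem' _)
      (fun s hs => by
        rw [Set.mem_singleton_iff] at hs
        subst hs
        rw [map_inv₀, barEmb_jFull]
        exact hj) hx
  have hint' : IsIntegral P.toValuationSubring (barEmb (M * q) x) := hint
  obtain ⟨z, hz⟩ := IsIntegrallyClosed.isIntegral_iff.mp hint'
  rw [← hz]
  exact z.2

/-- If `1/j` is regular at the place under `P` along `α₂`, every function of the chart at
infinity is regular at `P` along `α₂`. -/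
theorem ord_alpha2_nonneg_of_mem_chartInf {P : Place Kb (Fb (M * q * q))}
    (h : (jBar (M * q))⁻¹ ∈
      (P.restrictAlong (alpha2 M q) (isIntegral_fb (alpha2 M q))).toValuationSubring)
    {y : Fb (M * q)} (hy : y ∈ chartInf (M := M) (q := q)) : 0 ≤ P.ord (alpha2 M q y) :=
  Fermat.Agent.X0.OrdDx.ord_nonneg_of_mem P
    ((mem_restrictAlong_iff (alpha2 M q) (isIntegral_fb (alpha2 M q)) P _).mp
      (mem_of_mem_chartInf _ h hy))

theorem ord_beta2_nonneg_of_mem_chartInf {P : Place Kb (Fb (M * q * q))}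
    (h : (jBar (M * q))⁻¹ ∈
      (P.restrictAlong (beta2 M q) (isIntegral_fb (beta2 M q))).toValuationSubring)
    {y : Fb (M * q)} (hy : y ∈ chartInf (M := M) (q := q)) : 0 ≤ P.ord (beta2 M q y) :=
  Fermat.Agent.X0.OrdDx.ord_nonneg_of_mem P
    ((mem_restrictAlong_iff (beta2 M q) (isIntegral_fb (beta2 M q)) P _).mp
      (mem_of_mem_chartInf _ h hy))

/-- A place reducing to a cusp of the component `i` is not integral on the finite chart. -/
theorem not_integralAt_chartFin_of_red_cusp (H : AtlasHyp (chartDataModular B hB hqM) (jx M q))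
    {i : Fin 2} {Q : Place kB FtM}
    (hi : IsValueAt Q ((chartDataModular B hB hqM).res i
      ⟨(jx M q)⁻¹, (chartDataModular B hB hqM).hinf i H.inv_mem⟩) 0)
    {P' : Place Kb (Fb (M * q))} (hred : Red Dm i P' Q) :
    ¬ IntegralAt B (chartFin (M := M) (q := q)) P' := by
  rcases hred with h | ⟨hnf, -⟩
  · exact (H.not_isValueAt_inv_zero (h.isValueAt H.x_mem) hi).elim
  · exact hnf

variable [CharP (IsLocalRing.ResidueField B) q] [PerfectField (IsLocalRing.ResidueField B)]

/-! ### the cusps are `Φ_c`-stable -/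

theorem cusp_underFrob_iff (Q : Place kB FtM) :
    (underFrob B (q := q) Q).adicValuation ((jFullC kB M)⁻¹) < 1 ↔
      Q.adicValuation ((jFullC kB M)⁻¹) < 1 := by
  have h := SemilinearAut.ord_smul (frobAutFullC kB M q) Q ((jFullC kB M)⁻¹)
  rw [smul_inv'', frobAutFullC_smul_jFullC' B] at h
  rw [adicValuation_lt_one_iff, adicValuation_lt_one_iff, underFrob, h]

/-! ### `cZero` over `et` along `α₂`: ANY regular chart of `cZero` built along `β₂` -/

section Zero

variable {T'' : Set (Place Kb (Fb (M * q * q)))}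

/-- **(sub), finite points.** -/
theorem r_alpha2_of_regChart_fin (H : AtlasHyp (chartDataModular B hB hqM) (jx M q))
    (Q'' : Place kB FtM) (hnc : ∀ e : Crossing Dm, Q'' ≠ z₂ Dm e)
    (hj : jFullC kB M ∈ Q''.toValuationSubring)
    (C'' : RegChart B (constRedCZero B hB hqM).O (constRedCZero B hB hqM).res Q'' T'')
    (hb : ∀ P ∈ T'', H.r (P.restrictAlong (beta2 M q) (isIntegral_fb (beta2 M q))) = ⟨1, Q''⟩)
    {P : Place Kb (Fb (M * q * q))} (hP : P ∈ T'') :
    H.r (P.restrictAlong (alpha2 M q) (isIntegral_fb (alpha2 M q))) =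
      ⟨1, underFrob B (q := q) Q''⟩ := by
  have hnc' := not_crossing₂_underFrob B hB hqM H hnc
  have hj' : jFullC kB M ∈ (underFrob B (q := q) Q'').toValuationSubring :=
    (jFullC_mem_underFrob_iff B Q'').mpr hj
  obtain ⟨c, hc⟩ := exists_isValueAt_res_one_jx B hB hqM H hj'
  have key : P.restrictAlong (alpha2 M q) (isIntegral_fb (alpha2 M q)) ∈
      {P' : Place Kb (Fb (M * q)) | H.r P' = ⟨1, underFrob B (q := q) Q''⟩} := by
    refine restrictAlong_mem_of_cZero B hB hqM Q'' C''
      (R' := chartFin (M := M) (q := q)) (chartFin_le B hB hqM 1) ?_ ?_ hP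
    · intro y hy P' hP'
      exact ord_alpha2_nonneg_of_mem_chartFin
        (ord_jBar_nonneg_one B hB hqM H hj _ (hb P' hP')) hy
    · intro P' h'
      exact (H.r_eq_one_iff_of_not_crossing hnc').mpr ((H.red_iff_fin hc).mpr h')
  exact key

/-- **(sub), cusps.** -/
theorem r_alpha2_of_regChart_cusp (H : AtlasHyp (chartDataModular B hB hqM) (jx M q))
    (Q'' : Place kB FtM) (hQ : Q''.adicValuation ((jFullC kB M)⁻¹) < 1)
    (C'' : RegChart B (constRedCZero B hB hqM).O (constRedCZero B hB hqM).res Q'' T'')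
    (hb : ∀ P ∈ T'', H.r (P.restrictAlong (beta2 M q) (isIntegral_fb (beta2 M q))) = ⟨1, Q''⟩)
    {P : Place Kb (Fb (M * q * q))} (hP : P ∈ T'') :
    H.r (P.restrictAlong (alpha2 M q) (isIntegral_fb (alpha2 M q))) =
      ⟨1, underFrob B (q := q) Q''⟩ := by
  have hQ' : (underFrob B (q := q) Q'').adicValuation ((jFullC kB M)⁻¹) < 1 :=
    (cusp_underFrob_iff B Q'').mpr hQ
  have hnc' := Fermat.Agent.BR3.CInfChart.ne_z₂_of_cusp B hB hqM _ hQ'
  have hi := isValueAt_res_one_jx_inv B hB hqM H hQ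
  have hi' := isValueAt_res_one_jx_inv B hB hqM H hQ'
  have key : P.restrictAlong (alpha2 M q) (isIntegral_fb (alpha2 M q)) ∈
      {P' : Place Kb (Fb (M * q)) | H.r P' = ⟨1, underFrob B (q := q) Q''⟩} := by
    refine restrictAlong_mem_of_cZero B hB hqM Q'' C''
      (R' := chartInf (M := M) (q := q)) (chartInf_le B hB hqM 1) ?_ ?_ hP
    · intro y hy P' hP'
      exact ord_alpha2_nonneg_of_mem_chartInf
        (inv_jBar_mem_alpha2_of_not_integralAt B hB hqM
          (not_integralAt_chartFin_of_red_cusp B hB hqM H hi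
            (H.r_eq_one_iff.mp (hb P' hP')).1)) hy
    · intro P' h'
      exact (H.r_eq_one_iff_of_not_crossing hnc').mpr ((H.red_iff_inf hi').mpr h')
  exact key

/-- **(sub) for `cZero` over `et` along `α₂`**: the tube of ANY regular chart of `cZero` at a
non-crossing point `Q''` lying over the tube of the point `Q''` of `et` along `β₂` is mapped by
`restrictAlong α₂` into the tube of the point `Φ_c • Q''` of `et`. -/
theorem r_alpha2_of_regChart (H : AtlasHyp (chartDataModular B hB hqM) (jx M q))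
    (Q'' : Place kB FtM) (hnc : ∀ e : Crossing Dm, Q'' ≠ z₂ Dm e)
    (C'' : RegChart B (constRedCZero B hB hqM).O (constRedCZero B hB hqM).res Q'' T'')
    (hb : ∀ P ∈ T'', H.r (P.restrictAlong (beta2 M q) (isIntegral_fb (beta2 M q))) = ⟨1, Q''⟩)
    {P : Place Kb (Fb (M * q * q))} (hP : P ∈ T'') :
    H.r (P.restrictAlong (alpha2 M q) (isIntegral_fb (alpha2 M q))) =
      ⟨1, underFrob B (q := q) Q''⟩ := by
  rcases finite_or_cusp B Q'' with hj | hQ
  · exact r_alpha2_of_regChart_fin B hB hqM H Q'' hnc hj C'' hb hP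
  · exact r_alpha2_of_regChart_cusp B hB hqM H Q'' hQ C'' hb hP

/-- **(exh) for `cZero` over `et` along `α₂`.** -/
theorem mem_of_r_alpha2_of_regChart (H : AtlasHyp (chartDataModular B hB hqM) (jx M q))
    (Q'' : Place kB FtM) (hnc : ∀ e : Crossing Dm, Q'' ≠ z₂ Dm e)
    (C'' : RegChart B (constRedCZero B hB hqM).O (constRedCZero B hB hqM).res Q'' T'')
    (hb : ∀ P ∈ T'', H.r (P.restrictAlong (beta2 M q) (isIntegral_fb (beta2 M q))) = ⟨1, Q''⟩)
    {P : Place Kb (Fb (M * q * q))}
    (hP : H.r (P.restrictAlong (alpha2 M q) (isIntegral_fb (alpha2 M q))) =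
      ⟨1, underFrob B (q := q) Q''⟩) : P ∈ T'' :=
  mem_tube_cZero B hB hqM Q''
    (T' := {P' : Place Kb (Fb (M * q)) | H.r P' = ⟨1, underFrob B (q := q) Q''⟩})
    (regChartEt B hB hqM H (underFrob B (q := q) Q'')
      (not_crossing₂_underFrob B hB hqM H hnc)).chart C''.chart
    (fun _ hP' => r_alpha2_of_regChart B hB hqM H Q'' hnc C'' hb hP') hP

/-- **The tube of any regular chart of `cZero` built along `β₂` over the tube of the point `Q''` of
`et` is the FULL `α₂`-preimage of the tube of the point `Φ_c • Q''` of `et`.** -/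
theorem mem_iff_r_alpha2_of_regChart (H : AtlasHyp (chartDataModular B hB hqM) (jx M q))
    (Q'' : Place kB FtM) (hnc : ∀ e : Crossing Dm, Q'' ≠ z₂ Dm e)
    (C'' : RegChart B (constRedCZero B hB hqM).O (constRedCZero B hB hqM).res Q'' T'')
    (hb : ∀ P ∈ T'', H.r (P.restrictAlong (beta2 M q) (isIntegral_fb (beta2 M q))) = ⟨1, Q''⟩)
    {P : Place Kb (Fb (M * q * q))} :
    P ∈ T'' ↔ H.r (P.restrictAlong (alpha2 M q) (isIntegral_fb (alpha2 M q))) =
      ⟨1, underFrob B (q := q) Q''⟩ :=
  ⟨r_alpha2_of_regChart B hB hqM H Q'' hnc C'' hb,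
    mem_of_r_alpha2_of_regChart B hB hqM H Q'' hnc C'' hb⟩

/-- **helper1's tube `cZeroTubeAll` of the point `Q''` of `cZero` is the full `α₂`-preimage of the
tube of the point `Φ_c • Q''` of `et`** (every non-crossing point: finite points and cusps). -/
theorem mem_cZeroTubeAll_iff_r_alpha2 (H : AtlasHyp (chartDataModular B hB hqM) (jx M q))
    (Q'' : Place kB FtM) (hnc : ∀ e : Crossing Dm, Q'' ≠ z₂ Dm e)
    {P : Place Kb (Fb (M * q * q))} :
    P ∈ cZeroTubeAll B hB hqM H Q'' hnc ↔
      H.r (P.restrictAlong (alpha2 M q) (isIntegral_fb (alpha2 M q))) =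
        ⟨1, underFrob B (q := q) Q''⟩ :=
  mem_iff_r_alpha2_of_regChart B hB hqM H Q'' hnc (cZeroRegAll B hB hqM H Q'' hnc)
    (fun _ hP => restrictAlong_mem_of_mem_cZeroTubeAll B hB hqM H Q'' hnc
      (isIntegral_fb (beta2 M q)) hP)

/-- `subZero` -/
theorem r_alpha2_of_mem_cZeroTubeAll (H : AtlasHyp (chartDataModular B hB hqM) (jx M q))
    (Q'' : Place kB FtM) (hnc : ∀ e : Crossing Dm, Q'' ≠ z₂ Dm e)
    {P : Place Kb (Fb (M * q * q))} (hP : P ∈ cZeroTubeAll B hB hqM H Q'' hnc) :
    H.r (P.restrictAlong (alpha2 M q) (isIntegral_fb (alpha2 M q))) =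
      ⟨1, underFrob B (q := q) Q''⟩ :=
  (mem_cZeroTubeAll_iff_r_alpha2 B hB hqM H Q'' hnc).mp hP

/-- **`hOld` over `et`**: every place over the tube of a non-crossing point `Q'` of `et` (along
`α₂`) lies in the tube of the point `Φ_c⁻¹ • Q'` of `cZero`. -/
theorem mem_cZeroTubeAll_overFrob (H : AtlasHyp (chartDataModular B hB hqM) (jx M q))
    (Q' : Place kB FtM) (hnc : ∀ e : Crossing Dm, Q' ≠ z₂ Dm e)
    {P : Place Kb (Fb (M * q * q))}
    (hP : H.r (P.restrictAlong (alpha2 M q) (isIntegral_fb (alpha2 M q))) = ⟨1, Q'⟩) :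
    P ∈ cZeroTubeAll B hB hqM H (overFrob B (q := q) Q')
      (not_crossing₂_overFrob B hB hqM H hnc) :=
  (mem_cZeroTubeAll_iff_r_alpha2 B hB hqM H _ _).mpr (by rw [underFrob_overFrob]; exact hP)

end Zero

/-! ### `cInf` over `can` along `β₂`: ANY regular chart of `cInf` built along `α₂` -/

section Inf

variable {T'' : Set (Place Kb (Fb (M * q * q)))}

/-- **(sub), finite points** (mirror). -/
theorem r_beta2_of_regChart_fin (H : AtlasHyp (chartDataModular B hB hqM) (jx M q))
    (Q'' : Place kB FtM) (_hnc : ∀ e : Crossing Dm, Q'' ≠ z₁ Dm e)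
    (hj : jFullC kB M ∈ Q''.toValuationSubring)
    (C'' : RegChart B (constRedCInf B hB hqM).O (constRedCInf B hB hqM).res Q'' T'')
    (ha : ∀ P ∈ T'', H.r (P.restrictAlong (alpha2 M q) (isIntegral_fb (alpha2 M q))) = ⟨0, Q''⟩)
    {P : Place Kb (Fb (M * q * q))} (hP : P ∈ T'') :
    H.r (P.restrictAlong (beta2 M q) (isIntegral_fb (beta2 M q))) =
      ⟨0, underFrob B (q := q) Q''⟩ := by
  have hj' : jFullC kB M ∈ (underFrob B (q := q) Q'').toValuationSubring :=
    (jFullC_mem_underFrob_iff B Q'').mpr hj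
  obtain ⟨c, hc⟩ := exists_isValueAt_res_zero_jx B hB hqM H hj'
  have key : P.restrictAlong (beta2 M q) (isIntegral_fb (beta2 M q)) ∈
      {P' : Place Kb (Fb (M * q)) | H.r P' = ⟨0, underFrob B (q := q) Q''⟩} := by
    refine restrictAlong_mem_of_cInf B hB hqM Q'' C''
      (R' := chartFin (M := M) (q := q)) (chartFin_le B hB hqM 0) ?_ ?_ hP
    · intro y hy P' hP'
      exact ord_beta2_nonneg_of_mem_chartFin
        (ord_jq'_nonneg_zero B hB hqM H hj _ (ha P' hP')) hy
    · intro P' h'
      exact H.r_eq_zero_iff.mpr ((H.red_iff_fin hc).mpr h')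
  exact key

/-- **(sub), cusps** (mirror). -/
theorem r_beta2_of_regChart_cusp (H : AtlasHyp (chartDataModular B hB hqM) (jx M q))
    (Q'' : Place kB FtM) (hQ : Q''.adicValuation ((jFullC kB M)⁻¹) < 1)
    (C'' : RegChart B (constRedCInf B hB hqM).O (constRedCInf B hB hqM).res Q'' T'')
    (ha : ∀ P ∈ T'', H.r (P.restrictAlong (alpha2 M q) (isIntegral_fb (alpha2 M q))) = ⟨0, Q''⟩)
    {P : Place Kb (Fb (M * q * q))} (hP : P ∈ T'') :
    H.r (P.restrictAlong (beta2 M q) (isIntegral_fb (beta2 M q))) =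
      ⟨0, underFrob B (q := q) Q''⟩ := by
  have hQ' : (underFrob B (q := q) Q'').adicValuation ((jFullC kB M)⁻¹) < 1 :=
    (cusp_underFrob_iff B Q'').mpr hQ
  have hi := Fermat.Agent.BR3.CuspSheet.isValueAt_res_zero_jx_inv B hB hqM H hQ
  have hi' := Fermat.Agent.BR3.CuspSheet.isValueAt_res_zero_jx_inv B hB hqM H hQ'
  have key : P.restrictAlong (beta2 M q) (isIntegral_fb (beta2 M q)) ∈
      {P' : Place Kb (Fb (M * q)) | H.r P' = ⟨0, underFrob B (q := q) Q''⟩} := by
    refine restrictAlong_mem_of_cInf B hB hqM Q'' C''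
      (R' := chartInf (M := M) (q := q)) (chartInf_le B hB hqM 0) ?_ ?_ hP
    · intro y hy P' hP'
      exact ord_beta2_nonneg_of_mem_chartInf
        (inv_jBar_mem_beta2_of_not_integralAt B hB
          (not_integralAt_chartFin_of_red_cusp B hB hqM H hi
            (H.r_eq_zero_iff.mp (ha P' hP')))) hy
    · intro P' h'
      exact H.r_eq_zero_iff.mpr ((H.red_iff_inf hi').mpr h')
  exact key

/-- **(sub) for `cInf` over `can` along `β₂`**, any regular chart of `cInf` built along `α₂`. -/
theorem r_beta2_of_regChart (H : AtlasHyp (chartDataModular B hB hqM) (jx M q))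
    (Q'' : Place kB FtM) (hnc : ∀ e : Crossing Dm, Q'' ≠ z₁ Dm e)
    (C'' : RegChart B (constRedCInf B hB hqM).O (constRedCInf B hB hqM).res Q'' T'')
    (ha : ∀ P ∈ T'', H.r (P.restrictAlong (alpha2 M q) (isIntegral_fb (alpha2 M q))) = ⟨0, Q''⟩)
    {P : Place Kb (Fb (M * q * q))} (hP : P ∈ T'') :
    H.r (P.restrictAlong (beta2 M q) (isIntegral_fb (beta2 M q))) =
      ⟨0, underFrob B (q := q) Q''⟩ := by
  rcases finite_or_cusp B Q'' with hj | hQ
  · exact r_beta2_of_regChart_fin B hB hqM H Q'' hnc hj C'' ha hP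
  · exact r_beta2_of_regChart_cusp B hB hqM H Q'' hQ C'' ha hP

/-- **(exh) for `cInf` over `can` along `β₂`.** -/
theorem mem_of_r_beta2_of_regChart (H : AtlasHyp (chartDataModular B hB hqM) (jx M q))
    (Q'' : Place kB FtM) (hnc : ∀ e : Crossing Dm, Q'' ≠ z₁ Dm e)
    (C'' : RegChart B (constRedCInf B hB hqM).O (constRedCInf B hB hqM).res Q'' T'')
    (ha : ∀ P ∈ T'', H.r (P.restrictAlong (alpha2 M q) (isIntegral_fb (alpha2 M q))) = ⟨0, Q''⟩)
    {P : Place Kb (Fb (M * q * q))}
    (hP : H.r (P.restrictAlong (beta2 M q) (isIntegral_fb (beta2 M q))) =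
      ⟨0, underFrob B (q := q) Q''⟩) : P ∈ T'' :=
  mem_tube_cInf B hB hqM Q''
    (T' := {P' : Place Kb (Fb (M * q)) | H.r P' = ⟨0, underFrob B (q := q) Q''⟩})
    (regChartCan B hB hqM H (underFrob B (q := q) Q'')
      (not_crossing₁_underFrob B hB hqM hnc)).chart C''.chart
    (fun _ hP' => r_beta2_of_regChart B hB hqM H Q'' hnc C'' ha hP') hP

/-- **The tube of any regular chart of `cInf` built along `α₂` over the tube of the point `Q''` of
`can` is the FULL `β₂`-preimage of the tube of the point `Φ_c • Q''` of `can`.** -/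
theorem mem_iff_r_beta2_of_regChart (H : AtlasHyp (chartDataModular B hB hqM) (jx M q))
    (Q'' : Place kB FtM) (hnc : ∀ e : Crossing Dm, Q'' ≠ z₁ Dm e)
    (C'' : RegChart B (constRedCInf B hB hqM).O (constRedCInf B hB hqM).res Q'' T'')
    (ha : ∀ P ∈ T'', H.r (P.restrictAlong (alpha2 M q) (isIntegral_fb (alpha2 M q))) = ⟨0, Q''⟩)
    {P : Place Kb (Fb (M * q * q))} :
    P ∈ T'' ↔ H.r (P.restrictAlong (beta2 M q) (isIntegral_fb (beta2 M q))) =
      ⟨0, underFrob B (q := q) Q''⟩ :=
  ⟨r_beta2_of_regChart B hB hqM H Q'' hnc C'' ha,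
    mem_of_r_beta2_of_regChart B hB hqM H Q'' hnc C'' ha⟩

/-- the cusp tube of `cInf` (helper23 / helper2) along `β₂` -/
theorem mem_cInfTubeCusp_iff_r_beta2 (H : AtlasHyp (chartDataModular B hB hqM) (jx M q))
    (Q'' : Place kB FtM) (hQ : Q''.adicValuation ((jFullC kB M)⁻¹) < 1)
    {P : Place Kb (Fb (M * q * q))} :
    P ∈ cInfTubeCusp B hB hqM H Q'' ↔
      H.r (P.restrictAlong (beta2 M q) (isIntegral_fb (beta2 M q))) =
        ⟨0, underFrob B (q := q) Q''⟩ :=
  mem_iff_r_beta2_of_regChart B hB hqM H Q'' (Fermat.Agent.BR3.CInfChart.ne_z₁_of_cusp B hB hqM Q'' hQ)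
    (T'' := cInfTubeCusp B hB hqM H Q'')
    (Fermat.Agent.BR3.CuspSheet.cInfChartCusp B hB hqM H Q''
      (Fermat.Agent.BR3.CInfChart.ne_z₁_of_cusp B hB hqM Q'' hQ) hQ
      (Fermat.Agent.BR3.VertSheet.arch_of_isRankOne (Fermat.Agent.Val.isRankOne B hB)))
    (fun _ hP => restrict_mem_of_mem_cInfTubeCusp B hB hqM H Q'' hP)

end Inf

end Fermat.Agent.BR3.CoverK.SubZeroAll
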