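/-
Program C (S36), node (W4-ET-MOD), part 2 (helper24): the fibre of `X₀(M q²) → X₀(M q)` over the
FINITE non-crossing points of `et` along `α₂` (and of `can` along `β₂`), hypothesis-free.

`H : AtlasHyp (chartDataModular B hB hqM) (jx M q)` the atlas of `S'`; `Q''` a finite non-crossing
point of `et`; `cZeroTube B hB hqM H Q'' hnc hj` helper1's tube of the point `Q''` of `cZero`
(built ALONG `β₂` over the tube of the point `Q''` of `et`).  Then ALONG `α₂`:

    P ∈ cZeroTube B hB hqM H Q'' hnc hj  ↔  H.r (P.restrictAlong α₂) = ⟨1, Φ_c • Q''⟩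

(`mem_cZeroTube_iff_r_alpha2`; (sub) `r_alpha2_of_mem_cZeroTube`, (exh)
`mem_cZeroTube_of_r_alpha2`), i.e. the b-built tube is the FULL `α₂`-preimage of the tube of the
point `underFrob Q'' = Φ_c • Q''` of `et`.  Mirror: `cInfTube` (helper23, built along `α₂`) along
`β₂`: `mem_cInfTube_iff_r_beta2`.

Ingredients:
* `frobAutFullC_smul_Hbar` : `Φ_c` fixes `H(j̃)` (coefficients in `𝔽_q`), hence the crossings and
  the finite points are `Φ_c`-stable: `crossing₂_underFrob_iff`, `crossing₁_underFrob_iff`,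
  `jFullC_mem_underFrob_iff`;
* `mem_of_mem_chartFin` : a place of `F̄_{Mq}` at which `j` is regular is regular on the finite
  chart; `ord_alpha2_nonneg_of_mem_chartFin`, `ord_beta2_nonneg_of_mem_chartFin` : `j ∘ β₂ = jq' ∘ α₂`
  and `Φ_q` monic in both variables.
-/
import Mathlib
import Fermat.Agent.BR3.CoverK.FibreInsepMod
import Fermat.Agent.BR3.CZeroChart
import Fermat.Agent.BR3.CInfChart
import Fermat.Agent.BR2.FrobFixedFinite
import Fermat.Agent.BR3.FibreProdRoots
import Fermat.Agent.BR.Inst.ChartInModel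

set_option autoImplicit false
set_option linter.style.haveILetI false
set_option linter.unusedSectionVars false

noncomputable section

/- S36 build-time patch: file-local shortcut instances. They only shorten instance search;
each is the instance that the search finds anyway (reducible, same terms after unfolding). -/
local instance (priority := 100000) Fermat.Agent.BR3.FastInst.instAlgFullC_CoverK_SubZeroMod
    {k : Type*} [Field k] (N : ℕ) :
    Algebra k ↥(ModularCurve.modularFunctionFieldFullC k N) := inferInstance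
local instance (priority := 100000) Fermat.Agent.BR3.FastInst.instFieldFullC_CoverK_SubZeroMod
    {k : Type*} [Field k] (N : ℕ) :
    Field ↥(ModularCurve.modularFunctionFieldFullC k N) := inferInstance
local instance (priority := 100000) Fermat.Agent.BR3.FastInst.instAlgLaurent_CoverK_SubZeroMod
    {k : Type*} [Field k] : Algebra k (LaurentSeries k) := inferInstance


set_option synthInstance.maxHeartbeats 400000

namespace Fermat.Agent.BR3.CoverK.SubZeroMod

open ModularCurve AlgebraicCurve HahnSeries Polynomial Fermat.Agent.X0 Fermat.Agent.Val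
open Fermat.Agent.Red Fermat.Agent.Hecke Fermat.Agent.Hecke.AL Fermat.Agent.BR.TwoVal
open Fermat.Agent.BR.ResGen Fermat.Agent.BR.TwoValInst Fermat.Agent.BR.ConstRedTwo
open Fermat.Agent.BR.S0 Fermat.Agent.BR.ModUnit Fermat.Agent.BR.Centre
open Fermat.Agent.BR.S0.RedModular Fermat.Agent.BR.S0.RedHyp Fermat.Agent.BR.S0.PointDict
open Fermat.Agent.BR3.FibreProd Fermat.Agent.BR3.CZero Fermat.Agent.BR3.CInfRes
open Fermat.Agent.BR3.CZeroRes Fermat.Agent.BR3.CoverK Fermat.Agent.BR3.CoverK.FibreInsepMod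
open Fermat.Agent.BR3.CoverPlaces Fermat.Agent.BR2.LevelGen Fermat.Agent.BR3.RegAtlas
open Fermat.Agent.BR3.CZeroChart Fermat.Agent.BR3.CInfChart Fermat.Agent.BR3.CoverSheetInf
open Fermat.Agent.BR.Inst Fermat.Agent.BR.Inst.ChartInModel Fermat.Agent.Good.Bridge
open ModularCurve.IgusaScheme

/-! ### generic: membership in the valuation ring of `restrictAlong` -/

section Generic

variable {K F F' : Type*} [Field K] [Field F] [Field F'] [Algebra K F] [Algebra K F']

theorem mem_restrictAlong_iff (φ : F →ₐ[K] F') (hφ : φ.toRingHom.IsIntegral) (w : Place K F')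
    (f : F) : f ∈ (w.restrictAlong φ hφ).toValuationSubring ↔ φ f ∈ w.toValuationSubring :=
  Iff.rfl

end Generic

variable {M q : ℕ} [NeZero M] [hq : Fact q.Prime]
variable (B : ValuationSubring (AlgebraicClosure ℚ)) (hB : B.LiesOverPrime q) (hqM : ¬ q ∣ M)

local notation "kB" => IsLocalRing.ResidueField B
local notation "FtM" => modularFunctionFieldFullC (IsLocalRing.ResidueField B) M

variable [CharP (IsLocalRing.ResidueField B) q] [PerfectField (IsLocalRing.ResidueField B)]

/-! ### `Φ_c` fixes `j̃` and `H(j̃)` -/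

theorem frobAutFullC_smul_jFullC' : frobAutFullC kB M q • jFullC kB M = jFullC kB M := by
  haveI := Fermat.Agent.BR2.ResInst.isAlgClosed_res B
  exact Fermat.Agent.BR2.FrobFixed.frobAutFullC_smul_jFullC M kB

theorem frobAutFullC_smul_Hbar :
    frobAutFullC kB M q • (aeval (jFullC kB M) (TbarPolyK kB q)) =
      aeval (jFullC kB M) (TbarPolyK kB q) := by
  have h := Polynomial.hom_eval₂ (TbarPoly q)
    ((algebraMap kB FtM).comp (ZMod.castHom (dvd_refl q) kB))
    ((SemilinearAut.toRingAut (frobAutFullC kB M q) : FtM ≃+* FtM) : FtM →+* FtM)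
    (jFullC kB M)
  rw [SemilinearAut.smul_def, TbarPolyK, aeval_def, eval₂_map]
  refine h.trans ?_
  have h1 : ((SemilinearAut.toRingAut (frobAutFullC kB M q) : FtM ≃+* FtM) : FtM →+* FtM)
      (jFullC kB M) = jFullC kB M := frobAutFullC_smul_jFullC' B
  rw [h1]
  congr 1
  exact Subsingleton.elim _ _

theorem ord_underFrob_Hbar (Q : Place kB FtM) :
    (underFrob B (q := q) Q).ord (aeval (jFullC kB M) (TbarPolyK kB q)) =
      Q.ord (aeval (jFullC kB M) (TbarPolyK kB q)) := by
  have h := SemilinearAut.ord_smul (frobAutFullC kB M q) Q (aeval (jFullC kB M) (TbarPolyK kB q))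
  rw [frobAutFullC_smul_Hbar] at h
  exact h

theorem jFullC_mem_underFrob_iff (Q : Place kB FtM) :
    jFullC kB M ∈ (underFrob B (q := q) Q).toValuationSubring ↔
      jFullC kB M ∈ Q.toValuationSubring := by
  rw [underFrob, SemilinearAut.smul_toValuationSubring,
    ValuationSubring.mem_pointwise_smul_iff_inv_smul_mem]
  have h : (frobAutFullC kB M q)⁻¹ • jFullC kB M = jFullC kB M := by
    rw [inv_smul_eq_iff, frobAutFullC_smul_jFullC']
  rw [h]

/-! ### the crossings are `Φ_c`-stable -/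

local notation "Dm" => chartDataModular B hB hqM

/-- the branches `z₂ e` are the zeros of `H(j̃)` -/
theorem crossing₂_iff_ord_pos (H : AtlasHyp (chartDataModular B hB hqM) (jx M q))
    (Q : Place kB FtM) :
    (∃ e, z₂ Dm e = Q) ↔ 0 < Q.ord (aeval (jFullC kB M) (TbarPolyK kB q)) := by
  constructor
  · rintro ⟨e, rfl⟩
    exact ord_pos_z₂ B hB hqM e
  · exact exists_z₂_eq_of_ord_pos B hB hqM H Q

/-- the branches `z₁ e` are the zeros of `H(j̃)` -/
theorem crossing₁_iff_ord_pos (Q : Place kB FtM) :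
    (∃ e, z₁ Dm e = Q) ↔ 0 < Q.ord (aeval (jFullC kB M) (TbarPolyK kB q)) := by
  constructor
  · rintro ⟨e, rfl⟩
    have hg0 : aeval (jFullC kB M) (TbarPolyK kB q) ≠ 0 := Hbar_ne_zero B hB hqM
    have h1 : (chartDataModular B hB hqM).res 0
        ⟨TB M q, (chartDataModular B hB hqM).hfin 0 (TB_mem_chartFin M q)⟩ =
        aeval (jFullC kB M) (TbarPolyK kB q) := constRedW1_res_TB M q B hB hqM
    have h := AtlasHyp.ord_pos_of_crossing (D := chartDataModular B hB hqM)
      (TB_mem_chartFin M q) (constRedW2_res_TB M q B hB hqM) (by rw [h1]; exact hg0) e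
    rw [h1] at h
    exact h
  · intro hQ
    obtain ⟨Q₂, hQ₂⟩ := Fermat.Agent.BR.S0.ThickFinal.hzero_modular B hB hqM Q hQ
    exact ⟨⟨(Q, Q₂), hQ₂⟩, rfl⟩

theorem crossing₂_underFrob_iff (H : AtlasHyp (chartDataModular B hB hqM) (jx M q))
    (Q : Place kB FtM) :
    (∃ e, z₂ Dm e = underFrob B (q := q) Q) ↔ ∃ e, z₂ Dm e = Q := by
  rw [crossing₂_iff_ord_pos B hB hqM H, crossing₂_iff_ord_pos B hB hqM H, ord_underFrob_Hbar]

theorem crossing₁_underFrob_iff (Q : Place kB FtM) :
    (∃ e, z₁ Dm e = underFrob B (q := q) Q) ↔ ∃ e, z₁ Dm e = Q := by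
  rw [crossing₁_iff_ord_pos B hB hqM, crossing₁_iff_ord_pos B hB hqM, ord_underFrob_Hbar]

/-- the point of `et` under a non-crossing point of `cZero` (along `α₂`) is not a crossing -/
theorem not_crossing₂_underFrob (H : AtlasHyp (chartDataModular B hB hqM) (jx M q))
    {Q : Place kB FtM} (hnc : ∀ e, Q ≠ z₂ Dm e) : ∀ e, underFrob B (q := q) Q ≠ z₂ Dm e := by
  intro e he
  obtain ⟨e', he'⟩ := (crossing₂_underFrob_iff B hB hqM H Q).mp ⟨e, he.symm⟩
  exact hnc e' he'.symm

theorem not_crossing₂_of_underFrob (H : AtlasHyp (chartDataModular B hB hqM) (jx M q))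
    {Q : Place kB FtM} (hnc : ∀ e, underFrob B (q := q) Q ≠ z₂ Dm e) : ∀ e, Q ≠ z₂ Dm e := by
  intro e he
  obtain ⟨e', he'⟩ := (crossing₂_underFrob_iff B hB hqM H Q).mpr ⟨e, he.symm⟩
  exact hnc e' he'.symm

theorem not_crossing₁_underFrob {Q : Place kB FtM} (hnc : ∀ e, Q ≠ z₁ Dm e) :
    ∀ e, underFrob B (q := q) Q ≠ z₁ Dm e := by
  intro e he
  obtain ⟨e', he'⟩ := (crossing₁_underFrob_iff B hB hqM Q).mp ⟨e, he.symm⟩
  exact hnc e' he'.symm

theorem not_crossing₁_of_underFrob {Q : Place kB FtM}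
    (hnc : ∀ e, underFrob B (q := q) Q ≠ z₁ Dm e) : ∀ e, Q ≠ z₁ Dm e := by
  intro e he
  obtain ⟨e', he'⟩ := (crossing₁_underFrob_iff B hB hqM Q).mpr ⟨e, he.symm⟩
  exact hnc e' he'.symm

/-! ### regularity on the finite chart -/

omit [CharP (IsLocalRing.ResidueField B) q] [PerfectField (IsLocalRing.ResidueField B)] in
/-- A place of `F̄_{Mq}` at which `j` is regular is regular on the whole finite chart (the integral
closure of `ℤ_(q)[j]`). -/
theorem mem_of_mem_chartFin (P : Place Kb (Fb (M * q)))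
    (hj : jBar (M * q) ∈ P.toValuationSubring) {y : Fb (M * q)}
    (hy : y ∈ chartFin (M := M) (q := q)) : y ∈ P.toValuationSubring := by
  obtain ⟨x, hx, rfl⟩ := mem_chartBar_iff.mp hy
  have hint : IsIntegral P.toValuationSubring.toSubring (barEmb (M * q) x) :=
    isIntegral_barEmb_of_mem_chartAlg (M * q) q {jFull (M * q)} P.toValuationSubring.toSubring
      (fun r => by
        rw [barEmb_algebraMap_zl]
        exact P.algebraMap_mem' _)
      (fun s hs => by
        rw [Set.mem_singleton_iff] at hs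
        subst hs
        rw [barEmb_jFull]
        exact hj) hx
  have hint' : IsIntegral P.toValuationSubring (barEmb (M * q) x) := hint
  obtain ⟨z, hz⟩ := IsIntegrallyClosed.isIntegral_iff.mp hint'
  rw [← hz]
  exact z.2

omit [CharP (IsLocalRing.ResidueField B) q] [PerfectField (IsLocalRing.ResidueField B)] in
/-- If `j` is regular at the place under `P` along `β₂`, every function of the finite chart is
regular at `P` along `α₂` (`j ∘ β₂ = jq' ∘ α₂`, `Φ_q` monic in both variables). -/
theorem ord_alpha2_nonneg_of_mem_chartFin {P : Place Kb (Fb (M * q * q))}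
    (hb : 0 ≤ (P.restrictAlong (beta2 M q) (isIntegral_fb (beta2 M q))).ord (jBar (M * q)))
    {y : Fb (M * q)} (hy : y ∈ chartFin (M := M) (q := q)) : 0 ≤ P.ord (alpha2 M q y) := by
  have h1 : jBar (M * q) ∈
      (P.restrictAlong (beta2 M q) (isIntegral_fb (beta2 M q))).toValuationSubring := by
    by_cases h0 : jBar (M * q) = 0
    · rw [h0]
      exact zero_mem _
    · exact Fermat.Agent.X0.OrdDx.mem_of_ord_nonneg _ h0 hb
  have h2 : beta2 M q (jBar (M * q)) ∈ P.toValuationSubring :=
    (mem_restrictAlong_iff (beta2 M q) (isIntegral_fb (beta2 M q)) P _).mp h1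
  rw [Fermat.Agent.BR3.FibreProd.beta2_jBar] at h2
  have h3 : jq' M q ∈
      (P.restrictAlong (alpha2 M q) (isIntegral_fb (alpha2 M q))).toValuationSubring :=
    (mem_restrictAlong_iff (alpha2 M q) (isIntegral_fb (alpha2 M q)) P _).mpr h2
  have h4 := jBar_mem_of_jq'_mem _ h3
  have h5 := mem_of_mem_chartFin _ h4 hy
  exact Fermat.Agent.X0.OrdDx.ord_nonneg_of_mem P
    ((mem_restrictAlong_iff (alpha2 M q) (isIntegral_fb (alpha2 M q)) P _).mp h5)

omit [CharP (IsLocalRing.ResidueField B) q] [PerfectField (IsLocalRing.ResidueField B)] in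
/-- The mirror: if `jq'` is regular at the place under `P` along `α₂`, every function of the finite
chart is regular at `P` along `β₂`. -/
theorem ord_beta2_nonneg_of_mem_chartFin {P : Place Kb (Fb (M * q * q))}
    (ha : 0 ≤ (P.restrictAlong (alpha2 M q) (isIntegral_fb (alpha2 M q))).ord (jq' M q))
    {y : Fb (M * q)} (hy : y ∈ chartFin (M := M) (q := q)) : 0 ≤ P.ord (beta2 M q y) := by
  have h1 : jq' M q ∈
      (P.restrictAlong (alpha2 M q) (isIntegral_fb (alpha2 M q))).toValuationSubring := by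
    by_cases h0 : jq' M q = 0
    · rw [h0]
      exact zero_mem _
    · exact Fermat.Agent.X0.OrdDx.mem_of_ord_nonneg _ h0 ha
  have h2 : alpha2 M q (jq' M q) ∈ P.toValuationSubring :=
    (mem_restrictAlong_iff (alpha2 M q) (isIntegral_fb (alpha2 M q)) P _).mp h1
  rw [← Fermat.Agent.BR3.FibreProd.beta2_jBar] at h2
  have h3 : jBar (M * q) ∈
      (P.restrictAlong (beta2 M q) (isIntegral_fb (beta2 M q))).toValuationSubring :=
    (mem_restrictAlong_iff (beta2 M q) (isIntegral_fb (beta2 M q)) P _).mpr h2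
  have h5 := mem_of_mem_chartFin _ h3 hy
  exact Fermat.Agent.X0.OrdDx.ord_nonneg_of_mem P
    ((mem_restrictAlong_iff (beta2 M q) (isIntegral_fb (beta2 M q)) P _).mp h5)

/-! ### `cZero` over `et` along `α₂` at the finite non-crossing points -/

/-- **(sub) for `cZero` over `et` along `α₂`, finite points**: helper1's tube of the point `Q''` of
`cZero` (built along `β₂`) is mapped by `restrictAlong α₂` into the tube of the point `Φ_c • Q''` of
`et`. -/
theorem r_alpha2_of_mem_cZeroTube (H : AtlasHyp (chartDataModular B hB hqM) (jx M q))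
    (Q'' : Place kB FtM) (hnc : ∀ e : Crossing Dm, Q'' ≠ z₂ Dm e)
    (hj : jFullC kB M ∈ Q''.toValuationSubring) {P : Place Kb (Fb (M * q * q))}
    (hP : P ∈ cZeroTube B hB hqM H Q'' hnc hj) :
    H.r (P.restrictAlong (alpha2 M q) (isIntegral_fb (alpha2 M q))) =
      ⟨1, underFrob B (q := q) Q''⟩ := by
  have hnc' := not_crossing₂_underFrob B hB hqM H hnc
  have hj' : jFullC kB M ∈ (underFrob B (q := q) Q'').toValuationSubring :=
    (jFullC_mem_underFrob_iff B Q'').mpr hj
  obtain ⟨c, hc⟩ := exists_isValueAt_res_one_jx B hB hqM H hj'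
  have key : P.restrictAlong (alpha2 M q) (isIntegral_fb (alpha2 M q)) ∈
      {P' : Place Kb (Fb (M * q)) | H.r P' = ⟨1, underFrob B (q := q) Q''⟩} := by
    refine restrictAlong_mem_of_cZero B hB hqM Q'' (cZeroChart B hB hqM H Q'' hnc hj)
      (R' := chartFin (M := M) (q := q)) (chartFin_le B hB hqM 1) ?_ ?_ hP
    · intro y hy P' hP'
      exact ord_alpha2_nonneg_of_mem_chartFin
        (ord_jBar_nonneg_one B hB hqM H hj _
          (restrictAlong_mem_of_mem_cZeroTube B hB hqM H Q'' hnc hj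
            (isIntegral_fb (beta2 M q)) hP')) hy
    · intro P' h'
      exact (H.r_eq_one_iff_of_not_crossing hnc').mpr ((H.red_iff_fin hc).mpr h')
  exact key

/-- **(exh) for `cZero` over `et` along `α₂`, finite points**: every place over the tube of the
point `Φ_c • Q''` of `et` lies in the tube of the point `Q''` of `cZero`. -/
theorem mem_cZeroTube_of_r_alpha2 (H : AtlasHyp (chartDataModular B hB hqM) (jx M q))
    (Q'' : Place kB FtM) (hnc : ∀ e : Crossing Dm, Q'' ≠ z₂ Dm e)
    (hj : jFullC kB M ∈ Q''.toValuationSubring) {P : Place Kb (Fb (M * q * q))}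
    (hP : H.r (P.restrictAlong (alpha2 M q) (isIntegral_fb (alpha2 M q))) =
      ⟨1, underFrob B (q := q) Q''⟩) :
    P ∈ cZeroTube B hB hqM H Q'' hnc hj :=
  mem_tube_cZero B hB hqM Q''
    (T' := {P' : Place Kb (Fb (M * q)) | H.r P' = ⟨1, underFrob B (q := q) Q''⟩})
    (regChartEt B hB hqM H (underFrob B (q := q) Q'')
      (not_crossing₂_underFrob B hB hqM H hnc)).chart
    (cZeroSmooth B hB hqM H Q'' hnc hj)
    (fun _ hP' => r_alpha2_of_mem_cZeroTube B hB hqM H Q'' hnc hj hP') hP

/-- **The tube of the point `Q''` of `cZero` (finite, not a crossing) is the full `α₂`-preimage of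
the tube of the point `Φ_c • Q''` of `et`.** -/
theorem mem_cZeroTube_iff_r_alpha2 (H : AtlasHyp (chartDataModular B hB hqM) (jx M q))
    (Q'' : Place kB FtM) (hnc : ∀ e : Crossing Dm, Q'' ≠ z₂ Dm e)
    (hj : jFullC kB M ∈ Q''.toValuationSubring) {P : Place Kb (Fb (M * q * q))} :
    P ∈ cZeroTube B hB hqM H Q'' hnc hj ↔
      H.r (P.restrictAlong (alpha2 M q) (isIntegral_fb (alpha2 M q))) =
        ⟨1, underFrob B (q := q) Q''⟩ :=
  ⟨r_alpha2_of_mem_cZeroTube B hB hqM H Q'' hnc hj,
    mem_cZeroTube_of_r_alpha2 B hB hqM H Q'' hnc hj⟩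

/-- the point of `cZero` over a non-crossing point of `et` (along `α₂`) is not a crossing -/
theorem not_crossing₂_overFrob (H : AtlasHyp (chartDataModular B hB hqM) (jx M q))
    {Q' : Place kB FtM} (hnc : ∀ e, Q' ≠ z₂ Dm e) : ∀ e, overFrob B (q := q) Q' ≠ z₂ Dm e :=
  not_crossing₂_of_underFrob B hB hqM H (by rw [underFrob_overFrob]; exact hnc)

theorem not_crossing₁_overFrob {Q' : Place kB FtM} (hnc : ∀ e, Q' ≠ z₁ Dm e) :
    ∀ e, overFrob B (q := q) Q' ≠ z₁ Dm e :=
  not_crossing₁_of_underFrob B hB hqM (by rw [underFrob_overFrob]; exact hnc)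

theorem jFullC_mem_overFrob {Q' : Place kB FtM} (hj : jFullC kB M ∈ Q'.toValuationSubring) :
    jFullC kB M ∈ (overFrob B (q := q) Q').toValuationSubring :=
  (jFullC_mem_underFrob_iff B (overFrob B Q')).mp (by rw [underFrob_overFrob]; exact hj)

/-- **`hOld` over the finite non-crossing points of `et`**: every place over the tube of the point
`Q'` of `et` (along `α₂`) lies in the tube of the point `Φ_c⁻¹ • Q'` of `cZero`. -/
theorem mem_cZeroTube_overFrob (H : AtlasHyp (chartDataModular B hB hqM) (jx M q))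
    (Q' : Place kB FtM) (hnc : ∀ e : Crossing Dm, Q' ≠ z₂ Dm e)
    (hj : jFullC kB M ∈ Q'.toValuationSubring) {P : Place Kb (Fb (M * q * q))}
    (hP : H.r (P.restrictAlong (alpha2 M q) (isIntegral_fb (alpha2 M q))) = ⟨1, Q'⟩) :
    P ∈ cZeroTube B hB hqM H (overFrob B (q := q) Q') (not_crossing₂_overFrob B hB hqM H hnc)
      (jFullC_mem_overFrob B hj) :=
  mem_cZeroTube_of_r_alpha2 B hB hqM H _ _ _ (by rw [underFrob_overFrob]; exact hP)

/-! ### `cInf` over `can` along `β₂` at the finite non-crossing points -/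

/-- the regular chart of `cInf` at a finite non-crossing point, hypothesis-free -/
def cInfChartFin (H : AtlasHyp (chartDataModular B hB hqM) (jx M q))
    (Q'' : Place kB FtM) (hnc : ∀ e : Crossing Dm, Q'' ≠ z₁ Dm e)
    (hj : jFullC kB M ∈ Q''.toValuationSubring) :
    RegChart B (constRedCInf B hB hqM).O (constRedCInf B hB hqM).res Q''
      (cInfTube B hB hqM H Q'' hnc hj) :=
  cInfChartAt B hB hqM H Q'' hnc hj (ord_jBar_nonneg_zero B hB hqM H hj)
    (ord_jq'_nonneg_zero B hB hqM H hj)
    (Fermat.Agent.BR3.VertSheet.arch_of_isRankOne (Fermat.Agent.Val.isRankOne B hB))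

/-- the places of `cInfTube` lie over the tube of `can` (along `α₂`), `restrictAlong` form -/
theorem r_alpha2_of_mem_cInfTube (H : AtlasHyp (chartDataModular B hB hqM) (jx M q))
    (Q'' : Place kB FtM) (hnc : ∀ e : Crossing Dm, Q'' ≠ z₁ Dm e)
    (hj : jFullC kB M ∈ Q''.toValuationSubring) {P : Place Kb (Fb (M * q * q))}
    (hP : P ∈ cInfTube B hB hqM H Q'' hnc hj) :
    H.r (P.restrictAlong (alpha2 M q) (isIntegral_fb (alpha2 M q))) = ⟨0, Q''⟩ :=
  restrict_mem_of_mem_cInfTube B hB hqM H Q'' hnc hj hP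

/-- **(sub) for `cInf` over `can` along `β₂`, finite points.** -/
theorem r_beta2_of_mem_cInfTube (H : AtlasHyp (chartDataModular B hB hqM) (jx M q))
    (Q'' : Place kB FtM) (hnc : ∀ e : Crossing Dm, Q'' ≠ z₁ Dm e)
    (hj : jFullC kB M ∈ Q''.toValuationSubring) {P : Place Kb (Fb (M * q * q))}
    (hP : P ∈ cInfTube B hB hqM H Q'' hnc hj) :
    H.r (P.restrictAlong (beta2 M q) (isIntegral_fb (beta2 M q))) =
      ⟨0, underFrob B (q := q) Q''⟩ := by
  have hnc' := not_crossing₁_underFrob B hB hqM hnc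
  have hj' : jFullC kB M ∈ (underFrob B (q := q) Q'').toValuationSubring :=
    (jFullC_mem_underFrob_iff B Q'').mpr hj
  obtain ⟨c, hc⟩ := exists_isValueAt_res_zero_jx B hB hqM H hj'
  have key : P.restrictAlong (beta2 M q) (isIntegral_fb (beta2 M q)) ∈
      {P' : Place Kb (Fb (M * q)) | H.r P' = ⟨0, underFrob B (q := q) Q''⟩} := by
    refine restrictAlong_mem_of_cInf B hB hqM Q'' (cInfChartFin B hB hqM H Q'' hnc hj)
      (R' := chartFin (M := M) (q := q)) (chartFin_le B hB hqM 0) ?_ ?_ hP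
    · intro y hy P' hP'
      exact ord_beta2_nonneg_of_mem_chartFin
        (ord_jq'_nonneg_zero B hB hqM H hj _
          (r_alpha2_of_mem_cInfTube B hB hqM H Q'' hnc hj hP')) hy
    · intro P' h'
      exact H.r_eq_zero_iff.mpr ((H.red_iff_fin hc).mpr h')
  exact key

/-- **(exh) for `cInf` over `can` along `β₂`, finite points.** -/
theorem mem_cInfTube_of_r_beta2 (H : AtlasHyp (chartDataModular B hB hqM) (jx M q))
    (Q'' : Place kB FtM) (hnc : ∀ e : Crossing Dm, Q'' ≠ z₁ Dm e)
    (hj : jFullC kB M ∈ Q''.toValuationSubring) {P : Place Kb (Fb (M * q * q))}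
    (hP : H.r (P.restrictAlong (beta2 M q) (isIntegral_fb (beta2 M q))) =
      ⟨0, underFrob B (q := q) Q''⟩) :
    P ∈ cInfTube B hB hqM H Q'' hnc hj :=
  mem_tube_cInf B hB hqM Q''
    (T' := {P' : Place Kb (Fb (M * q)) | H.r P' = ⟨0, underFrob B (q := q) Q''⟩})
    (regChartCan B hB hqM H (underFrob B (q := q) Q'')
      (not_crossing₁_underFrob B hB hqM hnc)).chart
    (cInfChartFin B hB hqM H Q'' hnc hj).chart
    (fun _ hP' => r_beta2_of_mem_cInfTube B hB hqM H Q'' hnc hj hP') hP

/-- **The tube of the point `Q''` of `cInf` (finite, not a crossing; built along `α₂`) is the full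
`β₂`-preimage of the tube of the point `Φ_c • Q''` of `can`.** -/
theorem mem_cInfTube_iff_r_beta2 (H : AtlasHyp (chartDataModular B hB hqM) (jx M q))
    (Q'' : Place kB FtM) (hnc : ∀ e : Crossing Dm, Q'' ≠ z₁ Dm e)
    (hj : jFullC kB M ∈ Q''.toValuationSubring) {P : Place Kb (Fb (M * q * q))} :
    P ∈ cInfTube B hB hqM H Q'' hnc hj ↔
      H.r (P.restrictAlong (beta2 M q) (isIntegral_fb (beta2 M q))) =
        ⟨0, underFrob B (q := q) Q''⟩ :=
  ⟨r_beta2_of_mem_cInfTube B hB hqM H Q'' hnc hj,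
    mem_cInfTube_of_r_beta2 B hB hqM H Q'' hnc hj⟩

/-- the `Q'`-given form -/
theorem mem_cInfTube_overFrob (H : AtlasHyp (chartDataModular B hB hqM) (jx M q))
    (Q' : Place kB FtM) (hnc : ∀ e : Crossing Dm, Q' ≠ z₁ Dm e)
    (hj : jFullC kB M ∈ Q'.toValuationSubring) {P : Place Kb (Fb (M * q * q))}
    (hP : H.r (P.restrictAlong (beta2 M q) (isIntegral_fb (beta2 M q))) = ⟨0, Q'⟩) :
    P ∈ cInfTube B hB hqM H (overFrob B (q := q) Q') (not_crossing₁_overFrob B hB hqM hnc)
      (jFullC_mem_overFrob B hj) :=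
  mem_cInfTube_of_r_beta2 B hB hqM H _ _ _ (by rw [underFrob_overFrob]; exact hP)

end Fermat.Agent.BR3.CoverK.SubZeroMod
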