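import Mathlib
import Fermat.Agent.BR3.CoverK.Defs

/-!
# Program C, node A6-K, (VERT) part (V2): the gauge of the factorisation defect

For a standard étale sheet `H : CoverSheet …` over a regular chart `C` downstairs, the defect
`Δ = Ψ - ψ · ψc` of the factorisation has its coefficients in the maximal ideal of `O'`
(`H.factor`).  `exists_gauge` : there is `d ∈ O'` dividing all coefficients of `Δ` in `O'`, a power
of which is divisible by any given nonzero constant `c₀` (`d` = a coefficient of maximal valuation;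
`d` is a constant of absolute value `< 1` times a unit of `O'` by the value-group hypothesis, and
`A` has rank one).  These are the inputs `d`, `hfac`, `N`, `hN` of
`GaussContractSub.gaussContract_sub`.
-/

set_option autoImplicit false

namespace Fermat.Agent.BR3.CoverK

open AlgebraicCurve Polynomial Fermat.Agent.Red Fermat.Agent.BR.Centre Fermat.Agent.BR.S0

variable {K k : Type*} [Field K] [Field k]
  {F' : Type*} [Field F'] [Algebra K F'] {Ft' : Type*} [Field Ft'] [Algebra k Ft']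
  {F'' : Type*} [Field F''] [Algebra K F''] [Algebra F' F''] [IsScalarTower K F' F'']
  {Ft'' : Type*} [Field Ft''] [Algebra k Ft''] [Algebra Ft' Ft''] [IsScalarTower k Ft' Ft'']
  {A : ValuationSubring K} {π : A →+* k}
  {O' : ValuationSubring F'} {res' : O' →+* Ft'} {Q' : Place k Ft'} {T' : Set (Place K F')}
  {O'' : ValuationSubring F''} {res'' : O'' →+* Ft''} {Q'' : Place k Ft''}
  {θ : F''} {Ψ ψ ψc : F'[X]} {u : A}

/-- **(V2)** the gauge `d` of the defect `Ψ - ψ ψc` and the exponent `N` with `d ^ N ∈ c₀ O'`. -/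
theorem exists_gauge (C : RegChart A O' res' Q' T')
    (H : CoverSheet A π O' res' Q' O'' res'' Q'' C.chart.R θ Ψ ψ ψc u)
    (harch : ∀ a c : K, A.valuation a < 1 → c ≠ 0 → ∃ N : ℕ, A.valuation a ^ N ≤ A.valuation c)
    (hvg : ∀ y : F', y ≠ 0 → ∃ c : K, c ≠ 0 ∧ algebraMap K F' c * y ∈ O' ∧
      (algebraMap K F' c * y)⁻¹ ∈ O')
    {c₀ : K} (hc₀ : c₀ ≠ 0) :
    ∃ d ∈ O', (∀ n, ∃ a ∈ O', (Ψ - ψ * ψc).coeff n = d * a) ∧
      ∃ N : ℕ, (algebraMap K F' c₀)⁻¹ * d ^ N ∈ O' := by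
  set Δ : F'[X] := Ψ - ψ * ψc with hΔ
  by_cases hΔ0 : Δ = 0
  · refine ⟨0, O'.zero_mem, fun n => ⟨0, O'.zero_mem, ?_⟩, 1, ?_⟩
    · rw [hΔ0, coeff_zero, mul_zero]
    · rw [pow_one, mul_zero]
      exact O'.zero_mem
  -- a coefficient of maximal valuation
  have hne : Δ.support.Nonempty := by
    rw [Finset.nonempty_iff_ne_empty, Ne, Polynomial.support_eq_empty]
    exact hΔ0
  obtain ⟨n₀, hn₀, hmax⟩ := Finset.exists_max_image Δ.support
    (fun n => O'.valuation (Δ.coeff n)) hne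
  set d : F' := Δ.coeff n₀ with hd
  have hd0 : d ≠ 0 := Polynomial.mem_support_iff.mp hn₀
  have hdlt : O'.valuation d < 1 := (O'.mem_nonunits_iff).mp (H.factor n₀)
  have hdO : d ∈ O' := (O'.valuation_le_one_iff d).mp hdlt.le
  have hvd0 : O'.valuation d ≠ 0 := (Valuation.ne_zero_iff _).mpr hd0
  refine ⟨d, hdO, fun n => ⟨d⁻¹ * Δ.coeff n, ?_, ?_⟩, ?_⟩
  · rw [← O'.valuation_le_one_iff, map_mul, map_inv₀]
    by_cases hn : n ∈ Δ.support
    · have h1 := hmax n hn
      exact (inv_mul_le_one₀ (zero_lt_iff.mpr hvd0)).mpr h1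
    · rw [Polynomial.notMem_support_iff.mp hn, map_zero, mul_zero]
      exact zero_le_one
  · rw [← mul_assoc, mul_inv_cancel₀ hd0, one_mul]
  -- the exponent
  obtain ⟨cd, hcd0, hw, hwinv⟩ := hvg d hd0
  set w : F' := algebraMap K F' cd * d with hwdef
  have hw0 : w ≠ 0 := mul_ne_zero ((_root_.map_ne_zero _).mpr hcd0) hd0
  have hvw : O'.valuation w = 1 := by
    apply le_antisymm ((O'.valuation_le_one_iff w).mpr hw)
    have h1 := (O'.valuation_le_one_iff w⁻¹).mpr hwinv
    rw [map_inv₀] at h1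
    exact (inv_le_one₀ (zero_lt_iff.mpr ((Valuation.ne_zero_iff _).mpr hw0))).mp h1
  have hcdlt : A.valuation cd⁻¹ < 1 := by
    by_contra hcon
    rw [not_lt, map_inv₀, one_le_inv₀ (zero_lt_iff.mpr ((Valuation.ne_zero_iff _).mpr hcd0))] at hcon
    have hcdA : cd ∈ A := (A.valuation_le_one_iff cd).mp hcon
    have h1 : algebraMap K F' cd ∈ O' := C.chart.le _ (C.chart.algebraMap_mem cd hcdA)
    have h2 : O'.valuation w < 1 := by
      rw [hwdef, map_mul]
      exact mul_lt_one_of_nonneg_of_lt_one_right ((O'.valuation_le_one_iff _).mpr h1) zero_le hdlt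
    rw [hvw] at h2
    exact lt_irrefl _ h2
  obtain ⟨N, hN⟩ := harch cd⁻¹ c₀ hcdlt hc₀
  refine ⟨N, ?_⟩
  have hform : (algebraMap K F' c₀)⁻¹ * d ^ N = algebraMap K F' (c₀⁻¹ * cd⁻¹ ^ N) * w ^ N := by
    have hcdF : algebraMap K F' cd ≠ 0 := (_root_.map_ne_zero _).mpr hcd0
    rw [hwdef, map_mul, map_inv₀, map_pow, map_inv₀, mul_pow]
    have h1 : ((algebraMap K F' cd)⁻¹) ^ N * (algebraMap K F' cd) ^ N = 1 := by
      rw [← mul_pow, inv_mul_cancel₀ hcdF, one_pow]
    linear_combination (-(algebraMap K F' c₀)⁻¹ * d ^ N) * h1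
  rw [hform]
  have hA : c₀⁻¹ * cd⁻¹ ^ N ∈ A := by
    rw [← A.valuation_le_one_iff, map_mul, map_inv₀, map_pow]
    exact (inv_mul_le_one₀ (zero_lt_iff.mpr ((Valuation.ne_zero_iff _).mpr hc₀))).mpr hN
  exact O'.mul_mem _ _ (C.chart.le _ (C.chart.algebraMap_mem _ hA)) (O'.toSubring.pow_mem hw N)

end Fermat.Agent.BR3.CoverK
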