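import Mathlib
import Fermat.Agent.BR3.CoverK.Defs

/-!
# Program C, node A6-K, step (VERT), piece (V1): orthogonality from the independence of the
powers of `θ̄`, and the unit `ψc(θ)`

`H : CoverSheet A π O' res' Q' O'' res'' Q'' R' θ Ψ ψ ψc u` a standard étale sheet.

* `horth_of_indep` : a polynomial `r` of degree `< deg ψ` whose value at `θ` is integral on the
  component upstairs has coefficients integral on the component downstairs (the hypothesis
  `horth` of `GaussContractSub.gaussContract_sub`): otherwise divide by a coefficient of maximal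
  valuation and reduce; the reduction is a nontrivial relation between
  `1, θ̄, …, θ̄^{deg ψ - 1}` over `Ft'`, against `H.indep`.
* `inv_aeval_ψc_mem` : `ψc(θ)⁻¹` is integral on the component upstairs (the hypothesis `hg`).
-/

set_option autoImplicit false
set_option linter.unusedVariables false
set_option linter.unusedSectionVars false

namespace Fermat.Agent.BR3.CoverK

open AlgebraicCurve Polynomial Fermat.Agent.Red Fermat.Agent.BR.Centre Fermat.Agent.BR.S0

variable {K k : Type*} [Field K] [Field k]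
  {F' : Type*} [Field F'] [Algebra K F'] {Ft' : Type*} [Field Ft'] [Algebra k Ft']
  {F'' : Type*} [Field F''] [Algebra K F''] [Algebra F' F''] [IsScalarTower K F' F'']
  {Ft'' : Type*} [Field Ft''] [Algebra k Ft''] [Algebra Ft' Ft''] [IsScalarTower k Ft' Ft'']
  {A : ValuationSubring K} {π : A →+* k}
  {O' : ValuationSubring F'} {res' : O' →+* Ft'} {Q' : Place k Ft'}
  {O'' : ValuationSubring F''} {res'' : O'' →+* Ft''} {Q'' : Place k Ft''}
  {R' : Subring F'} {θ : F''} {Ψ ψ ψc : F'[X]} {u : A}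

/-- the component upstairs contains the image of the component downstairs, and conversely -/
theorem CoverSheet.orth_map_mem_iff (H : CoverSheet A π O' res' Q' O'' res'' Q'' R' θ Ψ ψ ψc u)
    (x : F') : algebraMap F' F'' x ∈ O'' ↔ x ∈ O' := by
  have h := H.comap_eq
  rw [← h]
  rfl

/-- the non-units downstairs are non-units upstairs -/
theorem CoverSheet.orth_map_mem_nonunits (H : CoverSheet A π O' res' Q' O'' res'' Q'' R' θ Ψ ψ ψc u)
    {x : F'} (hx : x ∈ O'.nonunits) : algebraMap F' F'' x ∈ O''.nonunits := by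
  rw [ValuationSubring.mem_nonunits_iff] at hx ⊢
  by_cases hx0 : x = 0
  · rw [hx0, map_zero, map_zero]
    exact zero_lt_one
  have hinv : x⁻¹ ∉ O' := by
    intro h
    have h1 := (O'.valuation_le_one_iff _).mpr h
    rw [map_inv₀] at h1
    have h2 : O'.valuation x ≠ 0 := (Valuation.ne_zero_iff _).mpr hx0
    have h3 := (inv_le_one₀ (zero_lt_iff.mpr h2)).mp h1
    exact absurd hx (not_lt.mpr h3)
  have hinv' : (algebraMap F' F'' x)⁻¹ ∉ O'' := by
    rw [← map_inv₀, H.orth_map_mem_iff]
    exact hinv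
  by_contra hcon
  rw [not_lt] at hcon
  apply hinv'
  rw [← O''.valuation_le_one_iff, map_inv₀]
  have h2 : O''.valuation (algebraMap F' F'' x) ≠ 0 :=
    (Valuation.ne_zero_iff _).mpr ((_root_.map_ne_zero _).mpr hx0)
  exact (inv_le_one₀ (zero_lt_iff.mpr h2)).mpr hcon

/-- **(V1)**: orthogonality of `1, θ, …, θ^{deg ψ - 1}`. -/
theorem horth_of_indep (H : CoverSheet A π O' res' Q' O'' res'' Q'' R' θ Ψ ψ ψc u)
    (hres0 : ∀ x : O', res' x = 0 ↔ (x : F') ∈ O'.nonunits) :
    ∀ r : F'[X], r.natDegree < ψ.natDegree → aeval θ r ∈ O'' → ∀ n, r.coeff n ∈ O' := by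
  intro r hdeg hrO
  by_contra hcon
  rw [not_forall] at hcon
  obtain ⟨n₀, hn₀⟩ := hcon
  -- a coefficient of maximal valuation
  have hne : r.support.Nonempty := by
    refine ⟨n₀, mem_support_iff.mpr ?_⟩
    intro h0
    rw [h0] at hn₀
    exact hn₀ O'.zero_mem
  obtain ⟨m, hm, hmax⟩ := Finset.exists_max_image r.support (fun n => O'.valuation (r.coeff n)) hne
  have hrm0 : r.coeff m ≠ 0 := mem_support_iff.mp hm
  have hvm0 : O'.valuation (r.coeff m) ≠ 0 := (Valuation.ne_zero_iff _).mpr hrm0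
  have hmax' : ∀ n, O'.valuation (r.coeff n) ≤ O'.valuation (r.coeff m) := by
    intro n
    by_cases hn : n ∈ r.support
    · exact hmax n hn
    · rw [notMem_support_iff.mp hn, map_zero]
      exact zero_le
  have hvm : 1 < O'.valuation (r.coeff m) := by
    have h1 : ¬ O'.valuation (r.coeff n₀) ≤ 1 := fun h => hn₀ ((O'.valuation_le_one_iff _).mp h)
    exact lt_of_lt_of_le (not_le.mp h1) (hmax' n₀)
  -- the normalised coefficients
  have hcoef : ∀ n, (r.coeff m)⁻¹ * r.coeff n ∈ O' := by
    intro n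
    rw [← O'.valuation_le_one_iff, map_mul, map_inv₀]
    rw [inv_mul_le_iff₀ (zero_lt_iff.mpr hvm0), mul_one]
    exact hmax' n
  have hinvnon : (r.coeff m)⁻¹ ∈ O'.nonunits := by
    rw [ValuationSubring.mem_nonunits_iff, map_inv₀]
    exact (inv_lt_one₀ (zero_lt_iff.mpr hvm0)).mpr hvm
  -- the value at `θ` of the normalised polynomial is a non-unit upstairs
  have hnon : algebraMap F' F'' (r.coeff m)⁻¹ * aeval θ r ∈ O''.nonunits := by
    have h1 := H.orth_map_mem_nonunits hinvnon
    rw [ValuationSubring.mem_nonunits_iff] at h1 ⊢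
    rw [map_mul]
    calc O''.valuation (algebraMap F' F'' (r.coeff m)⁻¹) * O''.valuation (aeval θ r)
        ≤ O''.valuation (algebraMap F' F'' (r.coeff m)⁻¹) * 1 :=
          mul_le_mul_right ((O''.valuation_le_one_iff _).mpr hrO) _
      _ = O''.valuation (algebraMap F' F'' (r.coeff m)⁻¹) := mul_one _
      _ < 1 := h1
  -- its expansion in the powers of `θ`
  have hexp : algebraMap F' F'' (r.coeff m)⁻¹ * aeval θ r =
      ∑ l : Fin ψ.natDegree, algebraMap F' F'' ((r.coeff m)⁻¹ * r.coeff l) * θ ^ (l : ℕ) := by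
    rw [aeval_eq_sum_range' hdeg, Finset.mul_sum, Finset.sum_range]
    refine Finset.sum_congr rfl fun l _ => ?_
    rw [Algebra.smul_def, map_mul]
    ring
  -- the same inside `O''`
  have hO'' : ∀ n, algebraMap F' F'' ((r.coeff m)⁻¹ * r.coeff n) ∈ O'' := fun n =>
    (H.orth_map_mem_iff _).mpr (hcoef n)
  set x : O'' := ∑ l : Fin ψ.natDegree,
    (⟨algebraMap F' F'' ((r.coeff m)⁻¹ * r.coeff l), hO'' l⟩ : O'') * (⟨θ, H.θ_mem⟩ : O'') ^ (l : ℕ)
    with hx
  have hxcoe : (x : F'') = algebraMap F' F'' (r.coeff m)⁻¹ * aeval θ r := by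
    rw [hexp, hx]
    push_cast
    rfl
  have hresx : res'' x = 0 := by
    rw [H.res_eq_zero_iff, hxcoe]
    exact hnon
  rw [hx, map_sum] at hresx
  have hresx' : ∑ l : Fin ψ.natDegree,
      algebraMap Ft' Ft'' (res' ⟨(r.coeff m)⁻¹ * r.coeff l, hcoef l⟩) *
        res'' ⟨θ, H.θ_mem⟩ ^ (l : ℕ) = 0 := by
    rw [← hresx]
    refine Finset.sum_congr rfl fun l _ => ?_
    rw [map_mul, map_pow, H.res_map _ (hcoef l) (hO'' l)]
  have hc := H.indep _ hresx'
  -- the `m`-th coefficient is `1`
  have hmlt : m < ψ.natDegree := lt_of_le_of_lt (le_natDegree_of_mem_supp m hm) hdeg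
  have h1 := congrFun hc ⟨m, hmlt⟩
  simp only [Pi.zero_apply] at h1
  have h2 : (⟨(r.coeff m)⁻¹ * r.coeff m, hcoef m⟩ : O') = 1 := Subtype.ext (inv_mul_cancel₀ hrm0)
  rw [h2, map_one] at h1
  exact one_ne_zero h1

/-- **the unit `ψc(θ)`**: its inverse is integral on the component upstairs. -/
theorem inv_aeval_ψc_mem (H : CoverSheet A π O' res' Q' O'' res'' Q'' R' θ Ψ ψ ψc u) :
    (aeval θ ψc)⁻¹ ∈ O'' := by
  by_cases h : aeval θ ψc ∈ O''
  · have hunit := H.ψc_unit h
    have hne : res'' ⟨aeval θ ψc, h⟩ ≠ 0 := by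
      intro h0
      apply hunit
      rw [h0, map_zero]
      exact zero_lt_one
    have hnon : aeval θ ψc ∉ O''.nonunits := fun hn => hne ((H.res_eq_zero_iff _).mpr hn)
    rw [ValuationSubring.mem_nonunits_iff, not_lt] at hnon
    have hval : O''.valuation (aeval θ ψc) = 1 :=
      le_antisymm ((O''.valuation_le_one_iff _).mpr h) hnon
    rw [← O''.valuation_le_one_iff, map_inv₀, hval, inv_one]
  · exact (O''.mem_or_inv_mem (aeval θ ψc)).resolve_left h

end Fermat.Agent.BR3.CoverK
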